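import Fermat.Agent.Igusa.PrimeLevel

/-!
# The degree `ψ(N)` over `K(j)`

The degree `ψ(N)` of `K(j(q^d) : d ∣ N)` over `K(j)` in every characteristic prime to `N`.
-/

set_option autoImplicit false

noncomputable section

open ModularCurve Polynomial IntermediateField

namespace Fermat.Agent.Igusa

theorem dedekindPsi_mul_prime_of_dvd {N p : ℕ} [NeZero N] (hp : p.Prime) (h : p ∣ N) :
    dedekindPsi (N * p) = p * dedekindPsi N := by
  unfold dedekindPsi
  have hset : (N * p).divisors.filter Squarefree = N.divisors.filter Squarefree := by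
    ext d
    simp only [Finset.mem_filter, Nat.mem_divisors]
    constructor
    · rintro ⟨⟨hd, -⟩, hsq⟩
      refine ⟨⟨?_, NeZero.ne N⟩, hsq⟩
      by_cases hpd : p ∣ d
      · obtain ⟨e, rfl⟩ := hpd
        have hpe : p.Coprime e := Nat.coprime_of_squarefree_mul hsq
        exact hpe.mul_dvd_of_dvd_of_dvd h
          (Nat.Coprime.dvd_of_dvd_mul_right hpe.symm (dvd_trans (dvd_mul_left e p) hd))
      · exact Nat.Coprime.dvd_of_dvd_mul_right ((hp.coprime_iff_not_dvd.mpr hpd).symm) hd
    · rintro ⟨⟨hd, -⟩, hsq⟩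
      exact ⟨⟨hd.mul_right p, Nat.mul_ne_zero (NeZero.ne N) hp.ne_zero⟩, hsq⟩
  rw [hset, Finset.mul_sum]
  refine Finset.sum_congr rfl fun d hd => ?_
  rw [mul_comm N p]
  exact Nat.mul_div_assoc p (Nat.dvd_of_mem_divisors (Finset.mem_filter.mp hd).1)

theorem dedekindPsi_mul_prime_of_not_dvd {N p : ℕ} [NeZero N] (hp : p.Prime) (h : ¬ p ∣ N) :
    dedekindPsi (N * p) = (p + 1) * dedekindPsi N := by
  classical
  unfold dedekindPsi
  have hset : (N * p).divisors.filter Squarefree =
      N.divisors.filter Squarefree ∪ (N.divisors.filter Squarefree).image (p * ·) := by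
    ext d
    simp only [Finset.mem_union, Finset.mem_image, Finset.mem_filter, Nat.mem_divisors]
    constructor
    · rintro ⟨⟨hd, -⟩, hsq⟩
      by_cases hpd : p ∣ d
      · obtain ⟨e, rfl⟩ := hpd
        refine Or.inr ⟨e, ⟨⟨?_, NeZero.ne N⟩, hsq.of_mul_right⟩, rfl⟩
        rw [mul_comm N p] at hd
        exact Nat.dvd_of_mul_dvd_mul_left hp.pos hd
      · exact Or.inl ⟨⟨Nat.Coprime.dvd_of_dvd_mul_right ((hp.coprime_iff_not_dvd.mpr hpd).symm) hd,
          NeZero.ne N⟩, hsq⟩
    · rintro (⟨⟨hd, -⟩, hsq⟩ | ⟨e, ⟨⟨he, -⟩, hsq⟩, rfl⟩)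
      · exact ⟨⟨hd.mul_right p, Nat.mul_ne_zero (NeZero.ne N) hp.ne_zero⟩, hsq⟩
      · refine ⟨⟨by rw [mul_comm N p]; exact mul_dvd_mul_left p he,
          Nat.mul_ne_zero (NeZero.ne N) hp.ne_zero⟩, ?_⟩
        exact (Nat.squarefree_mul_iff).mpr
          ⟨hp.coprime_iff_not_dvd.mpr (fun hc => h (hc.trans he)), hp.prime.squarefree, hsq⟩
  rw [hset, Finset.sum_union, Finset.sum_image, add_mul, one_mul, Finset.mul_sum]
  · congr 1
    · refine Finset.sum_congr rfl fun d hd => ?_
      rw [mul_comm N p]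
      exact Nat.mul_div_assoc p (Nat.dvd_of_mem_divisors (Finset.mem_filter.mp hd).1)
    · refine Finset.sum_congr rfl fun d _ => ?_
      rw [mul_comm N p, Nat.mul_div_mul_left _ _ hp.pos]
  · intro a _ b _ hab
    exact Nat.eq_of_mul_eq_mul_left hp.pos hab
  · rw [Finset.disjoint_left]
    intro d hd hd'
    obtain ⟨e, -, rfl⟩ := Finset.mem_image.mp hd'
    exact h (dvd_trans (dvd_mul_right p e) (Nat.dvd_of_mem_divisors (Finset.mem_filter.mp hd).1))

theorem exists_root_of_dvd_prod {M : Type*} [Field M] {ι : Type*} [Fintype ι] (r : ι → M)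
    {g : Polynomial M} (hdeg : 0 < g.natDegree) (h : g ∣ ∏ i, (X - Polynomial.C (r i))) :
    ∃ i, g.eval (r i) = 0 := by
  by_contra hcon
  push Not at hcon
  have hcop : IsCoprime g (∏ i, (X - Polynomial.C (r i))) :=
    IsCoprime.prod_right fun i _ => by
      refine ((Polynomial.irreducible_X_sub_C (r i)).coprime_iff_not_dvd.mpr ?_).symm
      rw [Polynomial.dvd_iff_isRoot]
      exact hcon i
  have := Polynomial.natDegree_eq_zero_of_isUnit (hcop.isUnit_of_dvd' dvd_rfl h)
  omega

variable (K : Type*) [Field K]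

local notation "k" => AlgebraicClosure K

local notation "F" => modularFunctionFieldFullC K

theorem fullC_one : F 1 = jField K := by
  refine le_antisymm ?_ ?_
  · rw [modularFunctionFieldFullC, adjoin_le_iff]
    rintro x ⟨d, _, hd, rfl⟩
    rw [Nat.dvd_one] at hd
    subst hd
    rw [qExpand_one_apply]
    exact mem_adjoin_simple_self K _
  · rw [adjoin_le_iff, Set.singleton_subset_iff]
    exact jqModC_mem_full K 1

theorem jField_le (N : ℕ) : jField K ≤ F N := by
  rw [adjoin_le_iff, Set.singleton_subset_iff]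
  exact jqModC_mem_full K N

/-- Any embedding sends `j(q ^ N)` to some `J(c t ^ m)`. -/
theorem exists_node_image (N : ℕ) : ∀ _ : NeZero N, (N : K) ≠ 0 →
    ∀ (M : ℕ) (_ : NeZero M) {Ω : Type _} [Field Ω] (i : LaurentSeries k →+* Ω)
      (φ : F N →+* Ω),
      φ ⟨jqModC K, jqModC_mem_full K N⟩ = i (Jat (1 : kˣ) (N * M)) →
      ∃ (c : kˣ) (m : ℕ) (_ : NeZero m), φ ⟨jd K N, jd_mem K dvd_rfl⟩ = i (Jat c (m * M)) := by
  induction N using Nat.strong_induction_on with
  | _ N ih =>
    intro hN0 hN M hM Ω _ i φ hj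
    by_cases h1 : N = 1
    · subst h1
      refine ⟨1, 1, inferInstance, ?_⟩
      rw [← hj]
      exact congrArg φ (Subtype.ext (jd_one K))
    obtain ⟨p, hp, N', rfl⟩ := Nat.exists_prime_and_dvd h1
    have : Fact p.Prime := ⟨hp⟩
    have : NeZero N' := ⟨right_ne_zero_of_mul (NeZero.ne (p * N'))⟩
    have hle : F N' ≤ F (p * N') := full_degeneracyC_le K (dvd_mul_left N' p)
    obtain ⟨c, m, hm, hc⟩ := ih N'
      ((lt_mul_iff_one_lt_left (Nat.pos_of_ne_zero (NeZero.ne N'))).mpr hp.one_lt) inferInstance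
      (cast_ne_zero_of_dvd K (dvd_mul_left N' p) hN) (p * M) inferInstance i
      (φ.comp (IntermediateField.inclusion hle).toRingHom)
      (hj.trans (congrArg i (Jat_congr rfl (by ring))))
    obtain ⟨c', hc'⟩ : ∃ c' : kˣ, c' ^ p = c := by
      obtain ⟨z, hz⟩ := IsAlgClosed.exists_pow_nat_eq (c : k) hp.pos
      refine ⟨Units.mk0 z fun h0 => c.ne_zero ?_, Units.ext (by simpa using hz)⟩
      rw [← hz, h0, zero_pow hp.ne_zero]
    obtain ⟨ζ, hζ, hζ'⟩ := exists_zeta p k
      (cast_ne_zero_algClosure K (cast_ne_zero_of_dvd K (dvd_mul_right p N') hN))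
    set x : F (p * N') := ⟨jd K N', hle (jd_mem K dvd_rfl)⟩ with hx
    set y : F (p * N') := ⟨jd K (p * N'), jd_mem K dvd_rfl⟩ with hy
    have hφx : φ x = i (Jat (c' ^ p) (m * M * p)) := by
      have : φ x = i (Jat c (m * (p * M))) := hc
      rw [this]
      exact congrArg i (Jat_congr hc'.symm (by ring))
    have hroot : (modAt p x).eval y = 0 := by
      obtain ⟨ξ, hξ, hξ'⟩ := exists_zeta p k
        (cast_ne_zero_algClosure K (cast_ne_zero_of_dvd K (dvd_mul_right p N') hN))
      apply ((emb K p).comp (F (p * N')).toSubfield.subtype).injective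
      rw [map_zero, ← Polynomial.eval₂_hom, ← Polynomial.eval_map, modAt_map]
      have e1 : ((emb K p).comp (F (p * N')).toSubfield.subtype) x =
          Jat ((1 : kˣ) ^ p) (N' * p) := by
        show emb K p (jd K N') = _
        rw [emb_jd]
        exact Jat_congr (one_pow p).symm (mul_comm _ _)
      have e2 : ((emb K p).comp (F (p * N')).toSubfield.subtype) y =
          nodeRoot p ξ 1 N' none := by
        show emb K p (jd K (p * N')) = _
        rw [emb_jd]
        exact Jat_congr (one_pow _).symm (by ring)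
      rw [e1, e2]
      exact modAt_node_root p ξ 1 N' hξ' none
    have h0 : (modAt p (i (Jat (c' ^ p) (m * M * p)))).eval (φ y) = 0 := by
      rw [← hφx, ← modAt_map, Polynomial.eval_map, Polynomial.eval₂_hom, hroot, map_zero]
    rw [← modAt_map, modAt_node p ζ c' (m * M) hζ', Polynomial.map_prod, Polynomial.eval_prod,
      Finset.prod_eq_zero_iff] at h0
    obtain ⟨γ, -, hγ⟩ := h0
    rw [Polynomial.map_sub, Polynomial.map_X, Polynomial.map_C, Polynomial.eval_sub,
      Polynomial.eval_X, Polynomial.eval_C, sub_eq_zero] at hγ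
    rcases γ with _ | b
    · exact ⟨c' ^ (p * p), m * (p * p), inferInstance,
        hγ.trans (congrArg i (Jat_congr rfl (by ring)))⟩
    · exact ⟨c' * ζ ^ b.val, m, hm, hγ⟩

/-- The invariant proved by induction on the level. -/
def DegreeInv (N : ℕ) [NeZero N] : Prop :=
  relfinrank (jField K) (F N) = dedekindPsi N ∧
    ∃ σ : F N →+* LaurentSeries k,
      σ ⟨jqModC K, jqModC_mem_full K N⟩ = Jat (1 : kˣ) N ∧
      σ ⟨jd K N, jd_mem K dvd_rfl⟩ = Jat (1 : kˣ) 1 ∧
      ∀ a : K, σ (algebraMap K (F N) a) = HahnSeries.C (algebraMap K k a)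

theorem degreeInv_one : DegreeInv K 1 := by
  refine ⟨by rw [fullC_one, relfinrank_self, dedekindPsi_one],
    (emb K 1).comp (F 1).toSubfield.subtype, ?_, ?_, fun a => ?_⟩
  · show emb K 1 (jqModC K) = _
    rw [← jd_one, emb_jd]
  · show emb K 1 (jd K 1) = _
    rw [emb_jd]
  · show emb K 1 (algebraMap K (LaurentSeries K) a) = _
    rw [algebraMap_eq_C, emb, RingHom.comp_apply, HahnSeries.C_apply, coeffMap_single,
      qExpand_single, mul_zero, HahnSeries.C_apply]

theorem jd_mem_of_mem {N p : ℕ} [NeZero N] [Fact p.Prime] (hK : ((N * p : ℕ) : K) ≠ 0)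
    (h : jd K (N * p) ∈ F N) : jd K p ∈ F N := by
  have hp : jd K p ∈ F (N * p) := jd_mem K (dvd_mul_left p N)
  rw [fullC_mul_prime K N p hK] at hp
  refine (sup_le le_rfl ?_ : F N ⊔ adjoin K {jd K (N * p)} ≤ F N) hp
  rw [adjoin_le_iff, Set.singleton_subset_iff]
  exact h

/-- For `p ∤ N`, `j(q ^ (N p))` is not in `F_N`. -/
theorem jd_notMem {N p : ℕ} [NeZero N] [hp : Fact p.Prime] (hK : ((N * p : ℕ) : K) ≠ 0)
    (hpN : ¬ p ∣ N) (hfin : relfinrank (jField K) (F N) ≠ 0)
    (hP : N ≠ 1 → DegreeInv K p) : jd K (N * p) ∉ F N := by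
  intro hy
  have hmem := jd_mem_of_mem K hK hy
  by_cases h1 : N = 1
  · subst h1
    rw [fullC_one] at hmem
    exact jd_prime_notMem K p (cast_ne_zero_of_dvd K (dvd_mul_left p 1) hK) hmem
  obtain ⟨-, σ, hσj, hσp, hσK⟩ := hP h1
  let i : LaurentSeries k →+* AlgebraicClosure (LaurentSeries k) :=
    algebraMap _ (AlgebraicClosure (LaurentSeries k))
  have hle : F p ≤ F N := by
    rw [show F p = F 1 ⊔ adjoin K {jd K (1 * p)} by
      rw [← fullC_mul_prime K 1 p (by
        rw [one_mul]; exact cast_ne_zero_of_dvd K (dvd_mul_left p N) hK)]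
      exact congrArg F (one_mul p).symm]
    refine sup_le (full_degeneracyC_le K (one_dvd N)) ?_
    rw [adjoin_le_iff, Set.singleton_subset_iff, jd_congr K (one_mul p)]
    exact hmem
  let φ0 : F p →+* AlgebraicClosure (LaurentSeries k) := i.comp ((qExpand k N).comp σ)
  let : Algebra (F p) (AlgebraicClosure (LaurentSeries k)) := φ0.toAlgebra
  set E : IntermediateField (F p) (LaurentSeries K) := extendScalars hle with hE
  have : Algebra.IsAlgebraic (F p) E := by
    have h1' := relfinrank_mul_relfinrank (jField_le K p) hle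
    have hne : relfinrank (F p) (F N) ≠ 0 := fun h => hfin (by rw [← h1', h, mul_zero])
    rw [relfinrank_eq_finrank_of_le hle] at hne
    have : Module.Finite (F p) E := Module.finite_of_finrank_pos (Nat.pos_of_ne_zero hne)
    exact Algebra.IsAlgebraic.of_finite (F p) E
  let ψ : E →ₐ[F p] AlgebraicClosure (LaurentSeries k) := IsAlgClosed.lift
  let φ : F N →+* AlgebraicClosure (LaurentSeries k) :=
    ψ.toRingHom.comp
      { toFun := fun x => ⟨x.1, x.2⟩
        map_one' := rfl
        map_mul' := fun _ _ => rfl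
        map_zero' := rfl
        map_add' := fun _ _ => rfl }
  have hφ : ∀ x : F p, φ ⟨x.1, hle x.2⟩ = φ0 x := fun x => ψ.commutes x
  have hφj : φ ⟨jqModC K, jqModC_mem_full K N⟩ = i (Jat (1 : kˣ) (N * p)) := by
    refine (hφ ⟨jqModC K, jqModC_mem_full K p⟩).trans ?_
    show i (qExpand k N (σ _)) = _
    rw [hσj, qExpand_Jat]
  have hgen : ∀ d, ∀ _ : NeZero d, ∀ hd : d ∣ N,
      φ ⟨jd K d, jd_mem K hd⟩ ∈ (i.comp (qExpand k p)).fieldRange := by
    intro d hd0 hd
    obtain ⟨e, he⟩ := hd
    have : NeZero e := ⟨fun h0 => NeZero.ne N (by rw [he, h0, mul_zero])⟩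
    have hdle : F d ≤ F N := full_degeneracyC_le K ⟨e, he⟩
    obtain ⟨c, m, hm, hc⟩ := exists_node_image K d inferInstance
      (cast_ne_zero_of_dvd K (⟨e * p, by rw [he, mul_assoc]⟩ : d ∣ N * p) hK) (e * p) inferInstance
      i (φ.comp (IntermediateField.inclusion hdle).toRingHom)
      (hφj.trans (congrArg i (Jat_congr rfl (by rw [he, mul_assoc]))))
    refine ⟨Jat c (m * e), ?_⟩
    refine Eq.trans ?_ hc.symm
    show i (qExpand k p (Jat c (m * e))) = _
    rw [qExpand_Jat]
    exact congrArg i (Jat_congr rfl (by ring))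
  have hall : ∀ x : LaurentSeries K, ∀ hx : x ∈ F N,
      φ ⟨x, hx⟩ ∈ (i.comp (qExpand k p)).fieldRange := by
    intro x hx
    induction hx using IntermediateField.adjoin_induction with
    | mem x hx =>
      obtain ⟨d, hd0, hd, rfl⟩ := hx
      exact hgen d hd0 hd
    | algebraMap a =>
      refine ⟨HahnSeries.C (algebraMap K k a), ?_⟩
      refine Eq.trans ?_ (hφ (algebraMap K (F p) a)).symm
      show i (qExpand k p _) = i (qExpand k N (σ _))
      rw [hσK, qExpand_C, qExpand_C]
    | add x y hx hy ihx ihy =>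
      have := add_mem ihx ihy
      rwa [← map_add] at this
    | inv x hx ih =>
      have := inv_mem ih
      rwa [← map_inv₀] at this
    | mul x y hx hy ihx ihy =>
      have := mul_mem ihx ihy
      rwa [← map_mul] at this
  obtain ⟨z, hz⟩ := hall (jd K p) hmem
  have h2 : φ ⟨jd K p, hmem⟩ = i (Jat (1 : kˣ) N) := by
    refine (hφ ⟨jd K p, jd_mem K dvd_rfl⟩).trans ?_
    show i (qExpand k N (σ _)) = _
    rw [hσp, qExpand_Jat]
    exact congrArg i (Jat_congr rfl (mul_one N))
  rw [h2] at hz
  exact Jat_ne_range_qExpand (1 : kˣ) N p hpN z (i.injective hz).symm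

theorem degreeInv_step {N p : ℕ} [NeZero N] [hp : Fact p.Prime] (hK : ((N * p : ℕ) : K) ≠ 0)
    (hN : DegreeInv K N) (hP : N ≠ 1 → ¬ p ∣ N → DegreeInv K p) : DegreeInv K (N * p) := by
  obtain ⟨hdeg, σ, hσj, hσN, hσK⟩ := hN
  have hψ0 : dedekindPsi N ≠ 0 := by
    unfold dedekindPsi
    refine (Finset.sum_pos' (fun _ _ => Nat.zero_le _) ⟨1, ?_, ?_⟩).ne'
    · simp [NeZero.ne N]
    · simpa using Nat.pos_of_ne_zero (NeZero.ne N)
  obtain ⟨ζ, hζ, hζ'⟩ := exists_zeta p k
    (cast_ne_zero_algClosure K (cast_ne_zero_of_dvd K (dvd_mul_left p N) hK))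
  set y : LaurentSeries K := jd K (N * p) with hy
  set σ' : F N →+* LaurentSeries k := (qExpand k p).comp σ with hσ'
  set a : F N := ⟨jd K N, jd_mem K dvd_rfl⟩ with ha
  set ι : F N →+* LaurentSeries K := algebraMap (F N) (LaurentSeries K) with hι
  set G : Polynomial (F N) := modAt p a with hG
  have hσ'a : σ' a = Jat ((1 : kˣ) ^ p) (1 * p) := by
    show qExpand k p (σ a) = _
    rw [hσN, qExpand_Jat]
    exact Jat_congr (one_pow p).symm (mul_comm p 1)
  have hGy : Polynomial.aeval y G = 0 := by
    rw [Polynomial.aeval_def, ← Polynomial.eval_map]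
    apply emb_injective K p
    rw [map_zero, ← Polynomial.eval₂_hom, ← Polynomial.eval_map, hG, modAt_map, modAt_map]
    have e1 : emb K p (ι a) = Jat ((1 : kˣ) ^ p) (N * p) := by
      show emb K p (jd K N) = _
      rw [emb_jd]
      exact Jat_congr (one_pow p).symm (mul_comm p N)
    have e2 : emb K p y = nodeRoot p ζ 1 N none := by
      rw [hy, emb_jd]
      exact Jat_congr (one_pow _).symm (by ring)
    rw [e1, e2]
    exact modAt_node_root p ζ 1 N hζ' none
  have hint : IsIntegral (F N) y := ⟨G, modAt_monic p a, hGy⟩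
  set m := minpoly (F N) y with hm
  have hmG : m ∣ G := minpoly.dvd _ _ hGy
  have hGmap : G.map σ' = ∏ γ, (X - Polynomial.C (nodeRoot p ζ 1 1 γ)) := by
    rw [hG, modAt_map, hσ'a, modAt_node p ζ 1 1 hζ']
  have hfix : (scale ζ).comp σ' = σ' := by
    refine RingHom.ext fun x => ?_
    show scale ζ (qExpand k p (σ x)) = _
    exact scale_qExpand_of_pow_eq_one (Units.ext (by simpa using hζ.pow_eq_one)) _
  have hscale : ∀ b : ZMod p, scale ζ (nodeRoot p ζ 1 1 (some b)) =
      nodeRoot p ζ 1 1 (some (b + 1)) := by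
    intro b
    show scale ζ (Jat _ 1) = Jat _ 1
    rw [scale_Jat, pow_one, one_mul, one_mul, ← pow_succ']
    refine Jat_congr (pow_eq_pow_of_modEq (n := p) ?_ (Units.ext (by simpa using hζ.pow_eq_one))) rfl
    rw [← ZMod.natCast_eq_natCast_iff]
    simp [ZMod.natCast_val]
  have hmdeg : 0 < m.natDegree := minpoly.natDegree_pos hint
  have hmmonic : m.Monic := minpoly.monic hint
  have hmmap : m.map σ' ≠ 0 := (hmmonic.map σ').ne_zero
  have hinj := nodeRoot_injective p ζ (1 : kˣ) 1 hζ
  obtain ⟨γ₀, hγ₀⟩ : ∃ γ, (m.map σ').eval (nodeRoot p ζ 1 1 γ) = 0 :=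
    exists_root_of_dvd_prod _ (by rwa [hmmonic.natDegree_map])
      (hGmap ▸ Polynomial.map_dvd σ' hmG)
  -- all translates of a root `some b` are roots
  have horbit : ∀ b₀, (m.map σ').eval (nodeRoot p ζ 1 1 (some b₀)) = 0 →
      p ≤ m.natDegree ∧ ∀ b, (m.map σ').eval (nodeRoot p ζ 1 1 (some b)) = 0 := by
    intro b₀ hb₀
    have hall : ∀ n : ℕ, (m.map σ').eval (nodeRoot p ζ 1 1 (some (b₀ + n))) = 0 := by
      intro n
      induction n with
      | zero => simpa using hb₀
      | succ n ihn =>
        have := congrArg (scale ζ) ihn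
        rw [map_zero, Polynomial.eval_map, Polynomial.hom_eval₂, hfix, hscale] at this
        rw [Polynomial.eval_map, Nat.cast_succ, ← add_assoc]
        exact this
    have hb : ∀ b, (m.map σ').eval (nodeRoot p ζ 1 1 (some b)) = 0 := fun b => by
      have := hall (b - b₀).val
      rwa [ZMod.natCast_zmod_val, add_sub_cancel] at this
    refine ⟨?_, hb⟩
    classical
    have hsub : (Finset.univ.image fun b : ZMod p => nodeRoot p ζ 1 1 (some b)).val ⊆
        (m.map σ').roots := by
      intro x hx
      obtain ⟨b, -, rfl⟩ := Finset.mem_image.mp hx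
      exact (Polynomial.mem_roots hmmap).mpr (hb b)
    have := Polynomial.card_le_degree_of_subset_roots hsub
    rw [Finset.card_image_of_injective (f := fun b : ZMod p => nodeRoot p ζ 1 1 (some b)) _
      (fun u v h => Option.some_injective _ (hinj h)), Finset.card_univ, ZMod.card,
      hmmonic.natDegree_map] at this
    exact this
  have hnone : (∀ b, (m.map σ').eval (nodeRoot p ζ 1 1 (some b)) ≠ 0) → y ∈ F N := by
    intro hno
    have hd : m.map σ' ∣ X - Polynomial.C (nodeRoot p ζ 1 1 none) := by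
      have h := Polynomial.map_dvd σ' hmG
      rw [hGmap, ← Finset.mul_prod_erase Finset.univ _ (Finset.mem_univ none)] at h
      refine (IsCoprime.prod_right fun i hi => ?_).dvd_of_dvd_mul_right h
      refine ((Polynomial.irreducible_X_sub_C _).coprime_iff_not_dvd.mpr ?_).symm
      rw [Polynomial.dvd_iff_isRoot]
      rcases i with _ | b
      · exact absurd rfl (Finset.ne_of_mem_erase hi)
      · exact hno b
    have hd1 := Polynomial.natDegree_le_of_dvd hd (Polynomial.X_sub_C_ne_zero _)
    rw [hmmonic.natDegree_map, Polynomial.natDegree_X_sub_C] at hd1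
    obtain ⟨w, hw⟩ := (minpoly.natDegree_eq_one_iff (A := F N) (x := y)).mp
      (show m.natDegree = 1 by omega)
    rw [← hw]
    exact w.2
  -- membership-type facts
  have hyroot : ∀ z : F N, G.eval z = 0 → ∀ b, σ' z ≠ nodeRoot p ζ 1 1 (some b) := by
    intro z _ b h
    exact Jat_ne_range_qExpand _ 1 p (by simpa using hp.out.ne_one) (σ z) h.symm
  have hσroot : ∀ z : F N, G.eval z = 0 → σ' z = nodeRoot p ζ 1 1 none := by
    intro z hz
    have h := congrArg σ' hz
    rw [map_zero, ← Polynomial.eval₂_hom, ← Polynomial.eval_map, hGmap, Polynomial.eval_prod,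
      Finset.prod_eq_zero_iff] at h
    obtain ⟨γ, -, hγ⟩ := h
    rw [Polynomial.eval_sub, Polynomial.eval_X, Polynomial.eval_C, sub_eq_zero] at hγ
    rcases γ with _ | b
    · exact hγ
    · exact absurd hγ (hyroot z hz b)
  have hzy : ∀ hyF : y ∈ F N, G.eval (⟨y, hyF⟩ : F N) = 0 := by
    intro hyF
    apply ι.injective
    rw [map_zero, ← Polynomial.eval₂_hom]
    exact hGy
  have hcases : y ∉ F N ∧ (∀ b, (m.map σ').eval (nodeRoot p ζ 1 1 (some b)) = 0) ∧
      dedekindPsi (N * p) = m.natDegree * dedekindPsi N := by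
    have hy_notMem : y ∉ F N ∧ (p ∣ N → m.natDegree ≤ p) ∧ (¬ p ∣ N → m.natDegree ≠ p) := by
      by_cases hpN : p ∣ N
      · obtain ⟨N', hN'⟩ := hpN
        have : NeZero N' := ⟨fun h0 => NeZero.ne N (by rw [hN', h0, mul_zero])⟩
        set z : F N := ⟨jd K N', jd_mem K ⟨p, by rw [hN', mul_comm]⟩⟩ with hz
        have hGz : G.eval z = 0 := by
          apply ((emb K p).comp ι).injective
          rw [map_zero, ← Polynomial.eval₂_hom, ← Polynomial.eval_map, hG, modAt_map]
          have e1 : ((emb K p).comp ι) a = Jat ((1 : kˣ) ^ p) (p * N' * p) := by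
            show emb K p (jd K N) = _
            rw [emb_jd]
            exact Jat_congr (one_pow p).symm (by rw [hN']; ring)
          have e2 : ((emb K p).comp ι) z = nodeRoot p ζ 1 (p * N') (some 0) := by
            show emb K p (jd K N') = _
            rw [emb_jd]
            exact Jat_congr (by simp) rfl
          rw [e1, e2]
          exact modAt_node_root p ζ 1 (p * N') hζ' (some 0)
        have hzne : y ≠ (z : LaurentSeries K) := by
          intro h
          have h' := congrArg (emb K 1) h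
          rw [hy, show (z : LaurentSeries K) = jd K N' from rfl, emb_jd, emb_jd] at h'
          have := (Jat_inj h').2
          rw [one_mul, one_mul, hN'] at this
          have h3 : N' * 1 = N' * (p * p) := by rw [mul_one]; linarith
          have h4 := Nat.eq_of_mul_eq_mul_left (Nat.pos_of_ne_zero (NeZero.ne N')) h3
          exact hp.out.one_lt.ne' (Nat.eq_one_of_mul_eq_one_right h4.symm)
        have hnot : y ∉ F N := by
          intro hyF
          apply hzne
          have := σ'.injective ((hσroot _ (hzy hyF)).trans (hσroot z hGz).symm)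
          exact congrArg Subtype.val this
        refine ⟨hnot, fun _ => ?_, fun h => absurd ⟨N', hN'⟩ h⟩
        have hcop : IsCoprime (X - Polynomial.C z) m := by
          refine (Polynomial.irreducible_X_sub_C z).coprime_iff_not_dvd.mpr ?_
          intro hd
          rw [Polynomial.dvd_iff_isRoot] at hd
          have := minpoly.root hint hd
          exact hzne this.symm
        have hmul := hcop.mul_dvd (Polynomial.dvd_iff_isRoot.mpr hGz) hmG
        have := Polynomial.natDegree_le_of_dvd hmul (modAt_monic p a).ne_zero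
        rw [Polynomial.natDegree_mul (Polynomial.X_sub_C_ne_zero z) hmmonic.ne_zero,
          Polynomial.natDegree_X_sub_C, hG, modAt_natDegree] at this
        omega
      · have hnot : y ∉ F N := jd_notMem K hK hpN (by rw [hdeg]; exact hψ0) (fun h1 => hP h1 hpN)
        refine ⟨hnot, fun h => absurd h hpN, fun _ hdp => ?_⟩
        obtain ⟨g, hg⟩ := hmG
        have hgm : g.Monic := hmmonic.of_mul_monic_left (hg ▸ modAt_monic p a)
        have hg1 : g.natDegree = 1 := by
          have := congrArg Polynomial.natDegree hg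
          rw [hG, modAt_natDegree, hmmonic.natDegree_mul hgm] at this
          omega
        set z : F N := -g.coeff 0 with hz
        have hgz : g.eval z = 0 := by
          rw [hgm.eq_X_add_C hg1]; simp [hz]
        have hGz : G.eval z = 0 := by rw [hg, Polynomial.eval_mul, hgz, mul_zero]
        -- `z` is a root lying in `K((q))`, hence equal to `y`
        have h := congrArg ((emb K p).comp ι) hGz
        rw [map_zero, ← Polynomial.eval₂_hom, ← Polynomial.eval_map, hG, modAt_map,
          show ((emb K p).comp ι) a = Jat ((1 : kˣ) ^ p) (N * p) by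
            show emb K p (jd K N) = _
            rw [emb_jd]
            exact Jat_congr (one_pow p).symm (mul_comm p N),
          modAt_node_root_iff p ζ 1 N hζ'] at h
        obtain ⟨_ | b, hb⟩ := h
        · have : emb K p (z : LaurentSeries K) = emb K p y := by
            refine hb.trans ?_
            rw [hy, emb_jd]
            exact Jat_congr (one_pow _) (by ring)
          exact hnot (emb_injective K p this ▸ z.2)
        · exact Jat_ne_range_qExpand _ N p hpN _ hb.symm
    obtain ⟨hy1, hy2, hy3⟩ := hy_notMem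
    obtain ⟨b₀, hb₀⟩ : ∃ b, (m.map σ').eval (nodeRoot p ζ 1 1 (some b)) = 0 := by
      by_contra hc
      push Not at hc
      exact hy1 (hnone hc)
    obtain ⟨hge, hb⟩ := horbit b₀ hb₀
    refine ⟨hy1, hb, ?_⟩
    by_cases hpN : p ∣ N
    · rw [dedekindPsi_mul_prime_of_dvd hp.out hpN, le_antisymm (hy2 hpN) hge]
    · have hle : m.natDegree ≤ p + 1 := by
        have := Polynomial.natDegree_le_of_dvd hmG (modAt_monic p a).ne_zero
        rwa [hG, modAt_natDegree] at this
      have := hy3 hpN
      rw [dedekindPsi_mul_prime_of_not_dvd hp.out hpN, show m.natDegree = p + 1 by omega]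
  obtain ⟨-, hroots, hpsi⟩ := hcases
  set E : IntermediateField (F N) (LaurentSeries K) := (F N)⟮y⟯ with hE
  have hFE : F (N * p) = E.restrictScalars K := by
    rw [hE, restrictScalars_adjoin, adjoin_union, adjoin_self, fullC_mul_prime K N p hK]
  have hle : F N ≤ F (N * p) := full_degeneracyC_le K (dvd_mul_right N p)
  have hrel : relfinrank (F N) (F (N * p)) = m.natDegree := by
    rw [relfinrank_eq_finrank_of_le hle, show extendScalars hle = E from
      restrictScalars_injective K (by rw [extendScalars_restrictScalars, hFE]), hE,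
      adjoin.finrank hint]
  refine ⟨?_, ?_⟩
  · rw [← relfinrank_mul_relfinrank (jField_le K N) hle, hdeg, hrel, hpsi, mul_comm]
  · have hz0 := hroots 0
    rw [Polynomial.eval_map] at hz0
    let τ : E →+* LaurentSeries k :=
      (AdjoinRoot.lift σ' (nodeRoot p ζ 1 1 (some 0)) hz0).comp
        (adjoinRootEquivAdjoin (F N) hint).symm.toRingEquiv.toRingHom
    have hτa : ∀ x : F N, τ (algebraMap (F N) E x) = σ' x := fun x => by
      show AdjoinRoot.lift σ' _ hz0 ((adjoinRootEquivAdjoin (F N) hint).symm (algebraMap _ _ x)) = _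
      rw [AlgEquiv.commutes, AdjoinRoot.algebraMap_eq, AdjoinRoot.lift_of]
    have hτy : τ (AdjoinSimple.gen (F N) y) = nodeRoot p ζ 1 1 (some 0) := by
      show AdjoinRoot.lift σ' _ hz0 ((adjoinRootEquivAdjoin (F N) hint).symm _) = _
      rw [adjoinRootEquivAdjoin_symm_apply_gen, AdjoinRoot.lift_root]
    let incl : F (N * p) →+* E :=
      { toFun := fun x => ⟨x.1, (mem_restrictScalars K).mp (hFE ▸ x.2)⟩
        map_one' := rfl
        map_mul' := fun _ _ => rfl
        map_zero' := rfl
        map_add' := fun _ _ => rfl }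
    refine ⟨τ.comp incl, ?_, ?_, fun c => ?_⟩
    · refine (hτa ⟨jqModC K, jqModC_mem_full K N⟩).trans ?_
      show qExpand k p (σ _) = _
      rw [hσj, qExpand_Jat]
      exact Jat_congr rfl (mul_comm p N)
    · refine hτy.trans ?_
      exact Jat_congr (by simp) rfl
    · refine (hτa (algebraMap K (F N) c)).trans ?_
      show qExpand k p (σ _) = _
      rw [hσK, qExpand_C]

/-- The invariant holds at every level prime to the characteristic. -/
theorem degreeInv (N : ℕ) : ∀ _ : NeZero N, (N : K) ≠ 0 → DegreeInv K N := by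
  induction N using Nat.strong_induction_on with
  | _ N ih =>
    intro hN0 hN
    by_cases h1 : N = 1
    · subst h1; exact degreeInv_one K
    obtain ⟨p, hp, hdvd⟩ := Nat.exists_prime_and_dvd h1
    rw [dvd_iff_exists_eq_mul_left] at hdvd
    obtain ⟨N', rfl⟩ := hdvd
    have : Fact p.Prime := ⟨hp⟩
    have : NeZero N' := ⟨left_ne_zero_of_mul (NeZero.ne (N' * p))⟩
    have hlt : N' < N' * p :=
      (lt_mul_iff_one_lt_right (Nat.pos_of_ne_zero (NeZero.ne N'))).mpr hp.one_lt
    refine degreeInv_step K hN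
      (ih N' hlt inferInstance (cast_ne_zero_of_dvd K (dvd_mul_right N' p) hN)) fun hne _ => ?_
    refine ih p ?_ inferInstance (cast_ne_zero_of_dvd K (dvd_mul_left p N') hN)
    refine (lt_mul_iff_one_lt_left hp.pos).mpr ?_
    have := NeZero.ne N'
    omega

/-- Igusa's degree theorem: `[K(j(q^d) : d ∣ N) : K(j)] = ψ(N)` when `N` is invertible in `K`. -/
theorem relfinrank_fullC (N : ℕ) [NeZero N] (hN : (N : K) ≠ 0) :
    relfinrank (jField K) (F N) = dedekindPsi N :=
  (degreeInv K N inferInstance hN).1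

end Fermat.Agent.Igusa
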