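import Fermat.Agent.Igusa.QSeries
import Mathlib.NumberTheory.ModularForms.LevelOne.GradedRing
import Mathlib.NumberTheory.ModularForms.EisensteinSeries.QExpansion
import Mathlib.Analysis.Calculus.Deriv.Polynomial

/-!
# Formal and analytic `q`-expansions

The prelude's formal series `eisenstein4` and `X * dedekindEtaUnit` are the `q`-expansions of
`E₄` and of the discriminant.
-/

set_option autoImplicit false

noncomputable section

open UpperHalfPlane Function Filter Topology
open scoped Real Manifold MatrixGroups PowerSeries.WithPiTopology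

local notation "𝕢" => Periodic.qParam

namespace Fermat.Agent.Igusa

/-- The `k`-th partial product of `∏ (1 - X ^ (n + 1))`. -/
def etaPartial (s : Finset ℕ) : Polynomial ℤ := ∏ n ∈ s, (1 - Polynomial.X ^ (n + 1))

theorem etaPartial_coeff_eventually (n : ℕ) :
    ∀ᶠ s : Finset ℕ in atTop,
      (etaPartial s).coeff n = PowerSeries.coeff n ModularCurve.etaProd := by
  have h := (PowerSeries.WithPiTopology.multipliable_one_sub_X_pow ℤ).hasProd
  rw [HasProd] at h
  have h2 := ((PowerSeries.WithPiTopology.tendsto_iff_coeff_tendsto _ _ _ _).mp h) n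
  rw [nhds_discrete, tendsto_pure] at h2
  filter_upwards [h2] with s hs
  rw [ModularCurve.etaProd, ← hs, ← Polynomial.coeff_coe]
  congr 1
  unfold etaPartial
  rw [← Polynomial.coeToPowerSeries.ringHom_apply, map_prod]
  simp

theorem iteratedDeriv_poly_zero (P : Polynomial ℂ) (n : ℕ) :
    iteratedDeriv n (fun x => P.eval x) 0 = (n.factorial : ℂ) * P.coeff n := by
  have h : ∀ m : ℕ, iteratedDeriv m (fun x => P.eval x) =
      fun x => (Polynomial.derivative^[m] P).eval x := by
    intro m
    induction m with
    | zero => simp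
    | succ m ih =>
      rw [iteratedDeriv_succ, ih]
      funext x
      rw [Polynomial.deriv, Function.iterate_succ_apply']
  rw [h]
  show (Polynomial.derivative^[n] P).eval 0 = _
  rw [← Polynomial.coeff_zero_eq_eval_zero, Polynomial.coeff_iterate_derivative, zero_add,
    Nat.descFactorial_self, nsmul_eq_mul]

theorem iteratedDeriv_etaFun_zero (n : ℕ) :
    iteratedDeriv n (fun q : ℂ => ∏' m, (1 - q ^ (m + 1))) 0 =
      (n.factorial : ℂ) * ((PowerSeries.coeff n ModularCurve.etaProd : ℤ) : ℂ) := by
  set G : ℂ → ℂ := fun q => ∏' m, (1 - q ^ (m + 1)) with hG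
  set P : Finset ℕ → Polynomial ℂ := fun s => (etaPartial s).map (Int.castRingHom ℂ) with hP
  have hpt : ∀ s q, (P s).eval q = ∏ i ∈ s, (1 - q ^ (i + 1)) := by
    intro s q
    simp [hP, etaPartial, Polynomial.map_prod, Polynomial.eval_prod]
  have h0 : TendstoLocallyUniformlyOn (fun s q => (P s).eval q) G atTop
      (Metric.ball (0 : ℂ) 1) := by
    simp only [hpt]
    exact ModularForm.multipliableLocallyUniformlyOn_one_sub_pow.hasProdLocallyUniformlyOn
  have hstep : ∀ m : ℕ, TendstoLocallyUniformlyOn
      (fun s => iteratedDeriv m (fun q => (P s).eval q)) (iteratedDeriv m G) atTop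
      (Metric.ball (0 : ℂ) 1) := by
    intro m
    induction m with
    | zero => simpa using h0
    | succ m ih =>
      have hd : ∀ᶠ s : Finset ℕ in atTop,
          DifferentiableOn ℂ (iteratedDeriv m (fun q => (P s).eval q)) (Metric.ball (0 : ℂ) 1) := by
        refine .of_forall fun s => ?_
        have key : ∀ j : ℕ, iteratedDeriv j (fun q => (P s).eval q) =
            fun q => (Polynomial.derivative^[j] (P s)).eval q := by
          intro j
          induction j with
          | zero => simp
          | succ j ihj =>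
            rw [iteratedDeriv_succ, ihj]
            funext x
            rw [Polynomial.deriv, Function.iterate_succ_apply']
        rw [key]
        exact (Polynomial.differentiable _).differentiableOn
      have := ih.deriv hd Metric.isOpen_ball
      simp only [iteratedDeriv_succ]
      exact this
  have hlim := (hstep n).tendsto_at (Metric.mem_ball_self one_pos)
  have hev : ∀ᶠ s : Finset ℕ in atTop,
      iteratedDeriv n (fun q => (P s).eval q) 0 =
        (n.factorial : ℂ) * ((PowerSeries.coeff n ModularCurve.etaProd : ℤ) : ℂ) := by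
    filter_upwards [etaPartial_coeff_eventually n] with s hs
    rw [iteratedDeriv_poly_zero, hP, Polynomial.coeff_map, hs]
    rfl
  exact tendsto_nhds_unique hlim (tendsto_const_nhds.congr' (hev.mono fun _ h => h.symm))

/-- `eisenstein4 ^ 3` over `R`. -/
def e4CubeSeries (R : Type*) [CommRing R] : PowerSeries R :=
  (ModularCurve.eisenstein4 ^ 3).map (Int.castRingHom R)

/-- `X * dedekindEtaUnit` over `R`. -/
def deltaSeries (R : Type*) [CommRing R] : PowerSeries R :=
  PowerSeries.X * ModularCurve.dedekindEtaUnit.map (Int.castRingHom R)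

theorem qGraph_etaProd : ((fun τ : ℍ => ∏' n, (1 - ModularForm.eta_q n τ)),
    ModularCurve.etaProd.map (Int.castRingHom ℂ)) ∈ qGraph 1 := by
  refine qGraph_of_differentiableOn (G := fun q => ∏' m, (1 - q ^ (m + 1))) one_pos
    ModularForm.differentiableOn_tprod_one_sub_pow _ fun n => ?_
  rw [iteratedDeriv_etaFun_zero, PowerSeries.coeff_map, ← mul_assoc,
    inv_mul_cancel₀ (by exact_mod_cast n.factorial_ne_zero), one_mul]
  rfl

theorem qGraph_discriminant :
    ((ModularForm.discriminant : ℍ → ℂ), deltaSeries ℂ) ∈ qGraph 1 := by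
  have h := mul_mem (qGraph_qParam (h := 1) one_ne_zero) (pow_mem qGraph_etaProd 24)
  have e1 : (ModularForm.discriminant : ℍ → ℂ) =
      (fun τ : ℍ => 𝕢 1 τ) * (fun τ : ℍ => ∏' n, (1 - ModularForm.eta_q n τ)) ^ 24 := by
    funext τ
    rw [ModularForm.discriminant_eq_q_prod, Pi.mul_apply, Pi.pow_apply]
    congr 1
    exact (ModularForm.multipliableLocallyUniformlyOn_eta.multipliable τ.2).tprod_pow 24
  have e2 : deltaSeries ℂ =
      PowerSeries.X * (ModularCurve.etaProd.map (Int.castRingHom ℂ)) ^ 24 := by
    rw [deltaSeries, ModularCurve.dedekindEtaUnit, map_pow]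
  rw [e1, e2]
  exact h

theorem qExpansion_E4_eq :
    UpperHalfPlane.qExpansion 1 (ModularForm.E₄ : ℍ → ℂ) =
      ModularCurve.eisenstein4.map (Int.castRingHom ℂ) := by
  ext n
  rw [EisensteinSeries.E_qExpansion_coeff (by norm_num) ⟨2, rfl⟩, PowerSeries.coeff_map,
    ModularCurve.eisenstein4, PowerSeries.coeff_mk]
  rw [bernoulli_eq_bernoulli'_of_ne_one (by norm_num), bernoulli'_four,
    ArithmeticFunction.sigma_apply]
  split_ifs <;> simp <;> norm_num

/-- `E₄ ^ 3` has the formal `q`-expansion `e4CubeSeries`. -/
theorem qGraph_E4_cube :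
    (((ModularForm.E₄ : ℍ → ℂ) ^ 3), e4CubeSeries ℂ) ∈ qGraph 1 := by
  have h := qGraph_modularForm (h := (1 : ℝ)) one_pos one_mem_strictPeriods_SL ModularForm.E₄
  rw [qExpansion_E4_eq] at h
  have := pow_mem h 3
  rw [e4CubeSeries, map_pow]
  exact this

end Fermat.Agent.Igusa
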