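import Fermat.Agent.Igusa.Gauss

/-!
# The Igusa charts in the Gauss ring

The Igusa charts inside the Gauss valuation ring: reduction `q`-expansion is injective mod `ℓ`.
-/

set_option autoImplicit false

noncomputable section

open ModularCurve Polynomial IntermediateField
open scoped ModularCurve.IgusaScheme

namespace Fermat.Agent.Igusa

variable (N : ℕ) [NeZero N] (ℓ : ℕ) [hℓ : Fact ℓ.Prime]

set_option quotPrecheck false in
local notation "Fld" => ↥(modularFunctionFieldFull N)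
set_option quotPrecheck false in
local notation "Rint" => ↥(GaloisRep.ratLocalizedAt ℓ)

/-- A constant, as an integral series. -/
def constInt (x : Rint) : intRing N ℓ :=
  ⟨HahnSeries.C x, by
    show coeffMap _ (HahnSeries.C x) ∈ modularFunctionFieldFull N
    rw [HahnSeries.C_apply, coeffMap_single, ← HahnSeries.C_apply, ← algebraMap_eq_C]
    exact (modularFunctionFieldFull N).algebraMap_mem _⟩

theorem intIncl_constInt (x : Rint) : intIncl N ℓ (constInt N ℓ x) = algebraMap Rint Fld x := by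
  apply Subtype.ext
  show coeffMap _ (HahnSeries.C x) =
    (modularFunctionFieldFull N).toSubfield.subtype (algebraMap ℚ Fld (x : ℚ))
  rw [eq_ratCast, map_ratCast, ← eq_ratCast (algebraMap ℚ (LaurentSeries ℚ)),
    HahnSeries.C_apply, coeffMap_single, algebraMap_laurentSeries_eq_single]
  rfl

theorem algebraMap_mem_gaussV (x : Rint) : algebraMap Rint Fld x ∈ gaussV N ℓ := by
  rw [← intIncl_constInt N ℓ x]
  exact apply_mem_gaussRing _ _ _

theorem gaussVRed_algebraMap (x : Rint) (h : algebraMap Rint Fld x ∈ gaussV N ℓ) :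
    gaussVRed N ℓ ⟨_, h⟩ = HahnSeries.C (resHom ℓ x) := by
  rw [gaussVRed, gaussRed_eq (intIncl N ℓ) (intRed N ℓ) (intIncl_injective N ℓ)
    (a := constInt N ℓ x) (b := 1) (by simp) (by simp [intIncl_constInt]), map_one, div_one]
  show coeffMap (resHom ℓ) (HahnSeries.C x) = _
  rw [HahnSeries.C_apply, coeffMap_single, HahnSeries.C_apply]

theorem chart_le_gaussV (hℓN : ¬ ℓ ∣ N) {S : Set Fld} (hS : S ⊆ (gaussV N ℓ : Set Fld)) {y : Fld}
    (hy : y ∈ IgusaScheme.chartAlg N ℓ S) : y ∈ gaussV N ℓ := by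
  refine mem_of_isIntegral_gaussV N ℓ hℓN ?_
  let B : Subalgebra Rint Fld :=
    { (gaussV N ℓ).toSubsemiring with algebraMap_mem' := fun x => algebraMap_mem_gaussV N ℓ x }
  have hle : Algebra.adjoin Rint S ≤ B := Algebra.adjoin_le hS
  have hi : IsIntegral (Algebra.adjoin Rint S) y := hy
  exact hi.map_of_comp_eq
    (show Algebra.adjoin Rint S →+* gaussV N ℓ from
      { toFun := fun x => ⟨x.1, hle x.2⟩
        map_one' := rfl
        map_mul' := fun _ _ => rfl
        map_zero' := rfl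
        map_add' := fun _ _ => rfl })
    (RingHom.id Fld) rfl

/-- Hypotheses on a parameter `s` of a chart. -/
structure GoodParam (s : Fld) : Prop where
  mem : s ∈ gaussV N ℓ
  jmem : IgusaScheme.jFull N ∈ IntermediateField.adjoin ℚ {s}
  transc : ∀ P : Polynomial ℤ, intEval (gaussVRed N ℓ ⟨s, mem⟩) P = 0 →
    ∀ n, (ℓ : ℤ) ∣ P.coeff n

theorem intEval_gaussV (s : gaussV N ℓ) (P : Polynomial ℤ) :
    ((intEval s P : gaussV N ℓ) : Fld) = intEval (s : Fld) P :=
  RingHom.congr_fun (comp_intEval (gaussV N ℓ).subtype s) P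

theorem intEval_eq_aeval (s : Fld) (P : Polynomial ℤ) :
    intEval s P = aeval s (P.map (Int.castRingHom ℚ)) := by
  rw [Polynomial.aeval_def, Polynomial.eval₂_map, intEval, Polynomial.coe_eval₂RingHom]
  exact congrArg (fun f => Polynomial.eval₂ f s P) (Subsingleton.elim _ _)

theorem gaussVRed_intEval (s : gaussV N ℓ) (P : Polynomial ℤ) :
    gaussVRed N ℓ (intEval s P) = intEval (gaussVRed N ℓ s) P :=
  RingHom.congr_fun (comp_intEval (gaussVRed N ℓ) s) P

theorem GoodParam.aeval_injective {s : Fld} (hs : GoodParam N ℓ s) :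
    Function.Injective (aeval (R := ℚ) s) := by
  rw [injective_iff_map_eq_zero]
  intro P hP
  by_contra hne
  obtain ⟨c, p, hc, hp, _, n, hn⟩ := exists_primitive_scale ℓ (fun _ : Unit => P) ⟨(), hne⟩
  apply hn
  refine hs.transc (p ()) ?_ n
  rw [← gaussVRed_intEval]
  have : intEval (⟨s, hs.mem⟩ : gaussV N ℓ) (p ()) = 0 := Subtype.ext (by
    rw [intEval_gaussV, intEval_eq_aeval, ← hp (), map_mul, hP, mul_zero]; rfl)
  rw [this, map_zero]

theorem GoodParam.mem_adjoin_of_aeval_mem {s : Fld} (hs : GoodParam N ℓ s) {P : Polynomial ℚ}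
    (hP : aeval s P ∈ gaussV N ℓ) : aeval s P ∈ Algebra.adjoin Rint ({s} : Set Fld) := by
  by_cases hP0 : P = 0
  · rw [hP0, map_zero]; exact zero_mem _
  obtain ⟨c, p, hc, hp, _, n, hn⟩ := exists_primitive_scale ℓ (fun _ : Unit => P) ⟨(), hP0⟩
  by_cases hnum : (ℓ : ℤ) ∣ c.num
  · exfalso
    apply hn
    refine hs.transc (p ()) ?_ n
    rw [← gaussVRed_intEval]
    have hden : ((c.den : ℕ) : ZMod ℓ) ≠ 0 := by
      rw [Ne, ZMod.natCast_eq_zero_iff]
      intro hd
      have h2 : ℓ ∣ c.num.natAbs := Int.natCast_dvd.mp hnum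
      exact hℓ.out.ne_one (Nat.eq_one_of_dvd_coprimes c.reduced h2 hd)
    have key : ((c.den : ℕ) : gaussV N ℓ) * intEval (⟨s, hs.mem⟩ : gaussV N ℓ) (p ()) =
        ((c.num : ℤ) : gaussV N ℓ) * ⟨aeval s P, hP⟩ := by
      apply Subtype.ext
      show (((c.den : ℕ) : gaussV N ℓ) : Fld) * ((intEval _ (p ()) : gaussV N ℓ) : Fld) =
        (((c.num : ℤ) : gaussV N ℓ) : Fld) * aeval s P
      rw [intEval_gaussV, intEval_eq_aeval, ← hp (), map_mul, Polynomial.aeval_C, ← mul_assoc]
      congr 1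
      rw [show (((c.den : ℕ) : gaussV N ℓ) : Fld) = algebraMap ℚ Fld (c.den : ℚ) by simp,
        show (((c.num : ℤ) : gaussV N ℓ) : Fld) = algebraMap ℚ Fld (c.num : ℚ) by simp,
        ← map_mul, mul_comm, Rat.mul_den_eq_num]
    have h := congrArg (gaussVRed N ℓ) key
    rw [map_mul, map_mul, map_natCast, map_intCast] at h
    have h0 : ((c.num : ℤ) : LaurentSeries (ZMod ℓ)) = 0 := by
      rw [← map_intCast (HahnSeries.C : ZMod ℓ →+* LaurentSeries (ZMod ℓ)),
        (ZMod.intCast_zmod_eq_zero_iff_dvd _ _).mpr hnum, map_zero]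
    rw [h0, zero_mul] at h
    refine (mul_eq_zero.mp h).resolve_left ?_
    rw [← map_natCast (HahnSeries.C : ZMod ℓ →+* LaurentSeries (ZMod ℓ))]
    exact HahnSeries.C_ne_zero hden
  · have hcR : ∀ k : ℤ, c⁻¹ * k ∈ GaloisRep.ratLocalizedAt ℓ := by
      intro k
      refine Subring.mul_mem _ ?_ (intCast_mem _ k)
      show (c⁻¹).den.Coprime ℓ
      rw [Rat.inv_def, Rat.divInt_eq_div]
      have hcop : c.num.natAbs.Coprime ℓ := by
        refine (hℓ.out.coprime_iff_not_dvd.mpr fun h => hnum ?_).symm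
        exact Int.natCast_dvd.mpr h
      refine Nat.Coprime.coprime_dvd_left ?_ hcop
      have hdd := Rat.den_dvd (c.den : ℤ) c.num
      rw [Rat.divInt_eq_div] at hdd
      exact Int.natCast_dvd.mp hdd
    rw [Polynomial.aeval_eq_sum_range]
    refine sum_mem fun i _ => ?_
    have hco : P.coeff i = c⁻¹ * ((p ()).coeff i : ℚ) := by
      have := congrArg (fun Q : Polynomial ℚ => Q.coeff i) (hp ())
      simp only [Polynomial.coeff_C_mul, Polynomial.coeff_map, eq_intCast] at this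
      rw [← this, ← mul_assoc, inv_mul_cancel₀ hc, one_mul]
    rw [Algebra.smul_def, hco]
    refine mul_mem ?_ (pow_mem (Algebra.subset_adjoin (Set.mem_singleton s)) i)
    exact Subalgebra.algebraMap_mem _ (⟨_, hcR ((p ()).coeff i)⟩ : Rint)

theorem adjoin_rat_le (s : Fld) {x : Fld} (hx : x ∈ Algebra.adjoin Rint ({s} : Set Fld)) :
    x ∈ Algebra.adjoin ℚ ({s} : Set Fld) := by
  refine (show Algebra.adjoin Rint ({s} : Set Fld) ≤
    (Algebra.adjoin ℚ ({s} : Set Fld)).restrictScalars Rint from ?_) hx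
  exact Algebra.adjoin_le Algebra.subset_adjoin

theorem chart_isIntegral_rat (s : Fld) {y : Fld} (hy : y ∈ IgusaScheme.chartAlg N ℓ {s}) :
    IsIntegral (Algebra.adjoin ℚ ({s} : Set Fld)) y := by
  have hi : IsIntegral (Algebra.adjoin Rint ({s} : Set Fld)) y := hy
  exact hi.map_of_comp_eq
    (show Algebra.adjoin Rint ({s} : Set Fld) →+* Algebra.adjoin ℚ ({s} : Set Fld) from
      { toFun := fun x => ⟨x.1, adjoin_rat_le N ℓ s x.2⟩
        map_one' := rfl
        map_mul' := fun _ _ => rfl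
        map_zero' := rfl
        map_add' := fun _ _ => rfl })
    (RingHom.id Fld) rfl

theorem coeff_mem_of_integral {K₀ L : Type*} [Field K₀] [Field L] [Algebra K₀ L]
    (O : Subring L) {y : L} (h : IsIntegral (O.comap (algebraMap K₀ L)) y) (n : ℕ) :
    IsIntegral O (algebraMap K₀ L ((minpoly K₀ y).coeff n)) := by
  obtain ⟨P, hP, hroot⟩ := h
  have hi : IsIntegral K₀ y :=
    ⟨P.map (algebraMap _ K₀), hP.map _, by rw [Polynomial.eval₂_map]; exact hroot⟩
  have hdvd : minpoly K₀ y ∣ P.map (algebraMap (O.comap (algebraMap K₀ L)) K₀) := by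
    refine minpoly.dvd _ _ ?_
    rw [Polynomial.aeval_def, Polynomial.eval₂_map]
    exact hroot
  have := Polynomial.isIntegral_coeff_of_dvd P (minpoly K₀ y) hP (minpoly.monic hi) hdvd n
  exact this.map_of_comp_eq
    (show (O.comap (algebraMap K₀ L)) →+* O from
      { toFun := fun x => ⟨algebraMap K₀ L x.1, x.2⟩
        map_one' := Subtype.ext (map_one _)
        map_mul' := fun _ _ => Subtype.ext (map_mul _ _ _)
        map_zero' := Subtype.ext (map_zero _)
        map_add' := fun _ _ => Subtype.ext (map_add _ _ _) })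
    (algebraMap K₀ L) rfl

theorem mem_chart_of_gaussV (hℓN : ¬ ℓ ∣ N) {s : Fld} (hs : GoodParam N ℓ s) {z : Fld}
    (hzV : z ∈ gaussV N ℓ) (hz : IsIntegral (Algebra.adjoin ℚ ({s} : Set Fld)) z) :
    z ∈ IgusaScheme.chartAlg N ℓ {s} := by
  set K0 : IntermediateField ℚ Fld := IntermediateField.adjoin ℚ {s} with hK0
  have hsub : ∀ x ∈ Algebra.adjoin ℚ ({s} : Set Fld), x ∈ K0 :=
    fun x hx => IntermediateField.algebra_adjoin_le_adjoin ℚ _ hx
  set B : Subring Fld := (Algebra.adjoin ℚ ({s} : Set Fld)).toSubring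
  have hzB : IsIntegral (B.comap (algebraMap K0 Fld)) z :=
    hz.map_of_comp_eq
      (show Algebra.adjoin ℚ ({s} : Set Fld) →+* B.comap (algebraMap K0 Fld) from
        { toFun := fun x => ⟨⟨x.1, hsub x.1 x.2⟩, x.2⟩
          map_one' := rfl
          map_mul' := fun _ _ => rfl
          map_zero' := rfl
          map_add' := fun _ _ => rfl })
      (RingHom.id Fld) rfl
  have hzO := isIntegral_over_gaussV_inter N ℓ hℓN K0 hs.jmem hzV
  have hint : IsIntegral K0 z := by
    obtain ⟨P, hP, hroot⟩ := hzO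
    exact ⟨P.map (algebraMap _ K0), hP.map _, by rw [Polynomial.eval₂_map]; exact hroot⟩
  have hcoeff : ∀ n, algebraMap K0 Fld ((minpoly K0 z).coeff n) ∈
      Algebra.adjoin Rint ({s} : Set Fld) := by
    intro n
    have hA : IsIntegral (Algebra.adjoin ℚ ({s} : Set Fld))
        (algebraMap K0 Fld ((minpoly K0 z).coeff n)) :=
      coeff_mem_of_integral B hzB n
    obtain ⟨P, hP⟩ := exists_poly_of_isIntegral_adjoin (hs.aeval_injective N ℓ)
      ((minpoly K0 z).coeff n).2 hA
    have hP' : algebraMap K0 Fld ((minpoly K0 z).coeff n) = aeval s P := hP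
    have hmem := mem_of_isIntegral_gaussV N ℓ hℓN (coeff_mem_of_integral (gaussV N ℓ) hzO n)
    rw [hP'] at hmem ⊢
    exact hs.mem_adjoin_of_aeval_mem N ℓ hmem
  have hlifts : (minpoly K0 z).map (algebraMap K0 Fld) ∈
      Polynomial.lifts (algebraMap (Algebra.adjoin Rint ({s} : Set Fld)) Fld) := by
    rw [Polynomial.lifts_iff_coeff_lifts]
    intro n
    rw [Polynomial.coeff_map]
    exact ⟨⟨_, hcoeff n⟩, rfl⟩
  obtain ⟨Q, hQ, -, hQm⟩ := Polynomial.lifts_and_natDegree_eq_and_monic hlifts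
    ((minpoly.monic hint).map _)
  refine (IgusaScheme.mem_chartAlg_iff N ℓ).mpr ⟨Q, hQm, ?_⟩
  rw [Polynomial.eval₂_eq_eval_map, hQ, Polynomial.eval_map]
  exact minpoly.aeval K0 z

/-- Reduction of a chart. -/
def chartRed (hℓN : ¬ ℓ ∣ N) {S : Set Fld} (hS : S ⊆ (gaussV N ℓ : Set Fld)) :
    IgusaScheme.chartAlg N ℓ S →+* LaurentSeries (ZMod ℓ) :=
  (gaussVRed N ℓ).comp
    { toFun := fun y => ⟨y.1, chart_le_gaussV N ℓ hℓN hS y.2⟩
      map_one' := rfl
      map_mul' := fun _ _ => rfl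
      map_zero' := rfl
      map_add' := fun _ _ => rfl }

theorem chartRed_algebraMap (hℓN : ¬ ℓ ∣ N) {S : Set Fld} (hS : S ⊆ (gaussV N ℓ : Set Fld))
    (x : Rint) :
    chartRed N ℓ hℓN hS (algebraMap Rint (IgusaScheme.chartAlg N ℓ S) x) =
      HahnSeries.C (resHom ℓ x) :=
  gaussVRed_algebraMap N ℓ x (algebraMap_mem_gaussV N ℓ x)

/-- The kernel of the reduction of a chart is generated by `ℓ`. -/
theorem exists_of_chartRed_eq_zero (hℓN : ¬ ℓ ∣ N) {s : Fld} (hs : GoodParam N ℓ s)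
    {y : IgusaScheme.chartAlg N ℓ {s}}
    (h : chartRed N ℓ hℓN (Set.singleton_subset_iff.mpr hs.mem) y = 0) :
    ∃ z : IgusaScheme.chartAlg N ℓ {s}, y = (ℓ : Rint) • z := by
  have hl0 : (ℓ : Fld) ≠ 0 := by
    rw [← map_natCast (algebraMap ℚ Fld)]
    exact (_root_.map_ne_zero _).mpr (by exact_mod_cast hℓ.out.ne_zero)
  obtain ⟨z, hz⟩ := exists_of_gaussRed_eq_zero (intIncl N ℓ) (intRed N ℓ) (intIncl_injective N ℓ)
    (exists_of_intRed_eq_zero N ℓ) hl0
    (y := ⟨y.1, chart_le_gaussV N ℓ hℓN (Set.singleton_subset_iff.mpr hs.mem) y.2⟩) h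
  have hzint : IsIntegral (Algebra.adjoin ℚ ({s} : Set Fld)) (z : Fld) := by
    have hval : (z : Fld) = algebraMap (Algebra.adjoin ℚ ({s} : Set Fld)) Fld
        (algebraMap ℚ _ ((ℓ : ℚ)⁻¹)) * y.1 := by
      rw [show (y : Fld) = (ℓ : Fld) * z from hz, ← IsScalarTower.algebraMap_apply, map_inv₀,
        map_natCast, inv_mul_cancel_left₀ hl0]
    rw [hval]
    exact isIntegral_algebraMap.mul (chart_isIntegral_rat N ℓ s y.2)
  refine ⟨⟨z, mem_chart_of_gaussV N ℓ hℓN hs z.2 hzint⟩, Subtype.ext ?_⟩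
  show (y : Fld) = (ℓ : Rint) • (z : Fld)
  rw [Algebra.smul_def, map_natCast]
  exact hz

theorem gaussVRed_jFull :
    gaussVRed N ℓ ⟨IgusaScheme.jFull N, jFull_mem_gaussV N ℓ⟩ = jqModC (ZMod ℓ) := by
  rw [gaussVRed, gaussRed_eq (intIncl N ℓ) (intRed N ℓ) (intIncl_injective N ℓ)
    (a := jInt N ℓ) (b := 1) (by simp) (by simp [intIncl_jInt]), map_one, div_one, intRed_jInt]

theorem gaussVRed_jFull_inv :
    gaussVRed N ℓ ⟨(IgusaScheme.jFull N)⁻¹, jFull_inv_mem_gaussV N ℓ⟩ =
      (jqModC (ZMod ℓ))⁻¹ := by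
  rw [gaussVRed, gaussRed_eq (intIncl N ℓ) (intRed N ℓ) (intIncl_injective N ℓ)
    (a := 1) (b := jInt N ℓ)
    (by rw [intRed_jInt]; exact jqModC_ne_zero_of_nontrivial _)
    (by rw [intIncl_jInt, map_one]; exact inv_mul_cancel₀ (IgusaScheme.jFull_ne_zero N)),
    map_one, intRed_jInt, one_div]

theorem goodParam_jFull : GoodParam N ℓ (IgusaScheme.jFull N) where
  mem := jFull_mem_gaussV N ℓ
  jmem := IntermediateField.mem_adjoin_simple_self ℚ _
  transc P hP n := by
    rw [gaussVRed_jFull] at hP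
    exact intEval_jbar_eq_zero ℓ hP n

theorem goodParam_jFull_inv : GoodParam N ℓ (IgusaScheme.jFull N)⁻¹ where
  mem := jFull_inv_mem_gaussV N ℓ
  jmem := by
    have h := (IntermediateField.adjoin ℚ {(IgusaScheme.jFull N)⁻¹}).inv_mem
      (IntermediateField.mem_adjoin_simple_self ℚ _)
    rwa [inv_inv] at h
  transc P hP n := by
    rw [gaussVRed_jFull_inv] at hP
    have : Invertible ((jqModC (ZMod ℓ))⁻¹) :=
      invertibleOfNonzero (inv_ne_zero (jqModC_ne_zero_of_nontrivial _))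
    have hrev : intEval (jqModC (ZMod ℓ)) P.reverse = 0 := by
      have := (Polynomial.eval₂_reverse_eq_zero_iff (Int.castRingHom (LaurentSeries (ZMod ℓ)))
        ((jqModC (ZMod ℓ))⁻¹) P).mpr hP
      rwa [invOf_eq_inv, inv_inv] at this
    have := intEval_jbar_eq_zero ℓ hrev (Polynomial.revAt P.natDegree n)
    rwa [Polynomial.coeff_reverse, Polynomial.revAt_invol] at this

end Fermat.Agent.Igusa
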