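import Fermat.Agent.Igusa.LevelOne

/-!
# Translates of a level one form

The `p + 1` translates of a level one form of weight 12 by the matrices of determinant `p`,
their expansions in `t = q ^ (1/p)`, and symmetric expressions in them.
-/

set_option autoImplicit false

noncomputable section

open UpperHalfPlane Function ModularCurve Polynomial
open scoped Real Manifold MatrixGroups ModularForm

local notation "𝕢" => Periodic.qParam

namespace Fermat.Agent.Igusa

/-- The pairs (function, expansion). -/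
abbrev GraphRing : Type := (ℍ → ℂ) × PowerSeries ℂ

/-- A level one function of weight 12 with expansion in width 1. -/
structure Level12 where
  pair : GraphRing
  mem : pair ∈ qGraph 1
  inv : ∀ γ : SL(2, ℤ), pair.1 ∣[(12 : ℤ)] γ = pair.1

theorem Level12.apply_smul (F : Level12) (γ : SL(2, ℤ)) (τ : ℍ) :
    F.pair.1 (γ • τ) =
      ((γ 1 0 : ℂ) * τ + (γ 1 1 : ℂ)) ^ 12 * F.pair.1 τ := by
  have h := congrFun (F.inv γ) τ
  rw [ModularForm.SL_slash_apply, zpow_neg,
    show (12 : ℤ) = ((12 : ℕ) : ℤ) from rfl, zpow_natCast] at h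
  have hd : UpperHalfPlane.denom γ τ = (γ 1 0 : ℂ) * τ + (γ 1 1 : ℂ) := by
    simp [UpperHalfPlane.denom]
  rw [← hd]
  have hne : UpperHalfPlane.denom γ τ ≠ 0 := UpperHalfPlane.denom_ne_zero _ τ
  rw [← h]
  field_simp

/-- `E₄ ^ 3`. -/
def e4Cube : Level12 where
  pair := ((ModularForm.E₄ : ℍ → ℂ) ^ 3, e4CubeSeries ℂ)
  mem := qGraph_E4_cube
  inv γ := by
    have := (ModularForm.mcast (b := 12) (by norm_num)
      (ModularForm.E₄.pow 3) : ModularForm 𝒮ℒ 12).slash_action_eq'
      (γ : GL (Fin 2) ℝ) ⟨γ, rfl⟩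
    rw [ModularForm.SL_slash]
    rw [← ModularForm.coe_pow]
    exact this

/-- The discriminant. -/
def disc12 : Level12 where
  pair := (ModularForm.discriminant, deltaSeries ℂ)
  mem := qGraph_discriminant
  inv γ := by
    have := CuspForm.discriminant.slash_action_eq' (γ : GL (Fin 2) ℝ) ⟨γ, rfl⟩
    simpa [ModularForm.SL_slash] using this

theorem qGraph_periodic {f : ℍ → ℂ} {P : PowerSeries ℂ} (hf : (f, P) ∈ qGraph 1) {τ τ' : ℍ}
    (n : ℤ) (h : (τ' : ℂ) = (τ : ℂ) + n) : f τ' = f τ := by
  refine (hf.2 τ').unique ?_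
  have : 𝕢 1 (τ' : ℂ) = 𝕢 1 (τ : ℂ) := by
    simp only [Periodic.qParam, h, Complex.ofReal_one, div_one]
    rw [mul_add, Complex.exp_add, show 2 * (π : ℂ) * Complex.I * n = n * (2 * π * Complex.I) by ring,
      Complex.exp_int_mul_two_pi_mul_I, mul_one]
  simpa [this] using hf.2 τ

variable (p : ℕ) [hp : Fact p.Prime]

/-- A primitive `p`-th root of unity in `ℂ`. -/
def zetaC : ℂˣ := Units.mk0 (Complex.exp (2 * π * Complex.I / p)) (Complex.exp_ne_zero _)

theorem zetaC_pow (b : ℕ) :
    ((zetaC p ^ b : ℂˣ) : ℂ) = Complex.exp (2 * π * Complex.I * ((b : ℤ) : ℂ) / p) := by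
  rw [Units.val_pow_eq_pow_val, zetaC, Units.val_mk0, ← Complex.exp_nat_mul]
  congr 1
  push_cast
  ring

/-- The translates, as pairs in width `p`. -/
def fam (F : Level12) : Option (ZMod p) → GraphRing
  | none => ((p : ℂ) ^ 12) •
      (F.pair.1 ∘ mulPt p,
        PowerSeries.expand (p * p) (mul_ne_zero hp.out.ne_zero hp.out.ne_zero) F.pair.2)
  | some b => (F.pair.1 ∘ divPt p (b.val : ℤ),
      PowerSeries.rescale ((zetaC p ^ b.val : ℂˣ) : ℂ) F.pair.2)

/-- `Δ(τ)` in width `p`. -/
def famBase : GraphRing :=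
  (ModularForm.discriminant, PowerSeries.expand p hp.out.ne_zero (deltaSeries ℂ))

theorem fam_mem (F : Level12) (γ : Option (ZMod p)) : fam p F γ ∈ qGraph (p : ℝ) := by
  rcases γ with _ | b
  · exact Subalgebra.smul_mem _ (qGraph_mulPt p (f := F.pair.1) (P := F.pair.2) F.mem) _
  · have := qGraph_divPt p (b.val : ℤ) (f := F.pair.1) (P := F.pair.2) F.mem
    rw [← zetaC_pow] at this
    exact this

theorem famBase_mem : famBase p ∈ qGraph (p : ℝ) := qGraph_widen p qGraph_discriminant

theorem fam_some_apply (F : Level12) (b : ℤ) (τ : ℍ) :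
    (fam p F (some (b : ZMod p))).1 τ = F.pair.1 (divPt p b τ) := by
  show F.pair.1 (divPt p (((b : ZMod p).val : ℕ) : ℤ) τ) = _
  have hb : ((b : ZMod p).val : ℤ) = b % p := ZMod.val_intCast b
  refine qGraph_periodic (f := F.pair.1) (P := F.pair.2) F.mem (-(b / p)) ?_
  rw [coe_divPt, coe_divPt, hb]
  have hp0 : (p : ℂ) ≠ 0 := by exact_mod_cast hp.out.ne_zero
  have : (((b % p : ℤ)) : ℂ) = (b : ℂ) - (p : ℂ) * ((b / p : ℤ) : ℂ) := by
    rw [Int.emod_def]; push_cast; ring
  rw [this]
  field_simp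
  push_cast
  ring

theorem fam_none_apply (F : Level12) (τ : ℍ) :
    (fam p F none).1 τ = (p : ℂ) ^ 12 * F.pair.1 (mulPt p τ) := rfl

/-- The action of `τ ↦ τ + 1` on the index set. -/
def permT : Option (ZMod p) ≃ Option (ZMod p) := Equiv.optionCongr (Equiv.addRight 1)

/-- The action of `τ ↦ -1/τ` on the index set. -/
def permSFun : Option (ZMod p) → Option (ZMod p)
  | none => some 0
  | some b => if b = 0 then none else some (-b⁻¹)

/-- The action of `τ ↦ -1/τ` on the index set, as a permutation. -/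
def permS : Option (ZMod p) ≃ Option (ZMod p) where
  toFun := permSFun p
  invFun := permSFun p
  left_inv := by
    rintro (_ | b)
    · simp [permSFun]
    · rcases eq_or_ne b 0 with rfl | hb
      · simp [permSFun]
      · simp [permSFun, hb, inv_neg]
  right_inv := by
    rintro (_ | b)
    · simp [permSFun]
    · rcases eq_or_ne b 0 with rfl | hb
      · simp [permSFun]
      · simp [permSFun, hb, inv_neg]

theorem fam_T (F : Level12) (γ : Option (ZMod p)) (τ : ℍ) :
    (fam p F γ).1 ((1 : ℝ) +ᵥ τ) = (fam p F (permT p γ)).1 τ := by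
  rcases γ with _ | b
  · show (fam p F none).1 _ = (fam p F none).1 τ
    rw [fam_none_apply, fam_none_apply]
    congr 1
    refine qGraph_periodic (f := F.pair.1) (P := F.pair.2) F.mem (p : ℤ) ?_
    simp [UpperHalfPlane.coe_vadd, mul_add, add_comm]
  · obtain ⟨z, rfl⟩ := ZMod.intCast_surjective b
    show _ = (fam p F (some ((z : ZMod p) + 1))).1 τ
    rw [show (z : ZMod p) + 1 = ((z + 1 : ℤ) : ZMod p) by push_cast; ring,
      fam_some_apply p F (z + 1), fam_some_apply p F z]
    refine congrArg F.pair.1 (UpperHalfPlane.ext ?_)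
    simp [UpperHalfPlane.coe_vadd]
    ring

theorem fam_S (F : Level12) (γ : Option (ZMod p)) (τ : ℍ) :
    (fam p F γ).1 (ModularGroup.S • τ) = (τ : ℂ) ^ 12 * (fam p F (permS p γ)).1 τ := by
  have hp0 : (p : ℂ) ≠ 0 := by exact_mod_cast hp.out.ne_zero
  have hτ : (τ : ℂ) ≠ 0 := τ.ne_zero
  rcases γ with _ | b
  · rw [show permS p (none : Option (ZMod p)) = some ((0 : ℤ) : ZMod p) by
      simp [permS, permSFun]]
    rw [fam_none_apply, fam_some_apply]
    have : mulPt p (ModularGroup.S • τ) = ModularGroup.S • divPt p 0 τ := by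
      ext
      rw [coe_mulPt, modular_S_smul, modular_S_smul]
      simp only [coe_divPt, Int.cast_zero, add_zero]
      field_simp
    rw [this, Level12.apply_smul]
    simp [ModularGroup.S]
    field_simp
  · obtain ⟨z, rfl⟩ := ZMod.intCast_surjective b
    rw [fam_some_apply]
    by_cases hz : (z : ZMod p) = 0
    · have hperm : permS p (some (z : ZMod p)) = none := by
        simp [permS, permSFun, hz]
      rw [hperm, fam_none_apply]
      rw [← fam_some_apply p F z, hz, show (0 : ZMod p) = ((0 : ℤ) : ZMod p) by simp,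
        fam_some_apply]
      have : divPt p 0 (ModularGroup.S • τ) = ModularGroup.S • mulPt p τ := by
        ext
        rw [coe_divPt, modular_S_smul, modular_S_smul]
        simp only [coe_mulPt, Int.cast_zero, add_zero]
        field_simp
      rw [this, Level12.apply_smul]
      simp [ModularGroup.S]
      ring
    · obtain ⟨z', hz'⟩ := ZMod.intCast_surjective (-(z : ZMod p)⁻¹)
      have hperm : permS p (some (z : ZMod p)) = some ((z' : ℤ) : ZMod p) := by
        simp [permS, permSFun, hz, hz']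
      rw [hperm, fam_some_apply]
      have hdvd : (p : ℤ) ∣ z * z' + 1 := by
        rw [← ZMod.intCast_zmod_eq_zero_iff_dvd]
        push_cast
        rw [hz']
        field_simp
        ring
      obtain ⟨k, hk⟩ := hdvd
      let g : SL(2, ℤ) := ⟨!![z, -k; (p : ℤ), -z'], by
        rw [Matrix.det_fin_two_of]; linear_combination -hk⟩
      have hden : ((g 1 0 : ℤ) : ℂ) * (divPt p z' τ : ℂ) + ((g 1 1 : ℤ) : ℂ) = τ := by
        simp [g, coe_divPt]
        field_simp
        ring
      have hkC : (z : ℂ) * z' + 1 = (p : ℂ) * k := by exact_mod_cast hk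
      have : divPt p z (ModularGroup.S • τ) = g • divPt p z' τ := by
        ext
        rw [coe_specialLinearGroup_apply]
        simp only [algebraMap_int_eq, eq_intCast, Complex.ofReal_intCast]
        rw [hden, modular_S_smul, coe_divPt, coe_divPt]
        simp [g]
        field_simp
        linear_combination (-1 : ℂ) * hkC
      rw [this, Level12.apply_smul, hden]

/-- Evaluation at a point. -/
def evalAt (τ : ℍ) : GraphRing →+* ℂ :=
  (Pi.evalRingHom (fun _ : ℍ => ℂ) τ).comp (RingHom.fst _ _)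

@[simp] theorem evalAt_apply (τ : ℍ) (x : GraphRing) : evalAt τ x = x.1 τ := rfl

/-- The Laurent series in `t`. -/
def laurentOf : GraphRing →+* LaurentSeries ℂ :=
  (HahnSeries.ofPowerSeries ℤ ℂ).comp (RingHom.snd _ _)

@[simp] theorem laurentOf_apply (x : GraphRing) :
    laurentOf x = HahnSeries.ofPowerSeries ℤ ℂ x.2 := rfl

theorem famBase_T (τ : ℍ) : (famBase p).1 ((1 : ℝ) +ᵥ τ) = (famBase p).1 τ := by
  refine qGraph_periodic qGraph_discriminant (1 : ℤ) ?_
  simp [UpperHalfPlane.coe_vadd, add_comm]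

theorem famBase_S (τ : ℍ) :
    (famBase p).1 (ModularGroup.S • τ) = (τ : ℂ) ^ 12 * (famBase p).1 τ := by
  have := disc12.apply_smul ModularGroup.S τ
  simpa [famBase, disc12, ModularGroup.S] using this

/-- A polynomial over the graph ring, all of whose coefficients are in `qGraph p`, and which is
invariant of weight `12 m`, becomes `Δ ^ m *` (polynomials in `j`). -/
theorem laurentOf_invariant (m : ℕ) (G : Polynomial GraphRing)
    (hG : ∀ n, G.coeff n ∈ qGraph (p : ℝ))
    (hT : ∀ τ : ℍ, G.map (evalAt ((1 : ℝ) +ᵥ τ)) = G.map (evalAt τ))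
    (hS : ∀ τ : ℍ, G.map (evalAt (ModularGroup.S • τ)) =
      Polynomial.C ((τ : ℂ) ^ (12 * m)) * G.map (evalAt τ)) (n : ℕ) :
    ∃ Q : Polynomial ℂ, (G.map laurentOf).coeff n =
      qExpand ℂ p (deltaL ℂ ^ m * Polynomial.eval₂ HahnSeries.C (jqModC ℂ) Q) := by
  obtain ⟨Q, hQ⟩ := qGraph_levelOne (p := p) m (f := (G.coeff n).1) (P := (G.coeff n).2) (hG n)
    (fun τ => by
      have := congrArg (fun P : Polynomial ℂ => P.coeff n) (hT τ)
      simpa [Polynomial.coeff_map] using this)
    (fun τ => by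
      have := congrArg (fun P : Polynomial ℂ => P.coeff n) (hS τ)
      simpa only [Polynomial.coeff_map, Polynomial.coeff_C_mul, evalAt_apply] using this)
  exact ⟨Q, by rw [Polynomial.coeff_map, laurentOf_apply, hQ]⟩

theorem coeff_mem_of_lifts {S : Subalgebra ℂ GraphRing} {G : Polynomial GraphRing}
    (hG : G ∈ Polynomial.lifts (S.val : S →+* GraphRing)) (n : ℕ) : G.coeff n ∈ S := by
  obtain ⟨x, hx⟩ := (Polynomial.lifts_iff_coeff_lifts G).mp hG n
  rw [← hx]
  exact x.2

/-- `∏ γ, (B_γ X - A_γ)`. -/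
def numPoly (A B : Level12) : Polynomial GraphRing :=
  ∏ γ, (Polynomial.C (fam p B γ) * Polynomial.X - Polynomial.C (fam p A γ))

/-- `∏ γ, (Δ X - B_γ)`. -/
def normPoly (B : Level12) : Polynomial GraphRing :=
  ∏ γ, (Polynomial.C (famBase p) * Polynomial.X - Polynomial.C (fam p B γ))

/-- `∑ γ, B_γ ^ 2 * ∏_{δ ≠ γ} (B_δ X - A_δ)`. -/
def lagPoly (A B : Level12) : Polynomial GraphRing :=
  ∑ γ, Polynomial.C (fam p B γ ^ 2) *
    ∏ δ ∈ Finset.univ.erase γ,
      (Polynomial.C (fam p B δ) * Polynomial.X - Polynomial.C (fam p A δ))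

theorem lin_mem_lifts {a b : GraphRing} (ha : a ∈ qGraph (p : ℝ)) (hb : b ∈ qGraph (p : ℝ)) :
    Polynomial.C b * Polynomial.X - Polynomial.C a ∈
      Polynomial.lifts ((qGraph (p : ℝ)).val : qGraph (p : ℝ) →+* GraphRing) :=
  ⟨Polynomial.C (⟨b, hb⟩ : qGraph (p : ℝ)) * Polynomial.X - Polynomial.C ⟨a, ha⟩, by simp⟩

theorem card_index : (Finset.univ : Finset (Option (ZMod p))).card = p + 1 := by
  simp [Fintype.card_option]

theorem numPoly_levelOne (A B : Level12) (n : ℕ) :
    ∃ Q : Polynomial ℂ, ((numPoly p A B).map laurentOf).coeff n =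
      qExpand ℂ p (deltaL ℂ ^ (p + 1) * Polynomial.eval₂ HahnSeries.C (jqModC ℂ) Q) := by
  refine laurentOf_invariant p (p + 1) _ (fun k => coeff_mem_of_lifts ?_ k) (fun τ => ?_)
    (fun τ => ?_) n
  · exact prod_mem fun γ _ => lin_mem_lifts p (fam_mem p A γ) (fam_mem p B γ)
  · simp only [numPoly, Polynomial.map_prod, Polynomial.map_sub, Polynomial.map_mul,
      Polynomial.map_C, Polynomial.map_X, evalAt_apply, fam_T]
    exact Fintype.prod_equiv (permT p) _ _ fun γ => rfl
  · simp only [numPoly, Polynomial.map_prod, Polynomial.map_sub, Polynomial.map_mul,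
      Polynomial.map_C, Polynomial.map_X, evalAt_apply, fam_S]
    rw [Finset.prod_congr rfl (g := fun γ => Polynomial.C ((τ : ℂ) ^ 12) *
      (Polynomial.C ((fam p B (permS p γ)).1 τ) * Polynomial.X -
        Polynomial.C ((fam p A (permS p γ)).1 τ))) (fun γ _ => by rw [map_mul, map_mul]; ring),
      Finset.prod_mul_distrib, Finset.prod_const, card_index, ← map_pow, ← pow_mul]
    congr 1
    exact Fintype.prod_equiv (permS p) _ _ fun γ => rfl

theorem normPoly_levelOne (B : Level12) (n : ℕ) :
    ∃ Q : Polynomial ℂ, ((normPoly p B).map laurentOf).coeff n =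
      qExpand ℂ p (deltaL ℂ ^ (p + 1) * Polynomial.eval₂ HahnSeries.C (jqModC ℂ) Q) := by
  refine laurentOf_invariant p (p + 1) _ (fun k => coeff_mem_of_lifts ?_ k) (fun τ => ?_)
    (fun τ => ?_) n
  · exact prod_mem fun γ _ => lin_mem_lifts p (fam_mem p B γ) (famBase_mem p)
  · simp only [normPoly, Polynomial.map_prod, Polynomial.map_sub, Polynomial.map_mul,
      Polynomial.map_C, Polynomial.map_X, evalAt_apply, fam_T, famBase_T]
    exact Fintype.prod_equiv (permT p) _ _ fun γ => rfl
  · simp only [normPoly, Polynomial.map_prod, Polynomial.map_sub, Polynomial.map_mul,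
      Polynomial.map_C, Polynomial.map_X, evalAt_apply, fam_S, famBase_S]
    rw [Finset.prod_congr rfl (g := fun γ => Polynomial.C ((τ : ℂ) ^ 12) *
      (Polynomial.C ((famBase p).1 τ) * Polynomial.X -
        Polynomial.C ((fam p B (permS p γ)).1 τ))) (fun γ _ => by rw [map_mul, map_mul]; ring),
      Finset.prod_mul_distrib, Finset.prod_const, card_index, ← map_pow, ← pow_mul]
    congr 1
    exact Fintype.prod_equiv (permS p) _ _ fun γ => rfl

theorem lagPoly_levelOne (A B : Level12) (n : ℕ) :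
    ∃ Q : Polynomial ℂ, ((lagPoly p A B).map laurentOf).coeff n =
      qExpand ℂ p (deltaL ℂ ^ (p + 2) * Polynomial.eval₂ HahnSeries.C (jqModC ℂ) Q) := by
  classical
  refine laurentOf_invariant p (p + 2) _ (fun k => coeff_mem_of_lifts ?_ k) (fun τ => ?_)
    (fun τ => ?_) n
  · exact sum_mem fun γ _ => mul_mem ⟨Polynomial.C ⟨_, pow_mem (fam_mem p B γ) 2⟩, Polynomial.map_C _⟩
      (prod_mem fun δ _ => lin_mem_lifts p (fam_mem p A δ) (fam_mem p B δ))
  · simp only [lagPoly, Polynomial.map_sum, Polynomial.map_mul, Polynomial.map_prod,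
      Polynomial.map_sub, Polynomial.map_C, Polynomial.map_X, Polynomial.map_pow, map_pow, evalAt_apply, fam_T]
    refine Fintype.sum_equiv (permT p) _ _ fun γ => ?_
    congr 1
    exact Finset.prod_equiv (permT p) (by simp) fun δ _ => rfl
  · simp only [lagPoly, Polynomial.map_sum, Polynomial.map_mul, Polynomial.map_prod,
      Polynomial.map_sub, Polynomial.map_C, Polynomial.map_X, Polynomial.map_pow, map_pow, evalAt_apply, fam_S,
      Finset.mul_sum]
    refine Fintype.sum_equiv (permS p) _ _ fun γ => ?_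
    rw [Finset.prod_congr rfl (g := fun δ => Polynomial.C ((τ : ℂ) ^ 12) *
      (Polynomial.C ((fam p B (permS p δ)).1 τ) * Polynomial.X -
        Polynomial.C ((fam p A (permS p δ)).1 τ))) (fun δ _ => by rw [map_mul, map_mul]; ring),
      Finset.prod_mul_distrib, Finset.prod_const,
      Finset.card_erase_of_mem (Finset.mem_univ γ), card_index, Nat.add_sub_cancel]
    rw [Finset.prod_equiv (permS p) (t := Finset.univ.erase (permS p γ))
      (g := fun δ => Polynomial.C ((fam p B δ).1 τ) * Polynomial.X -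
        Polynomial.C ((fam p A δ).1 τ)) (by simp) (fun δ _ => rfl)]
    simp only [map_mul, map_pow]
    ring

end Fermat.Agent.Igusa
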