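import Fermat.Agent.Igusa.Charts
import Mathlib.AlgebraicGeometry.PullbackCarrier
import Mathlib.AlgebraicGeometry.Properties
import Mathlib.LinearAlgebra.TensorProduct.Finiteness

/-!
# The special fibre of the Igusa model

The fibre of the Igusa model over a field of characteristic `ℓ` is integral.
-/

set_option autoImplicit false

noncomputable section

open ModularCurve AlgebraicGeometry CategoryTheory CategoryTheory.Limits TensorProduct
open scoped ModularCurve.IgusaScheme

namespace Fermat.Agent.Igusa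

/- Use the coefficientwise algebra structure on Laurent series (no scalar diamond). -/
attribute [-instance] HahnSeries.powerSeriesAlgebra

variable (N : ℕ) [NeZero N] (ℓ : ℕ) [hℓ : Fact ℓ.Prime]

set_option quotPrecheck false in
local notation "Fld" => ↥(modularFunctionFieldFull N)
set_option quotPrecheck false in
local notation "Rint" => ↥(GaloisRep.ratLocalizedAt ℓ)

section Tensor

variable (K : Type) [Field K] [CharP K ℓ] [Algebra ↥(GaloisRep.ratLocalizedAt ℓ) K]

/-- `𝔽_ℓ → K`. -/
def primeHom : ZMod ℓ →+* K := ZMod.castHom dvd_rfl K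

theorem algebraMap_eq_primeHom (x : Rint) :
    algebraMap Rint K x = primeHom ℓ K (resHom ℓ x) := by
  have hden : ((x.1.den : ℕ) : K) ≠ 0 := by
    rw [Ne, CharP.cast_eq_zero_iff K ℓ]
    exact hℓ.out.coprime_iff_not_dvd.mp (Nat.Coprime.symm x.2)
  have key : x * ((x.1.den : ℕ) : Rint) = ((x.1.num : ℤ) : Rint) :=
    Subtype.ext (by push_cast; exact Rat.mul_den_eq_num _)
  have h1 := congrArg (algebraMap Rint K) key
  have h2 := congrArg ((primeHom ℓ K).comp (resHom ℓ)) key
  rw [map_mul, map_natCast, map_intCast] at h1 h2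
  exact mul_right_cancel₀ hden (h1.trans h2.symm)

variable {S : Set ↥(modularFunctionFieldFull N)}

/-- Reduced `q`-expansion of a chart, with coefficients in `K`. -/
def chartToK (hℓN : ¬ ℓ ∣ N) (hS : S ⊆ (gaussV N ℓ : Set Fld)) :
    IgusaScheme.chartAlg N ℓ S →ₐ[Rint] LaurentSeries K where
  __ := (coeffMap (primeHom ℓ K)).comp (chartRed N ℓ hℓN hS)
  commutes' x := by
    show coeffMap (primeHom ℓ K) (chartRed N ℓ hℓN hS (algebraMap Rint _ x)) = _
    rw [chartRed_algebraMap, HahnSeries.C_apply, coeffMap_single, ← algebraMap_eq_primeHom,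
      HahnSeries.algebraMap_apply, HahnSeries.C_apply]

/-- The `q`-expansion of a fibre chart. -/
def fibreExpand (hℓN : ¬ ℓ ∣ N) (hS : S ⊆ (gaussV N ℓ : Set Fld)) :
    IgusaScheme.chartAlg N ℓ S ⊗[Rint] K →ₐ[Rint] LaurentSeries K :=
  Algebra.TensorProduct.lift (chartToK N ℓ K hℓN hS) (IsScalarTower.toAlgHom Rint K _)
    (fun _ _ => Commute.all _ _)

theorem fibreExpand_tmul (hℓN : ¬ ℓ ∣ N) (hS : S ⊆ (gaussV N ℓ : Set Fld))
    (a : IgusaScheme.chartAlg N ℓ S) (x : K) :
    fibreExpand N ℓ K hℓN hS (a ⊗ₜ[Rint] x) =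
      coeffMap (primeHom ℓ K) (chartRed N ℓ hℓN hS a) * HahnSeries.C x := by
  show _ * algebraMap K (LaurentSeries K) x = _
  rw [HahnSeries.algebraMap_apply]
  rfl

theorem fibre_nontrivial (hℓN : ¬ ℓ ∣ N) (hS : S ⊆ (gaussV N ℓ : Set Fld)) :
    Nontrivial (IgusaScheme.chartAlg N ℓ S ⊗[Rint] K) :=
  RingHom.domain_nontrivial (β := LaurentSeries K) (fibreExpand N ℓ K hℓN hS).toRingHom

end Tensor

section Injective

variable (K : Type) [Field K] [CharP K ℓ] [Algebra ↥(GaloisRep.ratLocalizedAt ℓ) K]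

theorem fibreExpand_injective (hℓN : ¬ ℓ ∣ N) {s : Fld} (hs : GoodParam N ℓ s) :
    Function.Injective (fibreExpand N ℓ K hℓN (Set.singleton_subset_iff.mpr hs.mem)) := by
  classical
  rw [injective_iff_map_eq_zero]
  intro z hz
  obtain ⟨T, hT⟩ := TensorProduct.exists_finset z
  let : Algebra (ZMod ℓ) K := (primeHom ℓ K).toAlgebra
  set W := Submodule.span (ZMod ℓ) ((T.image Prod.snd : Finset K) : Set K) with hW
  have : Module.Finite (ZMod ℓ) W := Module.Finite.span_of_finite _ (Finset.finite_toSet _)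
  let e := Module.finBasis (ZMod ℓ) W
  have hmem : ∀ i ∈ T, i.2 ∈ W := fun i hi =>
    Submodule.subset_span (Finset.mem_coe.mpr (Finset.mem_image_of_mem _ hi))
  have hcast : ∀ (c : ZMod ℓ) (x : K), c • x = ((c.val : ℕ) : Rint) • x := by
    intro c x
    rw [Algebra.smul_def, Algebra.smul_def, map_natCast]
    congr 1
    show primeHom ℓ K c = _
    conv_lhs => rw [← ZMod.natCast_zmod_val c, map_natCast]
  let n : (IgusaScheme.chartAlg N ℓ {s}) × K → Fin (Module.finrank (ZMod ℓ) W) → ℕ :=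
    fun i k => if hi : i ∈ T then (e.repr ⟨i.2, hmem i hi⟩ k).val else 0
  have hexp : ∀ i ∈ T, i.2 = ∑ k, ((n i k : ℕ) : Rint) • (e k : K) := by
    intro i hi
    have h := congrArg Subtype.val (e.sum_repr ⟨i.2, hmem i hi⟩)
    refine h.symm.trans ?_
    rw [Submodule.coe_sum]
    refine Finset.sum_congr rfl fun k _ => ?_
    rw [SetLike.val_smul, hcast]
    simp [n, dif_pos hi]
  set A : Fin (Module.finrank (ZMod ℓ) W) → IgusaScheme.chartAlg N ℓ {s} :=
    fun k => ∑ i ∈ T, ((n i k : ℕ) : Rint) • i.1 with hA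
  have hzA : z = ∑ k, A k ⊗ₜ[Rint] (e k : K) := by
    rw [hT]
    simp only [hA, TensorProduct.sum_tmul]
    rw [Finset.sum_comm]
    refine Finset.sum_congr rfl fun i hi => ?_
    conv_lhs => rw [hexp i hi, TensorProduct.tmul_sum]
    exact Finset.sum_congr rfl fun k _ => by rw [TensorProduct.tmul_smul, TensorProduct.smul_tmul']
  rw [hzA, map_sum] at hz
  simp only [fibreExpand_tmul] at hz
  have hred : ∀ k, chartRed N ℓ hℓN (Set.singleton_subset_iff.mpr hs.mem) (A k) = 0 := by
    intro k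
    ext m
    have hm := congrArg (fun u : LaurentSeries K => u.coeff m) hz
    simp only [HahnSeries.coeff_sum, HahnSeries.coeff_zero, mul_comm _ (HahnSeries.C _),
      HahnSeries.C_mul_eq_smul, HahnSeries.coeff_smul, coeffMap_coeff, smul_eq_mul] at hm
    have hsum : ∑ l, ((chartRed N ℓ hℓN (Set.singleton_subset_iff.mpr hs.mem) (A l)).coeff m) •
        e l = 0 := by
      apply Subtype.ext
      rw [Submodule.coe_sum]
      refine Eq.trans (Finset.sum_congr rfl fun l _ => ?_) hm
      rw [SetLike.val_smul, Algebra.smul_def, mul_comm]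
      rfl
    rw [HahnSeries.coeff_zero]
    exact Fintype.linearIndependent_iff.mp e.linearIndependent _ hsum k
  rw [hzA]
  refine Finset.sum_eq_zero fun k _ => ?_
  obtain ⟨a, ha⟩ := exists_of_chartRed_eq_zero N ℓ hℓN hs (hred k)
  rw [ha, TensorProduct.smul_tmul, Algebra.smul_def, map_natCast, CharP.cast_eq_zero, zero_mul,
    TensorProduct.tmul_zero]

theorem fibre_isDomain (hℓN : ¬ ℓ ∣ N) {s : Fld} (hs : GoodParam N ℓ s) :
    IsDomain (IgusaScheme.chartAlg N ℓ {s} ⊗[Rint] K) :=
  Function.Injective.isDomain _ (fibreExpand_injective N ℓ K hℓN hs)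

end Injective

section Scheme

theorem isIntegral_of_two_charts {Z U V : Scheme} (f : U ⟶ Z) (g : V ⟶ Z) [IsOpenImmersion f]
    [IsOpenImmersion g] [IsIntegral U] [IsIntegral V]
    (hcov : Set.range f ∪ Set.range g = Set.univ) (hne : (Set.range f ∩ Set.range g).Nonempty) :
    IsIntegral Z := by
  have : IsReduced Z := by
    have : ∀ x : Z, _root_.IsReduced (Z.presheaf.stalk x) := by
      intro x
      have hx : x ∈ Set.range f ∪ Set.range g := by rw [hcov]; trivial
      rcases hx with ⟨u, rfl⟩ | ⟨v, rfl⟩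
      · exact isReduced_of_injective (f.stalkMap u).hom
          (asIso (f.stalkMap u)).commRingCatIsoToRingEquiv.injective
      · exact isReduced_of_injective (g.stalkMap v).hom
          (asIso (g.stalkMap v)).commRingCatIsoToRingEquiv.injective
    exact isReduced_of_isReduced_stalk _
  have : IrreducibleSpace Z := by
    have hf : IsPreirreducible (Set.range f) := by
      rw [← Set.image_univ]
      exact (PreirreducibleSpace.isPreirreducible_univ (X := U)).image _ f.continuous.continuousOn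
    have hg : IsPreirreducible (Set.range g) := by
      rw [← Set.image_univ]
      exact (PreirreducibleSpace.isPreirreducible_univ (X := V)).image _ g.continuous.continuousOn
    have hmeet : ∀ W : Set Z, IsOpen W → W.Nonempty → (Set.range f ∩ W).Nonempty := by
      rintro W hW ⟨x, hx⟩
      have hxu : x ∈ Set.range f ∪ Set.range g := by rw [hcov]; trivial
      rcases hxu with hxf | hxg
      · exact ⟨x, hxf, hx⟩
      · obtain ⟨y, hy⟩ := hg W (Set.range f) hW f.isOpenEmbedding.isOpen_range ⟨x, hxg, hx⟩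
          (by rwa [Set.inter_comm] at hne)
        exact ⟨y, hy.2.2, hy.2.1⟩
    have hne' : Nonempty Z := ⟨hne.choose⟩
    exact
      { isPreirreducible_univ := fun u v hu hv hu' hv' => by
          obtain ⟨y, hy⟩ := hf u v hu hv (hmeet u hu (by simpa using hu'))
            (hmeet v hv (by simpa using hv'))
          exact ⟨y, trivial, hy.2⟩
        toNonempty := hne' }
  exact isIntegral_of_irreducibleSpace_of_isReduced Z

variable (K : Type) [Field K] [CharP K ℓ] [Algebra ↥(GaloisRep.ratLocalizedAt ℓ) K]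

/-- `Spec K → Spec ℤ_(ℓ)`. -/
abbrev pointMap : Spec (CommRingCat.of K) ⟶ Spec (CommRingCat.of Rint) :=
  Spec.map (CommRingCat.ofHom (algebraMap Rint K))

theorem isIntegral_chart_pullback (hℓN : ¬ ℓ ∣ N) {s : Fld} (hs : GoodParam N ℓ s) :
    IsIntegral (pullback
      (Spec.map (CommRingCat.ofHom (algebraMap Rint (IgusaScheme.chartAlg N ℓ {s}))))
      (pointMap ℓ K)) := by
  have := fibre_isDomain N ℓ K hℓN hs
  set e := pullbackSpecIso Rint (IgusaScheme.chartAlg N ℓ {s}) K
  have : Nonempty ↑(pullback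
      (Spec.map (CommRingCat.ofHom (algebraMap Rint (IgusaScheme.chartAlg N ℓ {s}))))
      (pointMap ℓ K)) :=
    Nonempty.map e.inv inferInstance
  exact isIntegral_of_isOpenImmersion e.hom

/-- The geometric fibre of the Igusa model at `ℓ ∤ N` is integral. -/
theorem isIntegral_igusa_fibre (hℓN : ¬ ℓ ∣ N) :
    IsIntegral (pullback (IgusaScheme.igusaTo N ℓ) (pointMap ℓ K)) := by
  set g := pointMap ℓ K with hg
  let f₁ : pullback (Spec.map (CommRingCat.ofHom
      (algebraMap Rint (IgusaScheme.chartAlgFin N ℓ)))) g ⟶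
      pullback (IgusaScheme.igusaTo N ℓ) g :=
    pullback.map _ _ _ _ (IgusaScheme.ιFin N ℓ) (𝟙 _) (𝟙 _)
      (by rw [Category.comp_id, IgusaScheme.ιFin_igusaTo]) (by simp)
  let f₂ : pullback (Spec.map (CommRingCat.ofHom
      (algebraMap Rint (IgusaScheme.chartAlgInf N ℓ)))) g ⟶
      pullback (IgusaScheme.igusaTo N ℓ) g :=
    pullback.map _ _ _ _ (IgusaScheme.ιInf N ℓ) (𝟙 _) (𝟙 _)
      (by rw [Category.comp_id, IgusaScheme.ιInf_igusaTo]) (by simp)
  have := isIntegral_chart_pullback N ℓ K hℓN (goodParam_jFull N ℓ)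
  have := isIntegral_chart_pullback N ℓ K hℓN (goodParam_jFull_inv N ℓ)
  have hsnd : Set.range (𝟙 (Spec (CommRingCat.of K)) : _ ⟶ _) = Set.univ :=
    Set.range_eq_univ.mpr fun x => ⟨x, rfl⟩
  have h₁ : Set.range f₁ = pullback.fst (IgusaScheme.igusaTo N ℓ) g ⁻¹'
      Set.range (IgusaScheme.ιFin N ℓ) := by
    rw [show Set.range f₁ = _ from Scheme.Pullback.range_map _ _ _ _ _ _ _ _ _, hsnd,
      Set.preimage_univ, Set.inter_univ]
  have h₂ : Set.range f₂ = pullback.fst (IgusaScheme.igusaTo N ℓ) g ⁻¹'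
      Set.range (IgusaScheme.ιInf N ℓ) := by
    rw [show Set.range f₂ = _ from Scheme.Pullback.range_map _ _ _ _ _ _ _ _ _, hsnd,
      Set.preimage_univ, Set.inter_univ]
  refine isIntegral_of_two_charts f₁ f₂ ?_ ?_
  · rw [h₁, h₂, ← Set.preimage_union]
    refine Set.eq_univ_of_forall fun x => ?_
    exact IgusaScheme.mem_range_ιFin_or_mem_range_ιInf N ℓ _
  · have hmid : ({IgusaScheme.jFull N, (IgusaScheme.jFull N)⁻¹} : Set Fld) ⊆
        (gaussV N ℓ : Set Fld) := by
      rintro x (rfl | rfl)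
      · exact jFull_mem_gaussV N ℓ
      · exact jFull_inv_mem_gaussV N ℓ
    have := fibre_nontrivial N ℓ K hℓN hmid
    have e := pullbackSpecIso Rint (IgusaScheme.chartAlgMid N ℓ) K
    obtain ⟨w⟩ : Nonempty ↑(pullback (Spec.map (CommRingCat.ofHom
        (algebraMap Rint (IgusaScheme.chartAlgMid N ℓ)))) g) :=
      Nonempty.map e.inv inferInstance
    have hcomp : Spec.map (CommRingCat.ofHom (algebraMap Rint (IgusaScheme.chartAlgMid N ℓ))) =
        (IgusaScheme.fFin N ℓ ≫ IgusaScheme.ιFin N ℓ) ≫ IgusaScheme.igusaTo N ℓ := by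
      rw [Category.assoc, IgusaScheme.ιFin_igusaTo, ← Spec.map_comp, ← CommRingCat.ofHom_comp]
      rfl
    let h : pullback (Spec.map (CommRingCat.ofHom
        (algebraMap Rint (IgusaScheme.chartAlgMid N ℓ)))) g ⟶
        pullback (IgusaScheme.igusaTo N ℓ) g :=
      pullback.map _ _ _ _ (IgusaScheme.fFin N ℓ ≫ IgusaScheme.ιFin N ℓ) (𝟙 _) (𝟙 _)
        (by rw [Category.comp_id, hcomp]) (by simp)
    have hfst : pullback.fst (IgusaScheme.igusaTo N ℓ) g (h w) =
        (IgusaScheme.fFin N ℓ ≫ IgusaScheme.ιFin N ℓ) (pullback.fst (Spec.map (CommRingCat.ofHom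
          (algebraMap Rint (IgusaScheme.chartAlgMid N ℓ)))) g w) := by
      rw [← Scheme.Hom.comp_apply, pullback.lift_fst]
      rfl
    refine ⟨h w, ?_, ?_⟩
    · rw [h₁, Set.mem_preimage, hfst]
      exact ⟨_, rfl⟩
    · rw [h₂, Set.mem_preimage, hfst, IgusaScheme.glue_condition]
      exact ⟨_, rfl⟩

end Scheme

end Fermat.Agent.Igusa
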