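import Mathlib.Algebra.Field.Basic
import Mathlib.Algebra.Ring.Subring.Basic
import Mathlib.Tactic.FieldSimp
import Mathlib.Tactic.Ring
import Mathlib.Tactic.LinearCombination

/-!
# Fractions with nonzero reduction

The fractions of a subring `P` of a field whose denominators have nonzero reduction.
-/

set_option autoImplicit false

noncomputable section

namespace Fermat.Agent.Igusa

variable {P F L : Type*} [CommRing P] [Field F] [Field L] (ι : P →+* F) (π : P →+* L)

/-- `{a / b : π b ≠ 0}`. -/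
def gaussRing : Subring F where
  carrier := {y | ∃ a b : P, π b ≠ 0 ∧ y * ι b = ι a}
  one_mem' := ⟨1, 1, by simp, by simp⟩
  zero_mem' := ⟨0, 1, by simp, by simp⟩
  mul_mem' := by
    rintro x y ⟨a, b, hb, hx⟩ ⟨c, d, hd, hy⟩
    exact ⟨a * c, b * d, by rw [map_mul]; exact mul_ne_zero hb hd, by
      rw [map_mul, map_mul, ← hx, ← hy]; ring⟩
  add_mem' := by
    rintro x y ⟨a, b, hb, hx⟩ ⟨c, d, hd, hy⟩
    exact ⟨a * d + c * b, b * d, by rw [map_mul]; exact mul_ne_zero hb hd, by
      rw [map_mul, map_add, map_mul, map_mul, ← hx, ← hy]; ring⟩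
  neg_mem' := by
    rintro x ⟨a, b, hb, hx⟩
    exact ⟨-a, b, hb, by rw [map_neg, ← hx]; ring⟩

theorem apply_mem_gaussRing (a : P) : ι a ∈ gaussRing ι π := ⟨a, 1, by simp, by simp⟩

theorem inv_mem_gaussRing {a b : P} {y : F} (ha : π a ≠ 0) (hι : ι a ≠ 0) (h : y * ι b = ι a) :
    y⁻¹ ∈ gaussRing ι π := by
  have hy : y ≠ 0 := fun h0 => hι (by rw [← h, h0, zero_mul])
  exact ⟨b, a, ha, by rw [← h, ← mul_assoc, inv_mul_cancel₀ hy, one_mul]⟩

variable (hι : Function.Injective ι)

/-- Reduction on `gaussRing`, as a function. -/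
def gaussRedFun (y : gaussRing ι π) : L :=
  π y.2.choose / π y.2.choose_spec.choose

include hι in
theorem gaussRedFun_eq {y : gaussRing ι π} {a b : P} (hb : π b ≠ 0)
    (h : (y : F) * ι b = ι a) : gaussRedFun ι π y = π a / π b := by
  obtain ⟨hb', h'⟩ := y.2.choose_spec.choose_spec
  rw [gaussRedFun, div_eq_div_iff hb' hb, ← map_mul, ← map_mul]
  congr 1
  apply hι
  rw [map_mul, map_mul]
  linear_combination (ι y.2.choose_spec.choose) * h - (ι b) * h'

/-- Reduction on `gaussRing`. -/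
def gaussRed : gaussRing ι π →+* L where
  toFun := gaussRedFun ι π
  map_one' := by
    rw [gaussRedFun_eq ι π hι (y := 1) (a := 1) (b := 1) (by simp) (by simp)]
    simp
  map_zero' := by
    rw [gaussRedFun_eq ι π hι (y := 0) (a := 0) (b := 1) (by simp) (by simp)]
    simp
  map_mul' x y := by
    obtain ⟨a, b, hb, hx⟩ := x.2
    obtain ⟨c, d, hd, hy⟩ := y.2
    rw [gaussRedFun_eq ι π hι hb hx, gaussRedFun_eq ι π hι hd hy,
      gaussRedFun_eq ι π hι (y := x * y) (a := a * c) (b := b * d)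
        (by rw [map_mul]; exact mul_ne_zero hb hd)
        (by rw [Subring.coe_mul, map_mul, map_mul, ← hx, ← hy]; ring)]
    rw [map_mul, map_mul, mul_div_mul_comm]
  map_add' x y := by
    obtain ⟨a, b, hb, hx⟩ := x.2
    obtain ⟨c, d, hd, hy⟩ := y.2
    rw [gaussRedFun_eq ι π hι hb hx, gaussRedFun_eq ι π hι hd hy,
      gaussRedFun_eq ι π hι (y := x + y) (a := a * d + c * b) (b := b * d)
        (by rw [map_mul]; exact mul_ne_zero hb hd)
        (by rw [Subring.coe_add, map_mul, map_add, map_mul, map_mul, ← hx, ← hy]; ring)]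
    rw [map_add, map_mul, map_mul, map_mul, div_add_div _ _ hb hd]
    congr 1
    ring

theorem gaussRed_eq {y : gaussRing ι π} {a b : P} (hb : π b ≠ 0) (h : (y : F) * ι b = ι a) :
    gaussRed ι π hι y = π a / π b := gaussRedFun_eq ι π hι hb h

theorem gaussRed_apply (a : P) :
    gaussRed ι π hι ⟨ι a, apply_mem_gaussRing ι π a⟩ = π a := by
  rw [gaussRed_eq ι π hι (a := a) (b := 1) (by simp) (by simp), map_one, div_one]

/-- If the kernel of `π` is generated by `n`, so is that of `gaussRed`. -/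
theorem exists_of_gaussRed_eq_zero {n : ℕ} (hker : ∀ x : P, π x = 0 → ∃ x' : P, x = (n : P) * x')
    (hn : (n : F) ≠ 0) {y : gaussRing ι π} (h : gaussRed ι π hι y = 0) :
    ∃ z : gaussRing ι π, (y : F) = (n : F) * z := by
  obtain ⟨a, b, hb, hy⟩ := y.2
  rw [gaussRed_eq ι π hι hb hy, div_eq_zero_iff] at h
  obtain ⟨a', rfl⟩ := hker a (h.resolve_right hb)
  refine ⟨⟨(y : F) / (n : F), a', b, hb, ?_⟩, by field_simp⟩
  rw [div_mul_eq_mul_div, hy, map_mul, map_natCast, mul_comm, mul_div_assoc, div_self hn, mul_one]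

end Fermat.Agent.Igusa
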