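import Fermat.Agent.Igusa.Degree
import Fermat.Agent.Igusa.GaussRing
import Fermat.Prelude.Def_ModularCurve_IgusaScheme
import Mathlib.RingTheory.Valuation.ValuationSubring
import Mathlib.RingTheory.Polynomial.IsIntegral

/-!
# The Gauss valuation ring

The Gauss valuation ring of the modular function field and the Igusa charts.
-/

set_option autoImplicit false

noncomputable section

open ModularCurve Polynomial IntermediateField

namespace Fermat.Agent.Igusa

section Ratfun

variable {L : Type*} [Field L] [Algebra ℚ L]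

/-- An element of `ℚ(s)` integral over `ℚ[s]` is a polynomial in `s`. -/
theorem exists_poly_of_isIntegral_adjoin {s u : L} (hs : Function.Injective (aeval (R := ℚ) s))
    (hu : u ∈ IntermediateField.adjoin ℚ {s})
    (hint : IsIntegral (Algebra.adjoin ℚ ({s} : Set L)) u) :
    ∃ P : Polynomial ℚ, u = aeval s P := by
  obtain ⟨Ψ, hΨ, hroot⟩ := hint
  let e : Polynomial ℚ →+* Algebra.adjoin ℚ ({s} : Set L) :=
    ((aeval (R := ℚ) s).codRestrict _ fun P => aeval_mem_adjoin_singleton ℚ s).toRingHom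
  have he : Function.Surjective e := by
    rintro ⟨x, hx⟩
    rw [Algebra.adjoin_singleton_eq_range_aeval] at hx
    obtain ⟨P, hP⟩ := hx
    exact ⟨P, Subtype.ext hP⟩
  obtain ⟨Ψ', hΨ', -, hm'⟩ := Polynomial.lifts_and_natDegree_eq_and_monic
    ((Polynomial.lifts_iff_coeff_lifts Ψ).mpr fun n => he _) hΨ
  set θ : RatFunc ℚ →+* L := IsFractionRing.lift (show Function.Injective
    (aeval (R := ℚ) s).toRingHom from hs)
  have hθ : ∀ A : Polynomial ℚ, θ (algebraMap _ (RatFunc ℚ) A) = aeval s A := fun A =>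
    IsFractionRing.lift_algebraMap _ A
  obtain ⟨a, b, hab⟩ := (IntermediateField.mem_adjoin_simple_iff ℚ u).mp hu
  set z : RatFunc ℚ := algebraMap _ _ a / algebraMap _ _ b with hz
  have hzu : θ z = u := by rw [hz, map_div₀, hθ, hθ, hab]
  have hcomp : (algebraMap (Algebra.adjoin ℚ ({s} : Set L)) L).comp e =
      θ.comp (algebraMap (Polynomial ℚ) (RatFunc ℚ)) :=
    RingHom.ext fun A => (hθ A).symm
  have hzroot : Ψ'.eval₂ (algebraMap (Polynomial ℚ) (RatFunc ℚ)) z = 0 := by
    apply θ.injective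
    rw [map_zero, Polynomial.hom_eval₂, hzu, ← hcomp, ← Polynomial.eval₂_map, hΨ']
    exact hroot
  obtain ⟨P, hP⟩ := IsIntegrallyClosed.isIntegral_iff.mp
    (show IsIntegral (Polynomial ℚ) z from ⟨Ψ', hm', hzroot⟩)
  exact ⟨P, by rw [← hzu, ← hP, hθ]⟩

end Ratfun

section Scale

theorem exists_primitive_scale {ι : Type*} [Fintype ι] (ℓ : ℕ) [hℓ : Fact ℓ.Prime]
    (q : ι → Polynomial ℚ) (hq : ∃ i, q i ≠ 0) :
    ∃ (c : ℚ) (p : ι → Polynomial ℤ), c ≠ 0 ∧
      (∀ i, Polynomial.C c * q i = (p i).map (Int.castRingHom ℚ)) ∧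
      ∃ i n, ¬ (ℓ : ℤ) ∣ (p i).coeff n := by
  classical
  set s : Finset (Σ _ : ι, ℕ) := Finset.univ.sigma fun i => (q i).support with hs
  have hsne : s.Nonempty := by
    obtain ⟨i, hi⟩ := hq
    obtain ⟨n, hn⟩ := Finset.nonempty_iff_ne_empty.mpr (mt Polynomial.support_eq_empty.mp hi)
    exact ⟨⟨i, n⟩, Finset.mem_sigma.mpr ⟨Finset.mem_univ i, hn⟩⟩
  set D : ℕ := ∏ x ∈ s, ((q x.1).coeff x.2).den with hD
  have hD0 : (D : ℚ) ≠ 0 := by
    rw [hD]
    exact_mod_cast Finset.prod_ne_zero_iff.mpr fun x _ => Rat.den_ne_zero _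
  have hint : ∀ x ∈ s, ∃ m : ℤ, (D : ℚ) * (q x.1).coeff x.2 = m := by
    intro x hx
    obtain ⟨d, hd⟩ : ((q x.1).coeff x.2).den ∣ D := Finset.dvd_prod_of_mem _ hx
    refine ⟨((q x.1).coeff x.2).num * d, ?_⟩
    rw [hd]
    push_cast
    rw [mul_right_comm, Rat.den_mul_eq_num]
  choose! m hm using hint
  obtain ⟨g, hg, hg1⟩ := Finset.extract_gcd m hsne
  have hgcd : s.gcd m ≠ 0 := by
    intro h
    obtain ⟨x, hx⟩ := hsne
    have h1 := hm x hx
    rw [hg x hx, h, zero_mul, Int.cast_zero, mul_eq_zero] at h1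
    exact Polynomial.mem_support_iff.mp (Finset.mem_sigma.mp hx).2 (h1.resolve_left hD0)
  refine ⟨(D : ℚ) / (s.gcd m : ℤ), fun i => ∑ n ∈ (q i).support, Polynomial.monomial n (g ⟨i, n⟩),
    div_ne_zero hD0 (by exact_mod_cast hgcd), fun i => ?_, ?_⟩
  · ext n
    rw [Polynomial.coeff_C_mul, Polynomial.coeff_map, Polynomial.finsetSum_coeff]
    simp only [Polynomial.coeff_monomial, Finset.sum_ite_eq']
    by_cases hn : n ∈ (q i).support
    · rw [if_pos hn, div_mul_eq_mul_div,
        hm ⟨i, n⟩ (Finset.mem_sigma.mpr ⟨Finset.mem_univ i, hn⟩),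
        hg ⟨i, n⟩ (Finset.mem_sigma.mpr ⟨Finset.mem_univ i, hn⟩),
        div_eq_iff (by exact_mod_cast hgcd : ((s.gcd m : ℤ) : ℚ) ≠ 0)]
      push_cast
      simp [mul_comm]
    · rw [if_neg hn, Polynomial.notMem_support_iff.mp hn, mul_zero, map_zero]
  · by_contra h
    push Not at h
    have hdvd : (ℓ : ℤ) ∣ s.gcd g := Finset.dvd_gcd fun x hx => by
      have := h x.1 x.2
      rw [Polynomial.finsetSum_coeff] at this
      simp only [Polynomial.coeff_monomial, Finset.sum_ite_eq'] at this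
      rwa [if_pos (Finset.mem_sigma.mp hx).2] at this
    rw [hg1] at hdvd
    have := Int.eq_one_of_dvd_one (by positivity) hdvd
    exact hℓ.out.ne_one (by exact_mod_cast this)

end Scale

variable (N : ℕ) [NeZero N] (ℓ : ℕ) [hℓ : Fact ℓ.Prime]

set_option quotPrecheck false in
local notation "Fld" => ↥(modularFunctionFieldFull N)
set_option quotPrecheck false in
local notation "Rint" => ↥(GaloisRep.ratLocalizedAt ℓ)

theorem den_cast_ne_zero (x : Rint) : ((x.1.den : ℕ) : ZMod ℓ) ≠ 0 := by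
  rw [Ne, ZMod.natCast_eq_zero_iff]
  exact hℓ.out.coprime_iff_not_dvd.mp (Nat.Coprime.symm x.2)

/-- The reduction `ℤ_(ℓ) → 𝔽_ℓ`. -/
def resHom : Rint →+* ZMod ℓ where
  toFun x := ((x.1 : ℚ) : ZMod ℓ)
  map_one' := by simp
  map_zero' := by simp
  map_mul' x y := Rat.cast_mul_of_ne_zero (den_cast_ne_zero ℓ x) (den_cast_ne_zero ℓ y)
  map_add' x y := Rat.cast_add_of_ne_zero (den_cast_ne_zero ℓ x) (den_cast_ne_zero ℓ y)

theorem exists_of_resHom_eq_zero {x : Rint} (h : resHom ℓ x = 0) : ∃ y : Rint, x = (ℓ : Rint) * y := by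
  change ((x.1 : ℚ) : ZMod ℓ) = 0 at h
  rw [Rat.cast_def, div_eq_zero_iff] at h
  have hnum : (ℓ : ℤ) ∣ x.1.num :=
    (ZMod.intCast_zmod_eq_zero_iff_dvd _ _).mp (h.resolve_right (den_cast_ne_zero ℓ x))
  obtain ⟨k, hk⟩ := hnum
  refine ⟨⟨(k : ℚ) / x.1.den, ?_⟩, Subtype.ext ?_⟩
  · show ((k : ℚ) / x.1.den).den.Coprime ℓ
    refine Nat.Coprime.coprime_dvd_left ?_ x.2
    have := Rat.den_dvd k (x.1.den : ℤ)
    rw [Rat.divInt_eq_div, Int.cast_natCast] at this
    exact_mod_cast this
  · show (x.1 : ℚ) = (ℓ : ℚ) * ((k : ℚ) / x.1.den)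
    conv_lhs => rw [← Rat.num_div_den x.1, hk]
    push_cast
    ring

/-- Series with coefficients in `ℤ_(ℓ)` lying in the function field. -/
def intRing : Subring (LaurentSeries Rint) :=
  (modularFunctionFieldFull N).toSubfield.toSubring.comap
    (coeffMap (GaloisRep.ratLocalizedAt ℓ).subtype)

/-- The inclusion into the function field. -/
def intIncl : intRing N ℓ →+* Fld where
  toFun x := ⟨coeffMap (GaloisRep.ratLocalizedAt ℓ).subtype x.1, x.2⟩
  map_one' := Subtype.ext (map_one _)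
  map_zero' := Subtype.ext (map_zero _)
  map_mul' x y := Subtype.ext (map_mul _ x.1 y.1)
  map_add' x y := Subtype.ext (map_add _ x.1 y.1)

theorem intIncl_injective : Function.Injective (intIncl N ℓ) := fun _ _ h =>
  Subtype.ext (coeffMap_injective Subtype.val_injective (congrArg Subtype.val h))

/-- Reduction of integral series. -/
def intRed : intRing N ℓ →+* LaurentSeries (ZMod ℓ) :=
  (coeffMap (resHom ℓ)).comp (intRing N ℓ).subtype

theorem exists_of_intRed_eq_zero (x : intRing N ℓ) (h : intRed N ℓ x = 0) :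
    ∃ x' : intRing N ℓ, x = (ℓ : intRing N ℓ) * x' := by
  have hc : ∀ n, ∃ y : Rint, x.1.coeff n = (ℓ : Rint) * y := fun n => by
    refine exists_of_resHom_eq_zero ℓ ?_
    have := congrArg (fun z : LaurentSeries (ZMod ℓ) => z.coeff n) h
    simpa [intRed] using this
  choose y hy using hc
  have hlR : (ℓ : Rint) ≠ 0 := fun h0 => hℓ.out.ne_zero (by
    have := congrArg Subtype.val h0
    exact_mod_cast this)
  let z : LaurentSeries Rint :=
    { coeff := y
      isPWO_support' := x.1.isPWO_support.mono fun n hn hx => hn (by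
        have := hy n
        rw [hx] at this
        exact (mul_eq_zero.mp this.symm).resolve_left hlR) }
  have hz : x.1 = (ℓ : LaurentSeries Rint) * z := by
    rw [← map_natCast (HahnSeries.C : Rint →+* LaurentSeries Rint), HahnSeries.C_mul_eq_smul]
    ext n
    simp [z, hy n]
  have hmem : z ∈ intRing N ℓ := by
    have hx : coeffMap (GaloisRep.ratLocalizedAt ℓ).subtype x.1 ∈ modularFunctionFieldFull N := x.2
    rw [hz, map_mul, map_natCast] at hx
    have hl0 : (ℓ : LaurentSeries ℚ) ≠ 0 := by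
      rw [← map_natCast (HahnSeries.C : ℚ →+* LaurentSeries ℚ)]
      exact HahnSeries.C_ne_zero (by exact_mod_cast hℓ.out.ne_zero)
    have := (modularFunctionFieldFull N).mul_mem
      ((modularFunctionFieldFull N).inv_mem (_root_.natCast_mem (modularFunctionFieldFull N) ℓ)) hx
    rwa [← mul_assoc, inv_mul_cancel₀ hl0, one_mul] at this
  exact ⟨⟨z, hmem⟩, Subtype.ext (by simpa using hz)⟩

/-- `j(q ^ d)` as an integral series. -/
def jdInt (d : ℕ) [NeZero d] (hd : d ∣ N) : intRing N ℓ :=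
  ⟨qExpand Rint d (jqModC Rint), by
    show coeffMap _ (qExpand Rint d (jqModC Rint)) ∈ modularFunctionFieldFull N
    rw [coeffMap_qExpand, coeffMap_jqModC, jqModC_rat]
    exact jqd_mem_full N hd⟩

theorem intIncl_jdInt (d : ℕ) [NeZero d] (hd : d ∣ N) :
    (intIncl N ℓ (jdInt N ℓ d hd) : LaurentSeries ℚ) = jd ℚ d := by
  show coeffMap _ (qExpand Rint d (jqModC Rint)) = _
  rw [coeffMap_qExpand, coeffMap_jqModC]
  rfl

theorem intRed_jdInt (d : ℕ) [NeZero d] (hd : d ∣ N) :
    intRed N ℓ (jdInt N ℓ d hd) = jd (ZMod ℓ) d := by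
  show coeffMap (resHom ℓ) (qExpand Rint d (jqModC Rint)) = _
  rw [coeffMap_qExpand, coeffMap_jqModC]
  rfl

/-- `j` as an integral series. -/
def jInt : intRing N ℓ := jdInt N ℓ 1 (one_dvd N)

theorem intIncl_jInt : intIncl N ℓ (jInt N ℓ) = IgusaScheme.jFull N :=
  Subtype.ext ((intIncl_jdInt N ℓ 1 _).trans (jd_one ℚ))

theorem intRed_jInt : intRed N ℓ (jInt N ℓ) = jqModC (ZMod ℓ) :=
  (intRed_jdInt N ℓ 1 _).trans (jd_one _)

theorem intEval_eq_eval₂ {K : Type*} [Field K] (P : Polynomial ℤ) :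
    intEval (jqModC K) P =
      Polynomial.eval₂ HahnSeries.C (jqModC K) (P.map (Int.castRingHom K)) := by
  rw [Polynomial.eval₂_map, intEval, Polynomial.coe_eval₂RingHom]
  exact congrArg (fun f => Polynomial.eval₂ f _ P) (Subsingleton.elim _ _)

theorem intEval_jbar_eq_zero {P : Polynomial ℤ} (h : intEval (jqModC (ZMod ℓ)) P = 0) (n : ℕ) :
    (ℓ : ℤ) ∣ P.coeff n := by
  rw [intEval_eq_eval₂] at h
  have := congrArg (fun Q : Polynomial (ZMod ℓ) => Q.coeff n) (poly_eval_jqModC_eq_zero h)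
  simpa [ZMod.intCast_zmod_eq_zero_iff_dvd] using this

variable {N ℓ} in
theorem intEval_jbar_ne_zero {P : Polynomial ℤ} {n : ℕ} (h : ¬ (ℓ : ℤ) ∣ P.coeff n) :
    intEval (jqModC (ZMod ℓ)) P ≠ 0 := fun h0 => h (intEval_jbar_eq_zero ℓ h0 n)

/-- The Gauss valuation ring, as a subring. -/
abbrev gaussV : Subring Fld := gaussRing (intIncl N ℓ) (intRed N ℓ)

/-- Reduction on the Gauss valuation ring. -/
def gaussVRed : gaussV N ℓ →+* LaurentSeries (ZMod ℓ) :=
  gaussRed (intIncl N ℓ) (intRed N ℓ) (intIncl_injective N ℓ)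

theorem exists_indep_in_subring {k₀ L : Type*} [Field k₀] [Field L] [Algebra k₀ L] (gens : Set L)
    {n : ℕ} (hn : 0 < n) (hfr : Module.finrank k₀ (IntermediateField.adjoin k₀ gens) = n)
    (T : Subring L) (hsub : gens ⊆ T) :
    ∃ w : Fin n → T, LinearIndependent k₀ fun i => (w i : L) := by
  classical
  set E := IntermediateField.adjoin k₀ gens with hE
  have : Module.Finite k₀ E := Module.finite_of_finrank_pos (by rw [hfr]; exact hn)
  have halg : ∀ x ∈ gens, IsAlgebraic k₀ x := fun x hx =>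
    (isAlgebraic_algHom_iff E.val E.val.injective).mpr
      (Algebra.IsAlgebraic.isAlgebraic (⟨x, IntermediateField.subset_adjoin _ _ hx⟩ : E))
  have hgen : (E : Set L) ⊆ Submodule.span k₀ (T : Set L) := by
    intro x hx
    have hx' : x ∈ Algebra.adjoin k₀ gens := by
      rw [← adjoin_toSubalgebra_of_isAlgebraic halg]; exact hx
    rw [← Subalgebra.mem_toSubmodule, Algebra.adjoin_eq_span] at hx'
    exact Submodule.span_mono (Submonoid.closure_le (S := T.toSubmonoid) |>.mpr hsub) hx'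
  obtain ⟨b, hbS, hspan, hli⟩ := exists_linearIndependent k₀ (T : Set L)
  suffices ∃ f : Fin n → b, Function.Injective f by
    obtain ⟨f, hf⟩ := this
    exact ⟨fun i => ⟨(f i : L), hbS (f i).2⟩, hli.comp f hf⟩
  rcases b.finite_or_infinite with hfin | hinf
  · have := hfin.fintype
    have hle : n ≤ Fintype.card b := by
      rw [← hfr, ← (finrank_span_set_eq_card hli).trans (Set.toFinset_card b)]
      have : Module.Finite k₀ (Submodule.span k₀ b) := Module.Finite.span_of_finite _ hfin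
      refine Submodule.finrank_mono (s := E.toSubalgebra.toSubmodule) ?_
      rw [hspan]
      exact fun x hx => hgen hx
    exact ⟨(Fintype.equivFin b).symm ∘ Fin.castLE hle,
      (Fintype.equivFin b).symm.injective.comp (Fin.castLE_injective hle)⟩
  · have := hinf.to_subtype
    exact ⟨fun i => Infinite.natEmbedding b i,
      (Infinite.natEmbedding b).injective.comp Fin.val_injective⟩

theorem adjoin_divisorExpansions_eq (K : Type*) [Field K] (N : ℕ) :
    IntermediateField.adjoin (jField K) (divisorExpansionsC K N) =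
      extendScalars (jField_le K N) := by
  refine le_antisymm ?_ ?_
  · rw [IntermediateField.adjoin_le_iff]
    intro y hy
    have h : y ∈ modularFunctionFieldFullC K N :=
      IntermediateField.subset_adjoin (F := K) (divisorExpansionsC K N) hy
    exact h
  · intro x hx
    have hle : modularFunctionFieldFullC K N ≤
        (IntermediateField.adjoin (jField K) (divisorExpansionsC K N)).restrictScalars K := by
      refine (IntermediateField.adjoin_le_iff).mpr ?_
      intro y hy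
      exact (mem_restrictScalars K).mpr
        (IntermediateField.subset_adjoin (F := jField K) (divisorExpansionsC K N) hy)
    exact (mem_restrictScalars K).mp (hle hx)

omit [NeZero N] in
theorem dedekindPsi_pos' [NeZero N] : 0 < dedekindPsi N := by
  unfold dedekindPsi
  refine Finset.sum_pos' (fun _ _ => Nat.zero_le _) ⟨1, ?_, ?_⟩
  · simp [NeZero.ne N]
  · simpa using Nat.pos_of_ne_zero (NeZero.ne N)

theorem exists_basis_series (hℓN : ¬ ℓ ∣ N) :
    ∃ w : Fin (dedekindPsi N) → intRing N ℓ,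
      LinearIndependent (jField (ZMod ℓ)) fun i => intRed N ℓ (w i) := by
  have hN : (N : ZMod ℓ) ≠ 0 := by rwa [Ne, ZMod.natCast_eq_zero_iff]
  have hfr : Module.finrank (jField (ZMod ℓ))
      (IntermediateField.adjoin (jField (ZMod ℓ)) (divisorExpansionsC (ZMod ℓ) N)) =
        dedekindPsi N := by
    rw [adjoin_divisorExpansions_eq, ← relfinrank_fullC (ZMod ℓ) N hN,
      relfinrank_eq_finrank_of_le (jField_le (ZMod ℓ) N)]
  obtain ⟨w, hw⟩ := exists_indep_in_subring (divisorExpansionsC (ZMod ℓ) N) (dedekindPsi_pos' N)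
    hfr (intRed N ℓ).range (by
      rintro x ⟨d, hd0, hd, rfl⟩
      exact ⟨jdInt N ℓ d hd, intRed_jdInt N ℓ d hd⟩)
  choose v hv using fun i => RingHom.mem_range.mp (w i).2
  refine ⟨v, ?_⟩
  rw [show (fun i => intRed N ℓ (v i)) = fun i => (w i : LaurentSeries (ZMod ℓ)) from funext hv]
  exact hw

/-- An integral relation between `ψ(N) + 1` elements with primitive coefficients. -/
theorem exists_relation (v : Option (Fin (dedekindPsi N)) → Fld) :
    ∃ c : Option (Fin (dedekindPsi N)) → Polynomial ℤ,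
      (∑ γ, intEval (IgusaScheme.jFull N) (c γ) * v γ = 0) ∧ ∃ γ n, ¬ (ℓ : ℤ) ∣ (c γ).coeff n := by
  classical
  set E := extendScalars (jField_le ℚ N) with hE
  have hfr : Module.finrank (jField ℚ) E = dedekindPsi N := by
    rw [← relfinrank_fullC ℚ N (by exact_mod_cast NeZero.ne N),
      relfinrank_eq_finrank_of_le (jField_le ℚ N)]
  let v' : Option (Fin (dedekindPsi N)) → E := fun γ => ⟨(v γ).1, (v γ).2⟩
  have hnli : ¬ LinearIndependent (jField ℚ) v' := by
    intro h
    have hpos : 0 < Module.finrank (jField ℚ) E := by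
      rw [hfr]
      unfold dedekindPsi
      refine Finset.sum_pos' (fun _ _ => Nat.zero_le _) ⟨1, ?_, ?_⟩
      · simp [NeZero.ne N]
      · simpa using Nat.pos_of_ne_zero (NeZero.ne N)
    have : Module.Finite (jField ℚ) E := Module.finite_of_finrank_pos hpos
    have := h.fintype_card_le_finrank
    rw [hfr, Fintype.card_option, Fintype.card_fin] at this
    omega
  obtain ⟨g, hg, γ₀, hγ₀⟩ := Fintype.not_linearIndependent_iff.mp hnli
  have hrep : ∀ γ, ∃ a b : Polynomial ℚ, aeval (jqModC ℚ) b ≠ 0 ∧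
      ((g γ : jField ℚ) : LaurentSeries ℚ) * aeval (jqModC ℚ) b = aeval (jqModC ℚ) a := by
    intro γ
    obtain ⟨a, b, hab⟩ := (IntermediateField.mem_adjoin_simple_iff ℚ _).mp (g γ).2
    rcases eq_or_ne (aeval (jqModC ℚ) b) 0 with hb | hb
    · exact ⟨0, 1, by simp, by rw [hab, hb]; simp⟩
    · exact ⟨a, b, hb, by rw [hab, div_mul_cancel₀ _ hb]⟩
  choose a b hb hab using hrep
  set q : Option (Fin (dedekindPsi N)) → Polynomial ℚ :=
    fun γ => a γ * ∏ δ ∈ Finset.univ.erase γ, b δ with hq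
  have hqv : ∀ γ, aeval (jqModC ℚ) (q γ) =
      (g γ : LaurentSeries ℚ) * ∏ δ, aeval (jqModC ℚ) (b δ) := fun γ => by
    rw [hq, map_mul, map_prod, ← hab γ, mul_assoc,
      Finset.mul_prod_erase Finset.univ (fun δ => aeval (jqModC ℚ) (b δ)) (Finset.mem_univ γ)]
  have hBne : ∏ δ, aeval (jqModC ℚ) (b δ) ≠ 0 := Finset.prod_ne_zero_iff.mpr fun δ _ => hb δ
  obtain ⟨c, p, hc, hp, hprim⟩ := exists_primitive_scale ℓ q ⟨γ₀, fun h => by
    have := hqv γ₀
    rw [h, map_zero] at this
    exact hγ₀ (Subtype.ext ((mul_eq_zero.mp this.symm).resolve_right hBne))⟩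
  refine ⟨p, ?_, hprim⟩
  apply (modularFunctionFieldFull N).toSubfield.subtype.injective
  rw [map_sum, map_zero]
  have hg' : ∑ γ, (g γ : LaurentSeries ℚ) * (v γ).1 = 0 := by
    have h := congrArg E.val hg
    rw [map_sum, map_zero] at h
    refine Eq.trans (Finset.sum_congr rfl fun i _ => ?_) h
    rw [map_smul, IntermediateField.smul_def, smul_eq_mul]
    rfl
  have hterm : ∀ γ, (modularFunctionFieldFull N).toSubfield.subtype
      (intEval (IgusaScheme.jFull N) (p γ) * v γ) =
      (HahnSeries.C c * ∏ δ, aeval (jqModC ℚ) (b δ)) * ((g γ : LaurentSeries ℚ) * (v γ).1) := by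
    intro γ
    rw [map_mul]
    have h1 : (modularFunctionFieldFull N).toSubfield.subtype (intEval (IgusaScheme.jFull N) (p γ)) =
        aeval (jqModC ℚ) (Polynomial.C c * q γ) := by
      rw [hp γ, aeval_jqModC, ← intEval_eq_eval₂]
      exact RingHom.congr_fun (comp_intEval (modularFunctionFieldFull N).toSubfield.subtype
        (IgusaScheme.jFull N)) (p γ)
    rw [h1, map_mul, Polynomial.aeval_C, algebraMap_eq_C, hqv]
    show _ * (v γ).1 = _
    ring
  rw [Finset.sum_congr rfl fun γ _ => hterm γ, ← Finset.mul_sum, hg', mul_zero]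

theorem intEval_intIncl (P : Polynomial ℤ) :
    intIncl N ℓ (intEval (jInt N ℓ) P) = intEval (IgusaScheme.jFull N) P := by
  rw [← intIncl_jInt N ℓ]
  exact RingHom.congr_fun (comp_intEval (intIncl N ℓ) (jInt N ℓ)) P

theorem intEval_intRed (P : Polynomial ℤ) :
    intRed N ℓ (intEval (jInt N ℓ) P) = intEval (jqModC (ZMod ℓ)) P := by
  rw [← intRed_jInt N ℓ]
  exact RingHom.congr_fun (comp_intEval (intRed N ℓ) (jInt N ℓ)) P

/-- The structure of the function field relative to a lift `w` of a residual basis. -/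
theorem exists_combination (hℓN : ¬ ℓ ∣ N) (w : Fin (dedekindPsi N) → intRing N ℓ)
    (hw : LinearIndependent (jField (ZMod ℓ)) fun i => intRed N ℓ (w i)) (y : Fld) :
    ∃ (b : Polynomial ℤ) (c : Fin (dedekindPsi N) → Polynomial ℤ),
      intEval (IgusaScheme.jFull N) b * y =
        intIncl N ℓ (∑ i, intEval (jInt N ℓ) (c i) * w i) ∧
      (intEval (jqModC (ZMod ℓ)) b ≠ 0 ∨
        intRed N ℓ (∑ i, intEval (jInt N ℓ) (c i) * w i) ≠ 0) := by
  obtain ⟨c, hrel, γ, n, hγ⟩ := exists_relation N ℓ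
    (fun γ => γ.elim y fun i => intIncl N ℓ (w i))
  rw [Fintype.sum_option] at hrel
  simp only [Option.elim] at hrel
  refine ⟨c none, fun i => -c (some i), ?_, ?_⟩
  · rw [eq_neg_of_add_eq_zero_left hrel, map_sum, ← Finset.sum_neg_distrib]
    refine Finset.sum_congr rfl fun i _ => ?_
    rw [map_mul, intEval_intIncl, map_neg, neg_mul]
  · rcases γ with _ | i
    · exact Or.inl (intEval_jbar_ne_zero hγ)
    refine Or.inr fun h0 => ?_
    simp only [map_sum, map_mul, intEval_intRed] at h0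
    have hmemJ : jqModC (ZMod ℓ) ∈ jField (ZMod ℓ) :=
      IntermediateField.mem_adjoin_simple_self _ _
    have := Fintype.linearIndependent_iff.mp hw
      (fun i => ⟨intEval (jqModC (ZMod ℓ)) (-c (some i)), intEval_mem _ _ hmemJ _⟩) h0 i
    have h1 : intEval (jqModC (ZMod ℓ)) (-c (some i)) = 0 := congrArg Subtype.val this
    rw [map_neg, neg_eq_zero] at h1
    exact hγ (intEval_jbar_eq_zero ℓ h1 n)

theorem gaussV_mem_or_inv_mem (hℓN : ¬ ℓ ∣ N) (y : Fld) :
    y ∈ gaussV N ℓ ∨ y⁻¹ ∈ gaussV N ℓ := by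
  obtain ⟨w, hw⟩ := exists_basis_series N ℓ hℓN
  obtain ⟨b, c, heq, hb | hz⟩ := exists_combination N ℓ hℓN w hw y
  · exact Or.inl ⟨∑ i, intEval (jInt N ℓ) (c i) * w i, intEval (jInt N ℓ) b,
      by rwa [intEval_intRed], by rw [intEval_intIncl, mul_comm, heq]⟩
  · refine Or.inr (inv_mem_gaussRing _ _ (b := intEval (jInt N ℓ) b) hz ?_
      (by rw [intEval_intIncl, mul_comm, heq]))
    intro h0
    apply hz
    rw [(map_eq_zero_iff _ (intIncl_injective N ℓ)).mp h0, map_zero]

/-- The Gauss valuation subring of the modular function field. -/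
def gaussVal (hℓN : ¬ ℓ ∣ N) : ValuationSubring Fld :=
  { gaussV N ℓ with mem_or_inv_mem' := gaussV_mem_or_inv_mem N ℓ hℓN }

theorem mem_of_isIntegral_gaussV (hℓN : ¬ ℓ ∣ N) {y : Fld} (h : IsIntegral (gaussV N ℓ) y) :
    y ∈ gaussV N ℓ := by
  have h' : IsIntegral (gaussVal N ℓ hℓN) y := h
  obtain ⟨z, hz⟩ := IsIntegrallyClosed.isIntegral_iff.mp h'
  rw [← hz]
  exact z.2

theorem jFull_mem_gaussV : IgusaScheme.jFull N ∈ gaussV N ℓ := by
  rw [← intIncl_jInt N ℓ]
  exact apply_mem_gaussRing _ _ _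

theorem jFull_inv_mem_gaussV : (IgusaScheme.jFull N)⁻¹ ∈ gaussV N ℓ := by
  refine inv_mem_gaussRing _ _ (a := jInt N ℓ) (b := 1) ?_ ?_
    (by rw [map_one, mul_one, intIncl_jInt])
  · rw [intRed_jInt]; exact jqModC_ne_zero_of_nontrivial (ZMod ℓ)
  · rw [intIncl_jInt]; exact IgusaScheme.jFull_ne_zero N

theorem intEval_jFull_mem (K0 : IntermediateField ℚ Fld) (hj : IgusaScheme.jFull N ∈ K0)
    (P : Polynomial ℤ) : intEval (IgusaScheme.jFull N) P ∈ K0 := by
  have h := RingHom.congr_fun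
    (comp_intEval (K0.toSubfield.subtype) (⟨IgusaScheme.jFull N, hj⟩ : K0)) P
  change intEval (⟨IgusaScheme.jFull N, hj⟩ : K0) P = intEval (IgusaScheme.jFull N) P at h
  rw [← h]
  exact (intEval (⟨IgusaScheme.jFull N, hj⟩ : K0) P).2

/-- The Gauss ring is integral over its trace on a subfield containing `j`. -/
theorem isIntegral_over_gaussV_inter (hℓN : ¬ ℓ ∣ N) (K0 : IntermediateField ℚ Fld)
    (hj : IgusaScheme.jFull N ∈ K0) {y : Fld} (hy : y ∈ gaussV N ℓ) :
    IsIntegral ((gaussV N ℓ).comap (algebraMap K0 Fld)) y := by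
  obtain ⟨w, hw⟩ := exists_basis_series N ℓ hℓN
  set O := (gaussV N ℓ).comap (algebraMap K0 Fld) with hO
  let S : Subalgebra O Fld :=
    { (gaussV N ℓ).toSubsemiring with algebraMap_mem' := fun x => x.2 }
  refine IsIntegral.of_mem_of_fg S ?_ y hy
  classical
  refine ⟨Finset.univ.image fun i => intIncl N ℓ (w i), le_antisymm ?_ ?_⟩
  · rw [Submodule.span_le]
    intro x hx
    obtain ⟨i, -, rfl⟩ := Finset.mem_image.mp hx
    exact apply_mem_gaussRing _ _ _
  intro z hz
  obtain ⟨b, c, heq, hbz⟩ := exists_combination N ℓ hℓN w hw z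
  have hb : intEval (jqModC (ZMod ℓ)) b ≠ 0 := by
    rcases hbz with hb | hne
    · exact hb
    intro hb0
    apply hne
    rw [← gaussRed_apply (intIncl N ℓ) (intRed N ℓ) (intIncl_injective N ℓ)]
    have hmul : (⟨intIncl N ℓ (∑ i, intEval (jInt N ℓ) (c i) * w i),
        apply_mem_gaussRing _ _ _⟩ : gaussV N ℓ) =
        ⟨intIncl N ℓ (intEval (jInt N ℓ) b), apply_mem_gaussRing _ _ _⟩ * ⟨z, hz⟩ :=
      Subtype.ext (by
        show _ = intIncl N ℓ (intEval (jInt N ℓ) b) * z
        rw [intEval_intIncl]; exact heq.symm)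
    rw [hmul, map_mul, gaussRed_apply, intEval_intRed, hb0, zero_mul]
  have hb0 : intEval (IgusaScheme.jFull N) b ≠ 0 := by
    intro h0
    rw [← intEval_intIncl N ℓ, map_eq_zero_iff _ (intIncl_injective N ℓ)] at h0
    exact hb (by rw [← intEval_intRed N ℓ, h0, map_zero])
  have hcoef : ∀ i, intEval (IgusaScheme.jFull N) (c i) / intEval (IgusaScheme.jFull N) b ∈
      gaussV N ℓ := fun i =>
    ⟨intEval (jInt N ℓ) (c i), intEval (jInt N ℓ) b, by rwa [intEval_intRed],
      by rw [intEval_intIncl, intEval_intIncl, div_mul_cancel₀ _ hb0]⟩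
  have hz' : z = ∑ i, (intEval (IgusaScheme.jFull N) (c i) /
      intEval (IgusaScheme.jFull N) b) * intIncl N ℓ (w i) := by
    rw [map_sum] at heq
    refine mul_left_cancel₀ hb0 ?_
    rw [heq, Finset.mul_sum]
    refine Finset.sum_congr rfl fun i _ => ?_
    rw [map_mul, intEval_intIncl]
    field_simp
  rw [hz']
  refine Submodule.sum_mem _ fun i _ => ?_
  have hK : intEval (IgusaScheme.jFull N) (c i) / intEval (IgusaScheme.jFull N) b ∈ K0 :=
    K0.div_mem (intEval_jFull_mem N K0 hj _) (intEval_jFull_mem N K0 hj _)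
  have : (⟨⟨_, hK⟩, hcoef i⟩ : O) • intIncl N ℓ (w i) ∈
      Submodule.span O ((Finset.univ.image fun i => intIncl N ℓ (w i)) : Set Fld) :=
    Submodule.smul_mem _ _ (Submodule.subset_span (by simp))
  exact this

end Fermat.Agent.Igusa
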