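import Fermat.Agent.Igusa.NodeRoots

/-!
# Generation of the modular function field

`F_(N p)` is generated over `F_N` by `j(q ^ (N p))`.
-/

set_option autoImplicit false

noncomputable section

open ModularCurve Polynomial

namespace Fermat.Agent.Igusa

section CommonRoot

variable {A : Type*} [Field A] {M : Type*} [Field M] (φ : A →+* M)

/-- If `P` has only simple roots in `M` and `x` is the only root it shares with `Q`,
then `x` comes from `A`. -/
theorem exists_of_unique_common_root {ι : Type*} [Fintype ι] (P Q : Polynomial A) (r : ι → M)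
    (hP : P.map φ = ∏ i, (X - Polynomial.C (r i))) (hinj : Function.Injective r) (i₀ : ι)
    (hQ : (Q.map φ).eval (r i₀) = 0) (hne : ∀ i, i ≠ i₀ → (Q.map φ).eval (r i) ≠ 0) :
    ∃ a : A, φ a = r i₀ := by
  classical
  set g := EuclideanDomain.gcd P Q with hg
  have hgP : g.map φ ∣ P.map φ := Polynomial.map_dvd φ (EuclideanDomain.gcd_dvd_left P Q)
  have hgQ : g.map φ ∣ Q.map φ := Polynomial.map_dvd φ (EuclideanDomain.gcd_dvd_right P Q)
  have hP0 : (P.map φ).eval (r i₀) = 0 := by
    rw [hP, Polynomial.eval_prod]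
    exact Finset.prod_eq_zero (Finset.mem_univ i₀) (by simp)
  have hg0 : (g.map φ).eval (r i₀) = 0 := by
    rw [hg, ← Polynomial.gcd_map]
    exact Polynomial.eval_gcd_eq_zero hP0 hQ
  have hdvd : g.map φ ∣ X - Polynomial.C (r i₀) := by
    rw [hP, ← Finset.mul_prod_erase Finset.univ _ (Finset.mem_univ i₀)] at hgP
    refine (IsCoprime.prod_right fun i hi => ?_).dvd_of_dvd_mul_right hgP
    refine ((Polynomial.irreducible_X_sub_C (r i)).coprime_iff_not_dvd.mpr ?_).symm
    rw [Polynomial.dvd_iff_isRoot]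
    intro hroot
    exact hne i (Finset.ne_of_mem_erase hi) ((Polynomial.IsRoot.def).mp (hroot.dvd hgQ))
  have hPne : P.map φ ≠ 0 := by
    rw [hP]
    exact Finset.prod_ne_zero_iff.mpr fun i _ => Polynomial.X_sub_C_ne_zero _
  have hgne : g ≠ 0 := by
    intro h
    have h2 := Polynomial.map_dvd φ (EuclideanDomain.gcd_dvd_left P Q)
    rw [← hg, h, Polynomial.map_zero, zero_dvd_iff] at h2
    exact hPne h2
  have hdeg : g.natDegree ≤ 1 := by
    have := Polynomial.natDegree_le_of_dvd hdvd (Polynomial.X_sub_C_ne_zero _)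
    rwa [Polynomial.natDegree_map, Polynomial.natDegree_X_sub_C] at this
  rw [Polynomial.eq_X_add_C_of_natDegree_le_one hdeg] at hg0
  simp only [Polynomial.map_add, Polynomial.map_mul, Polynomial.map_C, Polynomial.map_X,
    Polynomial.eval_add, Polynomial.eval_mul, Polynomial.eval_C, Polynomial.eval_X] at hg0
  rcases eq_or_ne (g.coeff 1) 0 with h1 | h1
  · exfalso
    rw [h1, map_zero, zero_mul, zero_add, map_eq_zero_iff φ φ.injective] at hg0
    apply hgne
    rw [Polynomial.eq_X_add_C_of_natDegree_le_one hdeg, h1, hg0]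
    simp
  · refine ⟨-g.coeff 0 / g.coeff 1, ?_⟩
    rw [map_div₀, map_neg, div_eq_iff ((_root_.map_ne_zero φ).mpr h1)]
    linear_combination -hg0

end CommonRoot

section Emb

variable (K : Type*) [Field K]

/-- The series `j(q ^ d)` over `K`. -/
def jd (d : ℕ) [NeZero d] : LaurentSeries K := qExpand K d (jqModC K)

theorem jd_mem {N d : ℕ} [NeZero d] (hd : d ∣ N) : jd K d ∈ modularFunctionFieldFullC K N :=
  jqModCd_mem_full K N hd

theorem jd_one : jd K 1 = jqModC K := qExpand_one_apply _

theorem jd_congr {a b : ℕ} [NeZero a] [NeZero b] (h : a = b) : jd K a = jd K b :=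
  qExpand_congr h _

/-- The embedding `K((q)) → k((t))`, `q = t ^ M`, `k` an algebraic closure of `K`. -/
def emb (M : ℕ) [NeZero M] : LaurentSeries K →+* LaurentSeries (AlgebraicClosure K) :=
  (qExpand (AlgebraicClosure K) M).comp (coeffMap (algebraMap K (AlgebraicClosure K)))

theorem emb_jd (M d : ℕ) [NeZero M] [NeZero d] :
    emb K M (jd K d) = Jat (1 : (AlgebraicClosure K)ˣ) (M * d) := by
  rw [emb, RingHom.comp_apply, jd, coeffMap_qExpand, coeffMap_jqModC, ← Jat_one, qExpand_Jat]

theorem emb_injective (M : ℕ) [NeZero M] : Function.Injective (emb K M) :=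
  (qExpand_injective M).comp (coeffMap_injective (algebraMap K (AlgebraicClosure K)).injective)

theorem cast_ne_zero_algClosure {n : ℕ} (h : (n : K) ≠ 0) : (n : AlgebraicClosure K) ≠ 0 := by
  rw [← map_natCast (algebraMap K (AlgebraicClosure K))]
  exact (_root_.map_ne_zero _).mpr h

theorem cast_ne_zero_of_dvd {d n : ℕ} (hd : d ∣ n) (h : (n : K) ≠ 0) : (d : K) ≠ 0 := by
  obtain ⟨a, rfl⟩ := hd
  rw [Nat.cast_mul] at h
  exact left_ne_zero_of_mul h

/-- `j(q ^ (d p))` is rational in `j(q ^ d)` and `j(q ^ (d r p))`. -/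
theorem jd_mem_of_neighbours (G : IntermediateField K (LaurentSeries K)) (p r d : ℕ)
    [hp : Fact p.Prime] [hr : Fact r.Prime] [NeZero d] (hpr : p ≠ r) (hpK : (p : K) ≠ 0)
    (hrK : (r : K) ≠ 0) (h1 : jd K d ∈ G) (h2 : jd K (d * r * p) ∈ G) :
    jd K (d * p) ∈ G := by
  obtain ⟨ζ, hζ, hζ'⟩ := exists_zeta p (AlgebraicClosure K) (cast_ne_zero_algClosure K hpK)
  obtain ⟨ξ, hξ, hξ'⟩ := exists_zeta r (AlgebraicClosure K) (cast_ne_zero_algClosure K hrK)
  set φ : G →+* LaurentSeries (AlgebraicClosure K) := (emb K (r * p)).comp G.toSubfield.subtype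
    with hφ
  set a : G := ⟨_, h1⟩
  set b : G := ⟨_, h2⟩
  have ha : φ a = Jat ((1 : (AlgebraicClosure K)ˣ) ^ p) (r * d * p) := by
    show emb K (r * p) (jd K d) = _
    rw [emb_jd]
    exact Jat_congr (one_pow p).symm (by ring)
  have hb : φ b = Jat ((1 : (AlgebraicClosure K)ˣ) ^ r) (r * d * p * p * r) := by
    show emb K (r * p) (jd K (d * r * p)) = _
    rw [emb_jd]
    exact Jat_congr (one_pow r).symm (by ring)
  have hP : (modAt p a).map φ = ∏ γ, (X - Polynomial.C (nodeRoot p ζ 1 (r * d) γ)) := by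
    rw [modAt_map, ha, modAt_node p ζ 1 (r * d) hζ']
  have hd0 : 0 < r * d := Nat.mul_pos hr.out.pos (Nat.pos_of_ne_zero (NeZero.ne d))
  have hQnone : ((modAt r b).map φ).eval (nodeRoot p ζ 1 (r * d) none) = 0 := by
    rw [modAt_map, hb, modAt_node_root_iff r ξ 1 (r * d * p * p) hξ']
    refine ⟨some 0, ?_⟩
    exact Jat_congr (by simp) (by ring)
  have hQne : ∀ γ, γ ≠ none →
      ((modAt r b).map φ).eval (nodeRoot p ζ 1 (r * d) γ) ≠ 0 := by
    rintro (_ | c) hc h
    · exact hc rfl
    rw [modAt_map, hb, modAt_node_root_iff r ξ 1 (r * d * p * p) hξ'] at h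
    obtain ⟨_ | e, he⟩ := h
    · have := (Jat_inj he).2
      have h3 : r * d * 1 = r * d * (p * p * (r * r)) := by rw [mul_one]; linarith
      have h4 := Nat.eq_of_mul_eq_mul_left hd0 h3
      exact hp.out.one_lt.ne'
        (Nat.eq_one_of_mul_eq_one_right (Nat.eq_one_of_mul_eq_one_right h4.symm))
    · have := (Jat_inj he).2
      have h3 : r * d * 1 = r * d * (p * p) := by rw [mul_one]; linarith
      have h4 := Nat.eq_of_mul_eq_mul_left hd0 h3
      exact hp.out.one_lt.ne' (Nat.eq_one_of_mul_eq_one_right h4.symm)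
  obtain ⟨y, hy⟩ := exists_of_unique_common_root φ (modAt p a) (modAt r b)
    (nodeRoot p ζ 1 (r * d)) hP (nodeRoot_injective p ζ 1 (r * d) hζ) none hQnone hQne
  have : emb K (r * p) (y : LaurentSeries K) = emb K (r * p) (jd K (d * p)) := by
    rw [emb_jd]
    exact hy.trans (Jat_congr (one_pow _) (by ring))
  rw [← emb_injective K (r * p) this]
  exact y.2

/-- Generation: every `j(q ^ e)`, `e ∣ N p`, lies in `F_N(j(q ^ (N p)))`. -/
theorem fullC_mul_prime (N p : ℕ) [NeZero N] [hp : Fact p.Prime] (hK : ((N * p : ℕ) : K) ≠ 0) :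
    modularFunctionFieldFullC K (N * p) =
      modularFunctionFieldFullC K N ⊔ IntermediateField.adjoin K {jd K (N * p)} := by
  set G := modularFunctionFieldFullC K N ⊔ IntermediateField.adjoin K {jd K (N * p)}
  refine le_antisymm ?_ (sup_le (full_degeneracyC_le K (dvd_mul_right N p)) ?_)
  · have hN : modularFunctionFieldFullC K N ≤ G := le_sup_left
    have key : ∀ n d : ℕ, ∀ _ : NeZero d, d ∣ N → N / d = n → jd K (d * p) ∈ G := by
      intro n
      induction n using Nat.strong_induction_on with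
      | _ n ih =>
        intro d hd0 hdN hn
        by_cases hdeq : d = N
        · subst hdeq
          exact (le_sup_right : IntermediateField.adjoin K {jd K (d * p)} ≤ G)
            (IntermediateField.mem_adjoin_simple_self K _)
        obtain ⟨e, rfl⟩ := hdN
        rw [Nat.mul_div_cancel_left e (Nat.pos_of_ne_zero (NeZero.ne d))] at hn
        subst hn
        have he1 : e ≠ 1 := fun h => hdeq (by rw [h, mul_one])
        obtain ⟨r, hr, hre⟩ := Nat.exists_prime_and_dvd he1
        have : Fact r.Prime := ⟨hr⟩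
        have hdr : d * r ∣ d * e := mul_dvd_mul_left d hre
        by_cases hpr : p = r
        · subst hpr
          exact hN (jd_mem K hdr)
        refine jd_mem_of_neighbours K G p r d hpr (cast_ne_zero_of_dvd K (dvd_mul_left p _) hK)
          (cast_ne_zero_of_dvd K ((hre.trans (dvd_mul_left e d)).trans (dvd_mul_right _ p)) hK)
          (hN (jd_mem K (dvd_mul_right d e))) ?_
        have he0 : 0 < e := by
          rcases Nat.eq_zero_or_pos e with rfl | h
          · exact absurd (mul_zero d) (NeZero.ne (d * 0))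
          · exact h
        refine ih (e / r) (Nat.div_lt_self he0 hr.one_lt) (d * r) inferInstance hdr ?_
        exact Nat.mul_div_mul_left e r (Nat.pos_of_ne_zero (NeZero.ne d))
    rw [modularFunctionFieldFullC, IntermediateField.adjoin_le_iff]
    rintro x ⟨e, he0, hedvd, rfl⟩
    by_cases hpe : p ∣ e
    · obtain ⟨d, rfl⟩ := hpe
      have : NeZero d := ⟨right_ne_zero_of_mul (NeZero.ne (p * d))⟩
      have hdN : d ∣ N := by
        rw [mul_comm N p] at hedvd
        exact Nat.dvd_of_mul_dvd_mul_left hp.out.pos hedvd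
      have := key _ d inferInstance hdN rfl
      rwa [jd_congr K (mul_comm d p)] at this
    · exact hN (jd_mem K (Nat.Coprime.dvd_of_dvd_mul_right
        (hp.out.coprime_iff_not_dvd.mpr hpe).symm hedvd))
  · rw [IntermediateField.adjoin_le_iff, Set.singleton_subset_iff]
    exact jd_mem K dvd_rfl

end Emb

end Fermat.Agent.Igusa
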