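import Fermat.Prelude.Def_ModularCurve_X0ModL
import Fermat.Prelude.Thm_ModularCurve_coeff_jqModC_pow_of_lt

/-!
# Substitutions on Laurent series

Substitutions `t ↦ c * t ^ m` on Laurent series, and the series `J(c * t ^ m)`.
-/

set_option autoImplicit false

noncomputable section

open HahnSeries ModularCurve

namespace Fermat.Agent.Igusa

variable {R : Type*} [CommRing R] {S : Type*} [CommRing S]

/-- The substitution `t ↦ c * t`. -/
def scale (c : Rˣ) : LaurentSeries R →+* LaurentSeries R where
  toFun x :=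
    { coeff := fun n => ((c ^ n : Rˣ) : R) * x.coeff n
      isPWO_support' := x.isPWO_support.mono fun n hn h => hn (by simp [h]) }
  map_zero' := by ext n; simp
  map_one' := by
    ext n
    rcases eq_or_ne n 0 with rfl | h
    · simp
    · simp [HahnSeries.coeff_one, h]
  map_add' x y := by ext n; simp [mul_add]
  map_mul' x y := by
    have hs : ∀ z : LaurentSeries R,
        HahnSeries.support (⟨fun n => ((c ^ n : Rˣ) : R) * z.coeff n,
          z.isPWO_support.mono fun n hn h => hn (by simp [h])⟩ : LaurentSeries R) = z.support := by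
      intro z
      ext n
      exact not_congr ((Units.isUnit (c ^ n)).mul_right_eq_zero)
    ext n
    simp only [HahnSeries.coeff_mul]
    rw [Finset.mul_sum]
    refine Finset.sum_congr ?_ ?_
    · simp only [hs]
    · intro ij hij
      rw [Finset.mem_antidiagonal] at hij
      rw [← hij.2.2, zpow_add, Units.val_mul]
      ring

@[simp]
theorem scale_coeff (c : Rˣ) (x : LaurentSeries R) (n : ℤ) :
    (scale c x).coeff n = ((c ^ n : Rˣ) : R) * x.coeff n := rfl

@[simp]
theorem scale_single (c : Rˣ) (k : ℤ) (r : R) :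
    scale c (HahnSeries.single k r) = HahnSeries.single k (((c ^ k : Rˣ) : R) * r) := by
  ext n
  rcases eq_or_ne n k with rfl | h
  · simp
  · simp [HahnSeries.coeff_single_of_ne h]

theorem scale_one (x : LaurentSeries R) : scale (1 : Rˣ) x = x := by
  ext n; simp

theorem scale_scale (c d : Rˣ) (x : LaurentSeries R) : scale c (scale d x) = scale (c * d) x := by
  ext n
  simp [mul_zpow, mul_assoc]

theorem scale_qExpand (c : Rˣ) (m : ℕ) [NeZero m] (x : LaurentSeries R) :
    scale c (qExpand R m x) = qExpand R m (scale (c ^ m) x) := by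
  ext n
  by_cases h : (m : ℤ) ∣ n
  · obtain ⟨a, rfl⟩ := h
    simp [← zpow_natCast, zpow_mul]
  · simp [qExpand_coeff_of_not_dvd m _ h]

/-- A unit `c` with `c ^ m = 1` fixes every series in `t ^ m`. -/
theorem scale_qExpand_of_pow_eq_one {c : Rˣ} {m : ℕ} [NeZero m] (h : c ^ m = 1)
    (x : LaurentSeries R) : scale c (qExpand R m x) = qExpand R m x := by
  rw [scale_qExpand, h, scale_one]

theorem coeffMap_scale (f : R →+* S) (c : Rˣ) (x : LaurentSeries R) :
    coeffMap f (scale c x) = scale (Units.map (f : R →* S) c) (coeffMap f x) := by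
  ext n
  have h : f (((c ^ n : Rˣ) : R)) = ((Units.map (f : R →* S) c ^ n : Sˣ) : S) := by
    rw [← map_zpow]; rfl
  simp [h]

theorem coeffMap_injective {f : R →+* S} (hf : Function.Injective f) :
    Function.Injective (coeffMap f) := by
  intro x y h
  ext n
  exact hf (by simpa using congrArg (fun z : LaurentSeries S => z.coeff n) h)

/-- The substitution `t ↦ c * t ^ m`. -/
def subT (c : Rˣ) (m : ℕ) [NeZero m] : LaurentSeries R →+* LaurentSeries R :=
  (qExpand R m).comp (scale c)

theorem subT_apply (c : Rˣ) (m : ℕ) [NeZero m] (x : LaurentSeries R) :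
    subT c m x = qExpand R m (scale c x) := rfl

theorem subT_subT (c d : Rˣ) (m n : ℕ) [NeZero m] [NeZero n] (x : LaurentSeries R) :
    subT c m (subT d n x) = subT (c ^ n * d) (m * n) x := by
  rw [subT_apply, subT_apply, scale_qExpand, scale_scale, qExpand_qExpand, subT_apply]

theorem subT_one (m : ℕ) [NeZero m] (x : LaurentSeries R) :
    subT (1 : Rˣ) m x = qExpand R m x := by
  rw [subT_apply, scale_one]

theorem coeffMap_subT (f : R →+* S) (c : Rˣ) (m : ℕ) [NeZero m] (x : LaurentSeries R) :
    coeffMap f (subT c m x) = subT (Units.map (f : R →* S) c) m (coeffMap f x) := by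
  rw [subT_apply, coeffMap_qExpand, coeffMap_scale, subT_apply]

theorem scale_subT_comm (z c : Rˣ) (m : ℕ) [NeZero m] (x : LaurentSeries R) :
    scale z (subT c m x) = subT (z ^ m * c) m x := by
  rw [subT_apply, scale_qExpand, scale_scale, subT_apply]

section J

/-- The series `J(c * t ^ m)`. -/
def Jat (c : Rˣ) (m : ℕ) [NeZero m] : LaurentSeries R := subT c m (jqModC R)

theorem Jat_one (m : ℕ) [NeZero m] : Jat (1 : Rˣ) m = qExpand R m (jqModC R) := subT_one m _

theorem subT_Jat (c d : Rˣ) (m n : ℕ) [NeZero m] [NeZero n] :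
    subT c m (Jat d n) = Jat (c ^ n * d) (m * n) := subT_subT c d m n _

theorem qExpand_Jat (c : Rˣ) (m n : ℕ) [NeZero m] [NeZero n] :
    qExpand R m (Jat c n) = Jat c (m * n) := by
  rw [← subT_one, subT_Jat, one_pow, one_mul]

theorem scale_Jat (z c : Rˣ) (m : ℕ) [NeZero m] : scale z (Jat c m) = Jat (z ^ m * c) m :=
  scale_subT_comm z c m _

theorem Jat_congr {c d : Rˣ} {m n : ℕ} [NeZero m] [NeZero n] (hc : c = d) (hm : m = n) :
    Jat c m = Jat d n := by
  subst hc; subst hm; rfl

theorem Jat_coeff_mul (c : Rˣ) (m : ℕ) [NeZero m] (n : ℤ) :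
    (Jat c m).coeff ((m : ℤ) * n) = ((c ^ n : Rˣ) : R) * (jqModC R).coeff n := by
  rw [Jat, subT_apply, qExpand_coeff_mul, scale_coeff]

theorem Jat_coeff_lead (c : Rˣ) (m : ℕ) [NeZero m] :
    (Jat c m).coeff (-(m : ℤ)) = ((c⁻¹ : Rˣ) : R) := by
  rw [show -(m : ℤ) = (m : ℤ) * (-1) by ring, Jat_coeff_mul, coeff_jqModC_neg_one, mul_one,
    zpow_neg_one]

theorem Jat_coeff_of_lt (c : Rˣ) (m : ℕ) [NeZero m] {n : ℤ} (h : n < -(m : ℤ)) :
    (Jat c m).coeff n = 0 := by
  by_cases hd : (m : ℤ) ∣ n
  · obtain ⟨a, rfl⟩ := hd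
    have hm : (0 : ℤ) < m := by exact_mod_cast Nat.pos_of_ne_zero (NeZero.ne m)
    have ha : a < -1 := by nlinarith
    rw [Jat_coeff_mul, coeff_jqModC_of_lt R ha, mul_zero]
  · rw [Jat, subT_apply, qExpand_coeff_of_not_dvd m _ hd]

theorem Jat_inj [Nontrivial R] {c d : Rˣ} {m n : ℕ} [NeZero m] [NeZero n]
    (h : Jat c m = Jat d n) : c = d ∧ m = n := by
  have hmn : m = n := by
    rcases lt_trichotomy m n with hlt | heq | hgt
    · exfalso
      have h1 := Jat_coeff_of_lt c m (n := -(n : ℤ)) (by omega)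
      rw [h, Jat_coeff_lead] at h1
      exact d⁻¹.ne_zero h1
    · exact heq
    · exfalso
      have h1 := Jat_coeff_of_lt d n (n := -(m : ℤ)) (by omega)
      rw [← h, Jat_coeff_lead] at h1
      exact c⁻¹.ne_zero h1
  subst hmn
  have h1 := congrArg (fun z : LaurentSeries R => z.coeff (-(m : ℤ))) h
  simp only [Jat_coeff_lead] at h1
  exact ⟨inv_inj.mp (Units.ext h1), rfl⟩

theorem Jat_ne_range_qExpand [Nontrivial R] (c : Rˣ) (m p : ℕ) [NeZero m] [NeZero p]
    (hp : ¬ p ∣ m) (x : LaurentSeries R) : Jat c m ≠ qExpand R p x := by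
  intro h
  have h1 := congrArg (fun z : LaurentSeries R => z.coeff (-(m : ℤ))) h
  simp only [Jat_coeff_lead] at h1
  rw [qExpand_coeff_of_not_dvd p x (by
    rw [dvd_neg]; exact_mod_cast hp)] at h1
  exact c⁻¹.ne_zero h1

end J

section Transcendence

theorem coeff_poly_eval_eq_zero_of_lt (P : Polynomial R) {n : ℤ}
    (hn : n < -(P.natDegree : ℤ)) :
    (Polynomial.eval₂ HahnSeries.C (jqModC R) P).coeff n = 0 := by
  rw [Polynomial.eval₂_eq_sum_range, HahnSeries.coeff_sum]
  refine Finset.sum_eq_zero fun i hi => ?_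
  rw [HahnSeries.C_mul_eq_smul, HahnSeries.coeff_smul,
    coeff_jqModC_pow_of_lt R (b := i) (m := n) (by
      have := Finset.mem_range.mp hi
      omega), smul_zero]

theorem coeff_poly_eval_lead (P : Polynomial R) :
    (Polynomial.eval₂ HahnSeries.C (jqModC R) P).coeff (-(P.natDegree : ℤ)) =
      P.leadingCoeff := by
  rw [Polynomial.eval₂_eq_sum_range, HahnSeries.coeff_sum, Finset.sum_eq_single P.natDegree]
  · rw [HahnSeries.C_mul_eq_smul, HahnSeries.coeff_smul, coeff_jqModC_pow_self, smul_eq_mul,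
      mul_one, Polynomial.coeff_natDegree]
  · intro i hi hne
    rw [HahnSeries.C_mul_eq_smul, HahnSeries.coeff_smul,
      coeff_jqModC_pow_of_lt R (b := i) (m := -(P.natDegree : ℤ)) (by
        have := Finset.mem_range.mp hi
        omega), smul_zero]
  · intro h; exact absurd (Finset.mem_range.mpr (Nat.lt_succ_self _)) h

/-- The series `J` satisfies no polynomial equation, in any characteristic. -/
theorem poly_eval_jqModC_eq_zero {P : Polynomial R}
    (h : Polynomial.eval₂ HahnSeries.C (jqModC R) P = 0) : P = 0 := by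
  have := coeff_poly_eval_lead P
  rw [h, HahnSeries.coeff_zero] at this
  exact Polynomial.leadingCoeff_eq_zero.mp this.symm

end Transcendence

end Fermat.Agent.Igusa
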