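import Fermat.Agent.Igusa.Bridge

/-!
# Level one forms as polynomials in `j`

Level one forms of weight `12 m` are `Δ ^ m * P(j)`, on formal `q`-expansions.
-/

set_option autoImplicit false

noncomputable section

open UpperHalfPlane Function ModularCurve
open scoped Real Manifold MatrixGroups ModularForm

local notation "𝕢" => Periodic.qParam

namespace Fermat.Agent.Igusa

/-- The Laurent series of `Δ`. -/
def deltaL (R : Type*) [CommRing R] : LaurentSeries R :=
  HahnSeries.ofPowerSeries ℤ R (deltaSeries R)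

theorem deltaL_mul_jqModC (R : Type*) [CommRing R] :
    deltaL R * jqModC R = HahnSeries.ofPowerSeries ℤ R (e4CubeSeries R) := by
  have h : deltaSeries R * jNum.map (Int.castRingHom R) = PowerSeries.X * e4CubeSeries R := by
    rw [deltaSeries, e4CubeSeries, mul_assoc, ← map_mul, jNum, ← mul_assoc, mul_comm dedekindEtaUnit,
      mul_assoc, dedekindEtaUnit_mul_inv, mul_one]
  rw [deltaL, jqModC, mul_left_comm, ← map_mul, h, map_mul, HahnSeries.ofPowerSeries_X, ← mul_assoc,
    HahnSeries.single_mul_single]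
  simp

theorem qExpansion_discriminant_eq :
    UpperHalfPlane.qExpansion 1 (ModularForm.discriminant : ℍ → ℂ) = deltaSeries ℂ :=
  qGraph_unique one_pos
    ⟨CuspForm.discriminant.holo', fun τ =>
      ModularForm.hasSum_qExpansion CuspForm.discriminant one_pos one_mem_strictPeriods_SL τ⟩
    qGraph_discriminant

theorem levelOne_eq_delta_pow_mul_poly (m : ℕ) :
    ∀ {k : ℤ}, k = 12 * (m : ℤ) → ∀ f : ModularForm 𝒮ℒ k,
      ∃ P : Polynomial ℂ, HahnSeries.ofPowerSeries ℤ ℂ (UpperHalfPlane.qExpansion 1 f) =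
        deltaL ℂ ^ m * Polynomial.eval₂ HahnSeries.C (jqModC ℂ) P := by
  induction m with
  | zero =>
    intro k hk f
    have hk0 : k = 0 := by simpa using hk
    subst hk0
    obtain ⟨c, hc⟩ := ModularFormClass.levelOne_weight_zero_const f
    refine ⟨Polynomial.C c, ?_⟩
    have h1 := qGraph_modularForm (h := (1 : ℝ)) one_pos one_mem_strictPeriods_SL f
    rw [hc] at h1
    rw [hc, qGraph_unique one_pos h1 ((qGraph 1).algebraMap_mem c)]
    simp [HahnSeries.ofPowerSeries_C]
  | succ m ih =>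
    intro k hk f
    set a : ℂ := PowerSeries.coeff 0 (UpperHalfPlane.qExpansion 1 f) with ha
    set E : ModularForm 𝒮ℒ k :=
      ModularForm.mcast (by rw [hk]; push_cast; ring) (ModularForm.E₄.pow (3 * (m + 1))) with hE
    have hEcoe : (E : ℍ → ℂ) = ((ModularForm.E₄ : ℍ → ℂ) ^ 3) ^ (m + 1) := by
      rw [hE, ModularForm.coe_mcast, ModularForm.coe_pow, pow_mul]
    have hEq : UpperHalfPlane.qExpansion 1 E = e4CubeSeries ℂ ^ (m + 1) := by
      have h1 := qGraph_modularForm (h := (1 : ℝ)) one_pos one_mem_strictPeriods_SL E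
      rw [hEcoe] at h1 ⊢
      exact qGraph_unique one_pos h1 (pow_mem qGraph_E4_cube (m + 1))
    set g : ModularForm 𝒮ℒ k := f - a • E with hg
    have hgq : UpperHalfPlane.qExpansion 1 g =
        UpperHalfPlane.qExpansion 1 f - a • e4CubeSeries ℂ ^ (m + 1) := by
      rw [hg, FunLike.coe_sub, ModularForm.qExpansion_sub one_pos one_mem_strictPeriods_SL,
        FunLike.coe_smul, ModularForm.qExpansion_smul one_pos one_mem_strictPeriods_SL, hEq]
    have hg0 : (UpperHalfPlane.qExpansion 1 g).coeff 0 = 0 := by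
      rw [hgq, map_sub, PowerSeries.coeff_smul]
      have h4 : PowerSeries.constantCoeff (eisenstein4.map (Int.castRingHom ℂ)) = 1 := by
        rw [← PowerSeries.coeff_zero_eq_constantCoeff_apply, PowerSeries.coeff_map,
          PowerSeries.coeff_zero_eq_constantCoeff_apply, constantCoeff_eisenstein4, map_one]
      simp [ha, e4CubeSeries, h4]
    obtain ⟨Q, hQ⟩ := ih (k := k - 12) (by rw [hk]; push_cast; ring)
      (CuspForm.discriminantEquiv (ModularForm.toCuspForm g hg0))
    refine ⟨Polynomial.C a * Polynomial.X ^ (m + 1) + Q, ?_⟩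
    have hfac := ModularForm.qExpansion_eq_qExpansion_discriminant_mul g hg0
    rw [qExpansion_discriminant_eq, hgq, sub_eq_iff_eq_add] at hfac
    rw [hfac, map_add, map_mul, hQ, PowerSeries.smul_eq_C_mul, map_mul, map_pow,
      HahnSeries.ofPowerSeries_C, ← deltaL_mul_jqModC]
    simp only [Polynomial.eval₂_add, Polynomial.eval₂_mul, Polynomial.eval₂_C,
      Polynomial.eval₂_pow, Polynomial.eval₂_X, deltaL]
    ring

theorem ofPowerSeries_expand {R : Type*} [CommRing R] (p : ℕ) [NeZero p] (P : PowerSeries R) :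
    HahnSeries.ofPowerSeries ℤ R (PowerSeries.expand p (NeZero.ne p) P) =
      qExpand R p (HahnSeries.ofPowerSeries ℤ R P) := by
  ext n
  by_cases hn : (p : ℤ) ∣ n
  · obtain ⟨a, rfl⟩ := hn
    rw [qExpand_coeff_mul]
    rcases le_or_gt 0 a with ha | ha
    · lift a to ℕ using ha
      rw [show (p : ℤ) * a = ((p * a : ℕ) : ℤ) by push_cast; ring,
        HahnSeries.ofPowerSeries_apply_coeff, HahnSeries.ofPowerSeries_apply_coeff,
        PowerSeries.coeff_expand_mul]
    · have hp : (0 : ℤ) < p := by exact_mod_cast Nat.pos_of_ne_zero (NeZero.ne p)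
      rw [ofPowerSeries_coeff_of_neg _ ha, ofPowerSeries_coeff_of_neg _ (mul_neg_of_pos_of_neg hp ha)]
  · rw [qExpand_coeff_of_not_dvd p _ hn]
    rcases le_or_gt 0 n with h0 | h0
    · lift n to ℕ using h0
      rw [HahnSeries.ofPowerSeries_apply_coeff, PowerSeries.coeff_expand_of_not_dvd p _]
      exact_mod_cast hn
    · exact ofPowerSeries_coeff_of_neg _ h0

/-- A function with an expansion in width `p`, of weight `12 m` for `T` and `S`,
has expansion `Δ(q) ^ m * P(j(q))`. -/
theorem qGraph_levelOne {p : ℕ} [NeZero p] (m : ℕ) {f : ℍ → ℂ} {P : PowerSeries ℂ}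
    (hf : (f, P) ∈ qGraph (p : ℝ)) (hT : ∀ τ : ℍ, f ((1 : ℝ) +ᵥ τ) = f τ)
    (hS : ∀ τ : ℍ, f (ModularGroup.S • τ) = (τ : ℂ) ^ (12 * m) * f τ) :
    ∃ Q : Polynomial ℂ, HahnSeries.ofPowerSeries ℤ ℂ P =
      qExpand ℂ p (deltaL ℂ ^ m * Polynomial.eval₂ HahnSeries.C (jqModC ℂ) Q) := by
  have hp : (0 : ℝ) < p := by exact_mod_cast Nat.pos_of_ne_zero (NeZero.ne p)
  have hST : ∀ γ : SL(2, ℤ), f ∣[((12 * m : ℕ) : ℤ)] γ = f := by
    refine SlashInvariantForm.slash_action_generators_SL2Z ?_ ?_
    · funext τ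
      rw [ModularForm.SL_slash_apply, hS, ModularGroup.denom_S, zpow_neg, zpow_natCast]
      field_simp [τ.ne_zero]
    · funext τ
      rw [ModularForm.SL_slash_apply, modular_T_smul, hT]
      simp [UpperHalfPlane.denom, ModularGroup.T]
  let F : ModularForm 𝒮ℒ ((12 * m : ℕ) : ℤ) :=
    { toFun := f
      slash_action_eq' := fun _ ⟨γ, hγ⟩ => hγ ▸ hST γ
      holo' := hf.1
      bdd_at_cusps' := fun {c} hc => by
        rw [Subgroup.IsArithmetic.isCusp_iff_isCusp_SL2Z] at hc
        rw [OnePoint.isBoundedAt_iff_forall_SL2Z hc]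
        intro γ _
        rw [hST γ]
        exact qGraph_bounded hp hf }
  obtain ⟨Q, hQ⟩ := levelOne_eq_delta_pow_mul_poly m (k := ((12 * m : ℕ) : ℤ))
    (by push_cast; ring) F
  refine ⟨Q, ?_⟩
  have h1 := qGraph_widen p (qGraph_modularForm (h := (1 : ℝ)) one_pos one_mem_strictPeriods_SL F)
  rw [qGraph_unique hp hf h1, ofPowerSeries_expand, hQ]

end Fermat.Agent.Igusa
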