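import Fermat.Agent.Igusa.Roots
import Mathlib.RingTheory.Polynomial.Cyclotomic.Roots

/-!
# The modular polynomial of prime level

The modular polynomial of prime level over `ℤ`, with its roots over any ring with a primitive
`p`-th root of unity, and two companion polynomials.
-/

set_option autoImplicit false

noncomputable section

open ModularCurve Polynomial

namespace Fermat.Agent.Igusa

variable (p : ℕ) [hp : Fact p.Prime]

/-- `ℤ[X] → R((t))`, `X ↦ J(t ^ p)`. -/
def evJ (R : Type*) [CommRing R] : Polynomial ℤ →+* LaurentSeries R :=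
  (evQ p R).comp (Polynomial.mapRingHom (Int.castRingHom R))

theorem evJ_X (R : Type*) [CommRing R] : evJ p R X = qExpand R p (jqModC R) := by
  simp [evJ, evQ_apply]

theorem coeffMap_evJ {R S : Type*} [CommRing R] [CommRing S] (f : R →+* S) (Q : Polynomial ℤ) :
    coeffMap f (evJ p R Q) = evJ p S Q := by
  have : (coeffMap f).comp (evJ p R) = evJ p S := by
    refine Polynomial.ringHom_ext' (Subsingleton.elim _ _) ?_
    rw [RingHom.comp_apply, evJ_X, coeffMap_qExpand, coeffMap_jqModC, evJ_X]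
  exact RingHom.congr_fun this Q

theorem evJ_injective (R : Type*) [CommRing R] [CharZero R] : Function.Injective (evJ p R) := by
  rw [injective_iff_map_eq_zero]
  intro Q hQ
  rw [evJ, RingHom.comp_apply, evQ_apply] at hQ
  have h := poly_eval_jqModC_eq_zero ((map_eq_zero_iff _ (qExpand_injective p)).mp hQ)
  exact (Polynomial.map_eq_zero_iff (RingHom.injective_int (Int.castRingHom R))).mp h

/-- Descent: a polynomial in `J` with integral coefficients has integral coefficients. -/
theorem exists_int_poly {Q : Polynomial ℂ}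
    (h : ∀ n : ℤ, ∃ k : ℤ, (Polynomial.eval₂ HahnSeries.C (jqModC ℂ) Q).coeff n = (k : ℂ)) :
    ∃ Q₀ : Polynomial ℤ, Q₀.map (Int.castRingHom ℂ) = Q := by
  suffices hmain : ∀ d : ℕ, ∀ i : ℕ, Q.natDegree < i + d →
      Q.coeff i ∈ (Int.castRingHom ℂ).range by
    have hl : Q ∈ Polynomial.lifts (Int.castRingHom ℂ) :=
      (Polynomial.lifts_iff_coeff_lifts Q).mpr fun i => by
        obtain ⟨a, ha⟩ := hmain (Q.natDegree + 1) i (by omega)
        exact ⟨a, ha⟩
    exact hl
  intro d
  induction d with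
  | zero => intro i hi; rw [Polynomial.coeff_eq_zero_of_natDegree_lt (by omega)]; exact zero_mem _
  | succ d ih =>
    intro i hi
    by_cases hid : Q.natDegree < i
    · rw [Polynomial.coeff_eq_zero_of_natDegree_lt hid]; exact zero_mem _
    obtain ⟨k, hk⟩ := h (-(i : ℤ))
    rw [Polynomial.eval₂_eq_sum_range, HahnSeries.coeff_sum] at hk
    simp only [HahnSeries.C_mul_eq_smul, HahnSeries.coeff_smul, smul_eq_mul] at hk
    rw [← Finset.add_sum_erase (Finset.range (Q.natDegree + 1))
      (fun x => Q.coeff x * (jqModC ℂ ^ x).coeff (-(i : ℤ)))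
      (Finset.mem_range.mpr (show i < Q.natDegree + 1 by omega)),
      coeff_jqModC_pow_self, mul_one, ← eq_sub_iff_add_eq] at hk
    rw [hk]
    refine sub_mem ⟨k, rfl⟩ (sum_mem fun x hx => ?_)
    rw [Finset.mem_erase, Finset.mem_range] at hx
    rcases lt_or_gt_of_ne hx.1 with hlt | hgt
    · rw [coeff_jqModC_pow_of_lt ℂ (b := x) (m := -(i : ℤ)) (by omega), mul_zero]
      exact zero_mem _
    · refine mul_mem (ih x (by omega)) ?_
      have hj : jqModC ℂ ^ x = coeffMap (Int.castRingHom ℂ) (jqModC ℤ ^ x) := by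
        rw [map_pow, coeffMap_jqModC]
      rw [hj, coeffMap_coeff]
      exact ⟨_, rfl⟩

section Cyclotomic

/-- `ℤ[ζ_p]`. -/
abbrev CycRing : Type := AdjoinRoot (Polynomial.cyclotomic p ℤ)

theorem cycRoot_pow : (AdjoinRoot.root (Polynomial.cyclotomic p ℤ)) ^ p = 1 := by
  have h := AdjoinRoot.eval₂_root (Polynomial.cyclotomic p ℤ)
  have hdvd := Polynomial.cyclotomic.dvd_X_pow_sub_one p ℤ
  have := Polynomial.eval₂_eq_zero_of_dvd_of_eval₂_eq_zero _ _ hdvd h
  simpa [sub_eq_zero] using this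

/-- `ζ` as a unit of `ℤ[ζ_p]`. -/
def cycUnit : (CycRing p)ˣ := Units.ofPowEqOne _ p (cycRoot_pow p) hp.out.ne_zero

theorem coe_cycUnit : ((cycUnit p : (CycRing p)ˣ) : CycRing p) =
    AdjoinRoot.root (Polynomial.cyclotomic p ℤ) := rfl

/-- The map from `ℤ[ζ_p]` given by a root of the cyclotomic polynomial. -/
def cycHom {R : Type*} [CommRing R] (ζ : Rˣ)
    (hζ : (Polynomial.cyclotomic p R).IsRoot (ζ : R)) : CycRing p →+* R :=
  AdjoinRoot.lift (Int.castRingHom R) (ζ : R) (by
    rw [Polynomial.eval₂_eq_eval_map, Polynomial.map_cyclotomic_int]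
    exact hζ)

theorem map_cycUnit {R : Type*} [CommRing R] (ζ : Rˣ)
    (hζ : (Polynomial.cyclotomic p R).IsRoot (ζ : R)) :
    Units.map (cycHom p ζ hζ : CycRing p →* R) (cycUnit p) = ζ :=
  Units.ext (by
    show cycHom p ζ hζ _ = _
    rw [coe_cycUnit, cycHom, AdjoinRoot.lift_root])

theorem isPrimitiveRoot_zetaC : IsPrimitiveRoot ((zetaC p : ℂˣ) : ℂ) p :=
  Complex.isPrimitiveRoot_exp p hp.out.ne_zero

theorem isRoot_zetaC : (Polynomial.cyclotomic p ℂ).IsRoot ((zetaC p : ℂˣ) : ℂ) :=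
  (isPrimitiveRoot_zetaC p).isRoot_cyclotomic hp.out.pos

/-- The embedding `ℤ[ζ_p] → ℂ`. -/
def cycToC : CycRing p →+* ℂ := cycHom p (zetaC p) (isRoot_zetaC p)

theorem cycToC_injective : Function.Injective (cycToC p) := by
  rw [injective_iff_map_eq_zero]
  intro x hx
  obtain ⟨g, rfl⟩ := AdjoinRoot.mk_surjective x
  rw [AdjoinRoot.mk_eq_zero]
  rw [cycToC, cycHom, AdjoinRoot.lift_mk] at hx
  rw [Polynomial.cyclotomic_eq_minpoly (isPrimitiveRoot_zetaC p) hp.out.pos]
  exact minpoly.isIntegrallyClosed_dvd ((isPrimitiveRoot_zetaC p).isIntegral hp.out.pos) hx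

theorem isRoot_cycUnit_pow {a : ℕ} (ha : a.Coprime p) :
    (Polynomial.cyclotomic p (CycRing p)).IsRoot (((cycUnit p) ^ a : (CycRing p)ˣ) : CycRing p) := by
  have h1 := ((isPrimitiveRoot_zetaC p).pow_of_coprime a ha).isRoot_cyclotomic hp.out.pos
  have h2 : cycToC p (((cycUnit p) ^ a : (CycRing p)ˣ) : CycRing p) =
      ((zetaC p : ℂˣ) : ℂ) ^ a := by
    rw [Units.val_pow_eq_pow_val, map_pow, coe_cycUnit, cycToC, cycHom, AdjoinRoot.lift_root]
  rw [← h2, ← Polynomial.map_cyclotomic p (cycToC p), Polynomial.IsRoot,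
    Polynomial.eval_map, Polynomial.eval₂_hom] at h1
  exact (map_eq_zero_iff _ (cycToC_injective p)).mp h1

/-- The automorphism `ζ ↦ ζ ^ a`. -/
def cycAut {a : ℕ} (ha : a.Coprime p) : CycRing p →+* CycRing p :=
  cycHom p ((cycUnit p) ^ a) (isRoot_cycUnit_pow p ha)

theorem coprime_of_mem {a : ℕ} (ha : a ∈ Finset.Ico 1 p) : a.Coprime p := by
  rw [Finset.mem_Ico] at ha
  exact (hp.out.coprime_iff_not_dvd.mpr (fun h => by
    have := Nat.le_of_dvd (by omega) h; omega)).symm

theorem exists_int_of_fixed {x : CycRing p}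
    (hx : ∀ a, ∀ ha : a ∈ Finset.Ico 1 p, cycAut p (coprime_of_mem p ha) x = x) :
    ∃ n : ℤ, cycToC p x = (n : ℂ) := by
  obtain ⟨g, rfl⟩ := AdjoinRoot.mk_surjective x
  set z : ℂ := ((zetaC p : ℂˣ) : ℂ) with hz
  set y : ℂ := cycToC p (AdjoinRoot.mk (Polynomial.cyclotomic p ℤ) g) with hy
  have hval : ∀ a, ∀ ha : a ∈ Finset.Ico 1 p,
      Polynomial.eval₂ (Int.castRingHom ℂ) (z ^ a) g = y := by
    intro a ha
    conv_rhs => rw [hy, ← hx a ha]
    rw [cycAut, cycHom, AdjoinRoot.lift_mk, Polynomial.hom_eval₂,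
      RingHom.ext_int ((cycToC p).comp (Int.castRingHom (CycRing p))) (Int.castRingHom ℂ),
      Units.val_pow_eq_pow_val, map_pow, coe_cycUnit]
    congr 1
    rw [cycToC, cycHom, AdjoinRoot.lift_root]
  have hprim := isPrimitiveRoot_zetaC p
  have hgeo : ∀ i : ℕ, ∃ k : ℤ, ∑ a ∈ Finset.Ico 1 p, (z ^ a) ^ i = (k : ℂ) := by
    intro i
    have hr : ∑ a ∈ Finset.range p, (z ^ a) ^ i =
        1 + ∑ a ∈ Finset.Ico 1 p, (z ^ a) ^ i := by
      rw [Finset.range_eq_Ico, Finset.sum_eq_sum_Ico_succ_bot hp.out.pos]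
      simp
    by_cases hi : p ∣ i
    · refine ⟨(p : ℤ) - 1, ?_⟩
      have : ∀ a : ℕ, (z ^ a) ^ i = 1 := fun a => by
        rw [← pow_mul]
        exact (hprim.pow_eq_one_iff_dvd _).mpr (dvd_mul_of_dvd_right hi a)
      simp only [this, Finset.sum_const, Finset.card_range, nsmul_eq_mul, mul_one] at hr ⊢
      push_cast
      linear_combination -hr
    · refine ⟨-1, ?_⟩
      have hne : z ^ i ≠ 1 := fun h => hi ((hprim.pow_eq_one_iff_dvd i).mp h)
      have h0 : ∑ a ∈ Finset.range p, (z ^ a) ^ i = 0 := by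
        simp_rw [← pow_mul, mul_comm _ i, pow_mul]
        have := geom_sum_mul (z ^ i) p
        rw [← pow_mul, mul_comm i p, pow_mul, hprim.pow_eq_one, one_pow, sub_self] at this
        exact (mul_eq_zero.mp this).resolve_right (sub_ne_zero.mpr hne)
      push_cast
      linear_combination h0 - hr
  choose k hk using hgeo
  have hsum : ((p : ℂ) - 1) * y =
      ((∑ i ∈ Finset.range (g.natDegree + 1), g.coeff i * k i : ℤ) : ℂ) := by
    have h1 : ∑ a ∈ Finset.Ico 1 p, Polynomial.eval₂ (Int.castRingHom ℂ) (z ^ a) g =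
        ((p : ℂ) - 1) * y := by
      rw [Finset.sum_congr rfl fun a ha => hval a ha, Finset.sum_const, Nat.card_Ico,
        nsmul_eq_mul, Nat.cast_sub hp.out.one_le, Nat.cast_one]
    rw [← h1]
    push_cast
    simp only [Polynomial.eval₂_eq_sum_range, eq_intCast]
    rw [Finset.sum_comm]
    refine Finset.sum_congr rfl fun i _ => ?_
    rw [← Finset.mul_sum, hk]
  have hp1 : ((p : ℚ) - 1) ≠ 0 := by
    have : (2 : ℚ) ≤ p := by exact_mod_cast hp.out.two_le
    linarith
  set N : ℤ := ∑ i ∈ Finset.range (g.natDegree + 1), g.coeff i * k i with hN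
  have hq : y = algebraMap ℚ ℂ ((N : ℚ) / ((p : ℚ) - 1)) := by
    rw [map_div₀, map_sub, map_one, map_natCast, map_intCast, eq_div_iff]
    · rw [mul_comm]; exact hsum
    · have : ((algebraMap ℚ ℂ) ((p : ℚ) - 1)) ≠ 0 :=
        (_root_.map_ne_zero _).mpr hp1
      simpa using this
  have hint : IsIntegral ℤ y := by
    have : Module.Finite ℤ (CycRing p) := (Polynomial.cyclotomic.monic p ℤ).finite_adjoinRoot
    exact (IsIntegral.of_finite ℤ (AdjoinRoot.mk (Polynomial.cyclotomic p ℤ) g)).map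
      (cycToC p).toIntAlgHom
  rw [hq] at hint
  obtain ⟨n, hn⟩ := IsIntegrallyClosed.isIntegral_iff.mp
    ((isIntegral_algebraMap_iff (algebraMap ℚ ℂ).injective).mp hint)
  exact ⟨n, by rw [hq, ← hn]; simp⟩

theorem cycAut_sub {a : ℕ} (ha : a.Coprime p) (γ : Option (ZMod p)) :
    sub p (Units.map (cycAut p ha : CycRing p →* CycRing p) (cycUnit p)) γ =
      sub (R := CycRing p) p (cycUnit p) (γ.map ((a : ZMod p) * ·)) := by
  rw [cycAut, map_cycUnit]
  rcases γ with _ | b
  · rfl
  · show subT ((cycUnit p ^ a) ^ b.val) 1 = subT (cycUnit p ^ ((a : ZMod p) * b).val) 1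
    congr 1
    rw [← pow_mul]
    refine pow_eq_pow_of_modEq (n := p) ?_ (Units.ext ?_)
    · rw [← ZMod.natCast_eq_natCast_iff]
      simp [ZMod.natCast_val]
    · rw [Units.val_pow_eq_pow_val, coe_cycUnit, cycRoot_pow]; rfl

/-- Multiplication by `a` on the index set. -/
def permMul {a : ℕ} (ha : a.Coprime p) : Option (ZMod p) ≃ Option (ZMod p) :=
  Equiv.optionCongr (Units.mulLeft (ZMod.unitOfCoprime a ha))

theorem permMul_apply {a : ℕ} (ha : a.Coprime p) (γ : Option (ZMod p)) :
    permMul p ha γ = γ.map ((a : ZMod p) * ·) := by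
  rcases γ with _ | b <;> rfl

theorem cycAut_fix {a : ℕ} (ha : a.Coprime p) :
    (phiL p (cycUnit p)).map (coeffMap (cycAut p ha)) = phiL p (cycUnit p) ∧
    (psiL p (cycUnit p)).map (coeffMap (cycAut p ha)) = psiL p (cycUnit p) ∧
    (lagL p (cycUnit p)).map (coeffMap (cycAut p ha)) = lagL p (cycUnit p) := by
  classical
  have hJ : ∀ γ, rootJ p (Units.map (cycAut p ha : CycRing p →* CycRing p) (cycUnit p)) γ =
      rootJ p (cycUnit p) (permMul p ha γ) := fun γ => by
    rw [rootJ, rootJ, cycAut_sub, permMul_apply]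
  have hw : ∀ γ, wt p (CycRing p) γ = wt p (CycRing p) (permMul p ha γ) := fun γ => by
    rcases γ with _ | b <;> rfl
  have hU : ∀ γ, rootU p (Units.map (cycAut p ha : CycRing p →* CycRing p) (cycUnit p)) γ =
      rootU p (cycUnit p) (permMul p ha γ) := fun γ => by
    rw [rootU, rootU, cycAut_sub, ← permMul_apply p ha, ← hw]
  refine ⟨?_, ?_, ?_⟩
  · rw [map_phiL]
    exact Fintype.prod_equiv (permMul p ha) _ _ fun γ => by rw [hJ]
  · rw [map_psiL]
    exact Fintype.prod_equiv (permMul p ha) _ _ fun γ => by rw [hU]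
  · rw [map_lagL]
    refine Fintype.sum_equiv (permMul p ha) _ _ fun γ => ?_
    rw [hU]
    congr 1
    exact Finset.prod_equiv (permMul p ha) (by simp) fun δ _ => by rw [hJ]

theorem mem_lifts_evJ (P : Polynomial (LaurentSeries (CycRing p)))
    (hC : ∀ n, (P.map (coeffMap (cycToC p))).coeff n ∈ Set.range (evQ p ℂ))
    (hfix : ∀ a, ∀ ha : a ∈ Finset.Ico 1 p, P.map (coeffMap (cycAut p (coprime_of_mem p ha))) = P) :
    P ∈ Polynomial.lifts (evJ p (CycRing p)) := by
  rw [Polynomial.lifts_iff_coeff_lifts]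
  intro n
  obtain ⟨Q, hQ⟩ := hC n
  rw [Polynomial.coeff_map, evQ_apply] at hQ
  obtain ⟨Q₀, rfl⟩ := exists_int_poly (Q := Q) fun m => by
    obtain ⟨k, hk⟩ := exists_int_of_fixed p (x := (P.coeff n).coeff ((p : ℤ) * m)) fun a ha => by
      conv_rhs => rw [← hfix a ha, Polynomial.coeff_map, coeffMap_coeff]
    refine ⟨k, ?_⟩
    have := congrArg (fun z : LaurentSeries ℂ => z.coeff ((p : ℤ) * m)) hQ
    simp only [qExpand_coeff_mul, coeffMap_coeff, hk] at this
    exact this
  refine ⟨Q₀, coeffMap_injective (cycToC_injective p) ?_⟩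
  rw [coeffMap_evJ, evJ, RingHom.comp_apply, evQ_apply, Polynomial.coe_mapRingHom, hQ]

theorem exists_modularPolys : ∃ Φ Ψ H : Polynomial (Polynomial ℤ),
    (Φ.map (evJ p (CycRing p)) = phiL p (cycUnit p)) ∧
    (Ψ.map (evJ p (CycRing p)) = psiL p (cycUnit p)) ∧
    (H.map (evJ p (CycRing p)) = lagL p (cycUnit p)) := by
  have hu : Units.map (cycToC p : CycRing p →* ℂ) (cycUnit p) = zetaC p := map_cycUnit p _ _
  obtain ⟨Φ, hΦ⟩ := mem_lifts_evJ p (phiL p (cycUnit p))
    (fun n => by rw [map_phiL, hu]; exact phiL_coeff_mem p n)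
    (fun a ha => (cycAut_fix p (coprime_of_mem p ha)).1)
  obtain ⟨Ψ, hΨ⟩ := mem_lifts_evJ p (psiL p (cycUnit p))
    (fun n => by rw [map_psiL, hu]; exact psiL_coeff_mem p n)
    (fun a ha => (cycAut_fix p (coprime_of_mem p ha)).2.1)
  obtain ⟨H, hH⟩ := mem_lifts_evJ p (lagL p (cycUnit p))
    (fun n => by rw [map_lagL, hu]; exact lagL_coeff_mem p n)
    (fun a ha => (cycAut_fix p (coprime_of_mem p ha)).2.2)
  exact ⟨Φ, Ψ, H, hΦ, hΨ, hH⟩

end Cyclotomic

/-- The modular polynomial `Φ_p` of prime level, in `ℤ[X][Y]`. -/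
def modPoly : Polynomial (Polynomial ℤ) := (exists_modularPolys p).choose

/-- The polynomial of the modular units `p ^ 12 Δ(pτ) / Δ(τ)`. -/
def unitPoly : Polynomial (Polynomial ℤ) := (exists_modularPolys p).choose_spec.choose

/-- The interpolation polynomial expressing the modular unit. -/
def lagPolyJ : Polynomial (Polynomial ℤ) :=
  (exists_modularPolys p).choose_spec.choose_spec.choose

variable {R : Type*} [CommRing R] (ζ : Rˣ) (hζ : (Polynomial.cyclotomic p R).IsRoot (ζ : R))

include hζ in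
/-- Full factorisation of the modular polynomial. -/
theorem modPoly_map : (modPoly p).map (evJ p R) = phiL p ζ := by
  rw [← map_cycUnit p ζ hζ, ← map_phiL,
    ← (exists_modularPolys p).choose_spec.choose_spec.choose_spec.1, Polynomial.map_map]
  exact congrArg (fun f => (modPoly p).map f)
    (RingHom.ext fun Q => (coeffMap_evJ p _ Q).symm)

include hζ in
theorem unitPoly_map : (unitPoly p).map (evJ p R) = psiL p ζ := by
  rw [← map_cycUnit p ζ hζ, ← map_psiL,
    ← (exists_modularPolys p).choose_spec.choose_spec.choose_spec.2.1, Polynomial.map_map]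
  exact congrArg (fun f => (unitPoly p).map f)
    (RingHom.ext fun Q => (coeffMap_evJ p _ Q).symm)

include hζ in
theorem lagPolyJ_map : (lagPolyJ p).map (evJ p R) = lagL p ζ := by
  rw [← map_cycUnit p ζ hζ, ← map_lagL,
    ← (exists_modularPolys p).choose_spec.choose_spec.choose_spec.2.2, Polynomial.map_map]
  exact congrArg (fun f => (lagPolyJ p).map f)
    (RingHom.ext fun Q => (coeffMap_evJ p _ Q).symm)

theorem modPoly_monic : (modPoly p).Monic := by
  refine Polynomial.monic_of_injective (evJ_injective p ℂ) ?_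
  rw [modPoly_map p (zetaC p) (isRoot_zetaC p)]
  exact Polynomial.monic_prod_of_monic _ _ fun γ _ => Polynomial.monic_X_sub_C _

theorem modPoly_natDegree : (modPoly p).natDegree = p + 1 := by
  rw [← Polynomial.natDegree_map_eq_of_injective (evJ_injective p ℂ),
    modPoly_map p (zetaC p) (isRoot_zetaC p), phiL,
    Polynomial.natDegree_prod_of_monic _ _ fun γ _ => Polynomial.monic_X_sub_C _]
  simp

theorem unitPoly_monic : (unitPoly p).Monic := by
  refine Polynomial.monic_of_injective (evJ_injective p ℂ) ?_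
  rw [unitPoly_map p (zetaC p) (isRoot_zetaC p)]
  exact Polynomial.monic_prod_of_monic _ _ fun γ _ => Polynomial.monic_X_sub_C _

end Fermat.Agent.Igusa
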