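import Fermat.Agent.Igusa.ModularPolynomial

/-!
# Roots of `Φ_p(J(c t ^ m), Y)`

The roots of `Φ_p(J(c t ^ m), Y)`, and the embedding of `K((q))` in `k((t))`.
-/

set_option autoImplicit false

noncomputable section

open ModularCurve Polynomial

namespace Fermat.Agent.Igusa

variable (p : ℕ) [hp : Fact p.Prime]

section At

variable {L : Type*} [CommRing L] {M : Type*} [CommRing M]

/-- Evaluation of an integral polynomial at `x`. -/
def intEval (x : L) : Polynomial ℤ →+* L := Polynomial.eval₂RingHom (Int.castRingHom L) x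

@[simp] theorem intEval_X (x : L) : intEval x X = x := by simp [intEval]

theorem comp_intEval (f : L →+* M) (x : L) : f.comp (intEval x) = intEval (f x) :=
  Polynomial.ringHom_ext' (Subsingleton.elim _ _) (by simp)

/-- `Φ_p(x, Y)`. -/
def modAt (x : L) : Polynomial L := (modPoly p).map (intEval x)

theorem modAt_map (f : L →+* M) (x : L) : (modAt p x).map f = modAt p (f x) := by
  rw [modAt, Polynomial.map_map, comp_intEval, modAt]

theorem modAt_monic (x : L) : (modAt p x).Monic := (modPoly_monic p).map _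

theorem modAt_natDegree [Nontrivial L] (x : L) : (modAt p x).natDegree = p + 1 := by
  rw [modAt, (modPoly_monic p).natDegree_map, modPoly_natDegree]

end At

section Node

variable {R : Type*} [CommRing R] (ζ : Rˣ) (c : Rˣ) (m : ℕ) [NeZero m]

/-- The roots of `Φ_p(J(c ^ p t ^ (m p)), Y)`. -/
def nodeRoot : Option (ZMod p) → LaurentSeries R
  | none => Jat (c ^ (p * p)) (m * (p * p))
  | some b => Jat (c * ζ ^ b.val) m

theorem subT_rootJ (γ : Option (ZMod p)) :
    subT c m (rootJ p ζ γ) = nodeRoot p ζ c m γ := by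
  rcases γ with _ | b
  · rw [rootJ_none, subT_Jat]
    exact Jat_congr (mul_one _) rfl
  · rw [rootJ_some, subT_Jat]
    exact Jat_congr (by rw [pow_one]) (mul_one m)

theorem modAt_node (hζ : (Polynomial.cyclotomic p R).IsRoot (ζ : R)) :
    modAt p (Jat (c ^ p) (m * p)) = ∏ γ, (X - Polynomial.C (nodeRoot p ζ c m γ)) := by
  have h := congrArg (Polynomial.map (subT c m)) (modPoly_map p ζ hζ)
  rw [Polynomial.map_map, phiL, Polynomial.map_prod] at h
  have hev : (subT c m).comp (evJ p R) =
      intEval (Jat (c ^ p) (m * p)) := by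
    refine Polynomial.ringHom_ext' (Subsingleton.elim _ _) ?_
    rw [RingHom.comp_apply, evJ_X, ← Jat_one, subT_Jat, mul_one]
    simp
  rw [hev] at h
  rw [modAt, h]
  exact Finset.prod_congr rfl fun γ _ => by
    rw [Polynomial.map_sub, Polynomial.map_X, Polynomial.map_C, subT_rootJ]

theorem modAt_node_root (hζ : (Polynomial.cyclotomic p R).IsRoot (ζ : R)) (γ : Option (ZMod p)) :
    (modAt p (Jat (c ^ p) (m * p))).eval (nodeRoot p ζ c m γ) = 0 := by
  rw [modAt_node p ζ c m hζ, Polynomial.eval_prod]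
  exact Finset.prod_eq_zero (Finset.mem_univ γ) (by simp)

theorem modAt_node_root_iff [IsDomain R] (hζ : (Polynomial.cyclotomic p R).IsRoot (ζ : R))
    {x : LaurentSeries R} :
    (modAt p (Jat (c ^ p) (m * p))).eval x = 0 ↔ ∃ γ, x = nodeRoot p ζ c m γ := by
  rw [modAt_node p ζ c m hζ, Polynomial.eval_prod, Finset.prod_eq_zero_iff]
  simp [sub_eq_zero]

theorem nodeRoot_injective [IsDomain R] (hζ : IsPrimitiveRoot (ζ : R) p) :
    Function.Injective (nodeRoot p ζ c m) := by
  have hpp : m ≠ m * (p * p) := by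
    intro h
    have h2 : p * p = 1 := by
      have := Nat.eq_of_mul_eq_mul_left (Nat.pos_of_ne_zero (NeZero.ne m)) (by rwa [mul_one] :
        m * 1 = m * (p * p))
      exact this.symm
    exact hp.out.one_lt.ne' (Nat.eq_one_of_mul_eq_one_right h2)
  rintro (_ | a) (_ | b) h
  · rfl
  · exact absurd (Jat_inj h).2.symm hpp
  · exact absurd (Jat_inj h).2 hpp
  · have h1 := mul_left_cancel (Jat_inj h).1
    have hu : IsPrimitiveRoot ζ p := (IsPrimitiveRoot.coe_units_iff).mp hζ
    rw [ZMod.val_injective p (hu.pow_inj (ZMod.val_lt a) (ZMod.val_lt b) h1)]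

end Node

section Zeta

variable (k : Type*) [Field k] [IsAlgClosed k]

/-- A primitive `p`-th root of unity exists. -/
theorem exists_zeta (hpk : (p : k) ≠ 0) :
    ∃ ζ : kˣ, IsPrimitiveRoot (ζ : k) p ∧ (Polynomial.cyclotomic p k).IsRoot (ζ : k) := by
  have : NeZero (p : k) := ⟨hpk⟩
  obtain ⟨z, hz⟩ := IsAlgClosed.exists_root (Polynomial.cyclotomic p k) (by
    rw [Polynomial.degree_eq_natDegree (Polynomial.cyclotomic_ne_zero p k),
      Polynomial.natDegree_cyclotomic]
    exact_mod_cast (Nat.totient_pos.mpr hp.out.pos).ne')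
  have hprim := Polynomial.isRoot_cyclotomic_iff.mp hz
  exact ⟨Units.mk0 z (hprim.ne_zero hp.out.ne_zero), hprim, hz⟩

end Zeta

end Fermat.Agent.Igusa
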