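import Fermat.Agent.Igusa.Generation

/-!
# `j(q ^ p)` is not rational in `j`

`j(q ^ p)` is not a rational function of `j`, in characteristic prime to `p`: otherwise the
modular unit `p ^ 12 Δ(q ^ p) / Δ(q)` would be a polynomial in `j` vanishing at `q = 0`.
-/

set_option autoImplicit false

noncomputable section

open ModularCurve Polynomial

namespace Fermat.Agent.Igusa

variable (K : Type*) [Field K] (p : ℕ) [hp : Fact p.Prime]

/-- The series `p ^ 12 Δ(q ^ p) / Δ(q)`. -/
def uSer : LaurentSeries K :=
  HahnSeries.C ((p : K) ^ 12) * qExpand K p (deltaL K) * deltaLInv K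

theorem uSer_eq : uSer K p = HahnSeries.C ((p : K) ^ 12) * HahnSeries.single ((p : ℤ) - 1) 1 *
    HahnSeries.ofPowerSeries ℤ K (PowerSeries.expand p hp.out.ne_zero
      (dedekindEtaUnit.map (Int.castRingHom K)) * dedekindEtaUnitInv.map (Int.castRingHom K)) := by
  rw [uSer, deltaL, deltaSeries, deltaLInv, map_mul (HahnSeries.ofPowerSeries ℤ K),
    HahnSeries.ofPowerSeries_X, map_mul (qExpand K p), qExpand_single, ← ofPowerSeries_expand,
    map_mul (HahnSeries.ofPowerSeries ℤ K),
    show (p : ℤ) * 1 = ((p : ℤ) - 1) + 1 by ring, ← mul_one (1 : K),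
    ← HahnSeries.single_mul_single]
  have h : HahnSeries.single (1 : ℤ) (1 : K) * HahnSeries.single (-1 : ℤ) 1 = 1 := by
    rw [HahnSeries.single_mul_single]; simp
  simp only [mul_one]
  linear_combination (HahnSeries.C ((p : K) ^ 12) * HahnSeries.single ((p : ℤ) - 1) 1 *
    HahnSeries.ofPowerSeries ℤ K (PowerSeries.expand p hp.out.ne_zero
      (dedekindEtaUnit.map (Int.castRingHom K))) *
    HahnSeries.ofPowerSeries ℤ K (dedekindEtaUnitInv.map (Int.castRingHom K))) * h

theorem uSer_coeff_nonpos {n : ℤ} (hn : n ≤ 0) : (uSer K p).coeff n = 0 := by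
  rw [uSer_eq, mul_assoc, HahnSeries.C_mul_eq_smul, HahnSeries.coeff_smul,
    HahnSeries.coeff_single_mul, ofPowerSeries_coeff_of_neg _ (by
      have := hp.out.two_le
      omega), mul_zero, smul_zero]

theorem uSer_ne_zero (hpK : (p : K) ≠ 0) : uSer K p ≠ 0 := by
  intro h
  have h1 : (uSer K p).coeff ((p : ℤ) - 1) = 0 := by rw [h]; rfl
  rw [uSer_eq, mul_assoc, HahnSeries.C_mul_eq_smul, HahnSeries.coeff_smul,
    HahnSeries.coeff_single_mul, sub_self, show (0 : ℤ) = ((0 : ℕ) : ℤ) from rfl,
    HahnSeries.ofPowerSeries_apply_coeff, PowerSeries.coeff_zero_eq_constantCoeff_apply, map_mul,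
    PowerSeries.constantCoeff_expand] at h1
  have e1 : PowerSeries.constantCoeff (dedekindEtaUnit.map (Int.castRingHom K)) = 1 := by
    rw [← PowerSeries.coeff_zero_eq_constantCoeff_apply, PowerSeries.coeff_map,
      PowerSeries.coeff_zero_eq_constantCoeff_apply, constantCoeff_dedekindEtaUnit, map_one]
  have e2 : PowerSeries.constantCoeff (dedekindEtaUnitInv.map (Int.castRingHom K)) = 1 := by
    rw [← PowerSeries.coeff_zero_eq_constantCoeff_apply, PowerSeries.coeff_map,
      PowerSeries.coeff_zero_eq_constantCoeff_apply, constantCoeff_dedekindEtaUnitInv, map_one]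
  rw [e1, e2] at h1
  simp [hpK] at h1

theorem emb_uSer (ζ : (AlgebraicClosure K)ˣ) :
    emb K p (uSer K p) = rootU p ζ none := by
  simp only [emb, RingHom.comp_apply, uSer, map_mul]
  rw [coeffMap_qExpand, coeffMap_deltaL,
    coeffMap_deltaLInv, HahnSeries.C_apply, coeffMap_single, qExpand_single,
    mul_zero, qExpand_qExpand, ← HahnSeries.C_apply, rootU, map_pow, map_natCast]
  show _ = HahnSeries.C ((p : AlgebraicClosure K) ^ 12) * subT 1 (p * p) _ * _
  rw [subT_one]

/-- The field `K(j)`. -/
abbrev jField : IntermediateField K (LaurentSeries K) :=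
  IntermediateField.adjoin K {jqModC K}

theorem eval₂_jqModC_injective :
    Function.Injective (Polynomial.eval₂RingHom (HahnSeries.C) (jqModC K) :
      Polynomial K →+* LaurentSeries K) :=
  (injective_iff_map_eq_zero _).mpr fun _ h => poly_eval_jqModC_eq_zero h

theorem algebraMap_eq_C : algebraMap K (LaurentSeries K) = HahnSeries.C :=
  RingHom.ext fun c => by rw [algebraMap_laurentSeries_eq_single, HahnSeries.C_apply]

theorem aeval_jqModC (P : Polynomial K) :
    Polynomial.aeval (jqModC K) P = Polynomial.eval₂ HahnSeries.C (jqModC K) P := by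
  rw [Polynomial.aeval_def, algebraMap_eq_C]

/-- An element of `K(j)` integral over `K[j]` is a polynomial in `j`. -/
theorem exists_poly_of_integral {u : LaurentSeries K} (hu : u ∈ jField K)
    {Ψ : Polynomial (Polynomial K)} (hmonic : Ψ.Monic)
    (hroot : Ψ.eval₂ (Polynomial.eval₂RingHom HahnSeries.C (jqModC K)) u = 0) :
    ∃ P : Polynomial K, u = Polynomial.eval₂ HahnSeries.C (jqModC K) P := by
  set φ : Polynomial K →+* LaurentSeries K :=
    Polynomial.eval₂RingHom HahnSeries.C (jqModC K) with hφ
  set θ : RatFunc K →+* LaurentSeries K := IsFractionRing.lift (eval₂_jqModC_injective K)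
  have hθ : ∀ A : Polynomial K, θ (algebraMap _ (RatFunc K) A) = φ A := fun A =>
    IsFractionRing.lift_algebraMap _ A
  obtain ⟨r, s, hrs⟩ := (IntermediateField.mem_adjoin_simple_iff K u).mp hu
  set z : RatFunc K := algebraMap _ _ r / algebraMap _ _ s with hz
  have hzu : θ z = u := by
    rw [hz, map_div₀, hθ, hθ, hrs, aeval_jqModC, aeval_jqModC]
    rfl
  have hcomp : θ.comp (algebraMap (Polynomial K) (RatFunc K)) = φ := RingHom.ext hθ
  have hzroot : Ψ.eval₂ (algebraMap (Polynomial K) (RatFunc K)) z = 0 := by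
    apply θ.injective
    rw [map_zero, Polynomial.hom_eval₂, hcomp, hzu, hroot]
  obtain ⟨P, hP⟩ := IsIntegrallyClosed.isIntegral_iff.mp
    (show IsIntegral (Polynomial K) z from ⟨Ψ, hmonic, hzroot⟩)
  exact ⟨P, by rw [← hzu, ← hP, hθ]; rfl⟩

theorem intEval_mem (G : IntermediateField K (LaurentSeries K)) {x : LaurentSeries K} (hx : x ∈ G)
    (Q : Polynomial ℤ) : intEval x Q ∈ G := by
  have h : (G.toSubfield.subtype).comp (intEval (⟨x, hx⟩ : G)) = intEval x :=
    comp_intEval _ _
  rw [← h]
  exact (intEval (⟨x, hx⟩ : G) Q).2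

theorem eval_map_intEval_mem (G : IntermediateField K (LaurentSeries K)) {x y : LaurentSeries K}
    (hx : x ∈ G) (hy : y ∈ G) (H : Polynomial (Polynomial ℤ)) :
    (H.map (intEval x)).eval y ∈ G := by
  rw [Polynomial.eval_eq_sum_range]
  exact sum_mem fun i _ => mul_mem (by rw [Polynomial.coeff_map]; exact intEval_mem K G hx _)
    (pow_mem hy i)

/-- `j(q ^ p)` is not a rational function of `j`. -/
theorem jd_prime_notMem (hpK : (p : K) ≠ 0) : jd K p ∉ jField K := by
  classical
  intro hy
  have hpk := cast_ne_zero_algClosure K hpK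
  obtain ⟨ζ, hζ, hζ'⟩ := exists_zeta p (AlgebraicClosure K) hpk
  have hj : emb K p (jqModC K) = qExpand _ p (jqModC (AlgebraicClosure K)) := by
    rw [← jd_one, emb_jd, ← Jat_one]
    exact Jat_congr rfl (mul_one p)
  have hmap : ∀ H : Polynomial (Polynomial ℤ),
      (H.map (intEval (jqModC K))).map (emb K p) = H.map (evJ p (AlgebraicClosure K)) := by
    intro H
    rw [Polynomial.map_map, comp_intEval]
    congr 1
    refine Polynomial.ringHom_ext' (Subsingleton.elim _ _) ?_
    rw [intEval_X, evJ_X, hj]
  have hy' : emb K p (jd K p) = rootJ p ζ none := by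
    rw [emb_jd, rootJ_none]
  have hinj : Function.Injective (rootJ p ζ) := by
    intro a b h
    apply nodeRoot_injective p ζ (1 : (AlgebraicClosure K)ˣ) 1 hζ
    rw [← subT_rootJ, ← subT_rootJ, h]
  set x0 := rootJ p ζ none with hx0
  set D := ∏ δ ∈ Finset.univ.erase none, (x0 - rootJ p ζ δ) with hD
  have hD0 : D ≠ 0 := Finset.prod_ne_zero_iff.mpr fun δ hδ =>
    sub_ne_zero.mpr fun h => Finset.ne_of_mem_erase hδ (hinj h).symm
  have hlag : (lagL p ζ).eval x0 = rootU p ζ none * D := by
    rw [lagL, Polynomial.eval_finsetSum, Finset.sum_eq_single none]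
    · simp [hD, Polynomial.eval_prod]
    · intro γ _ hγ
      rw [Polynomial.eval_mul, Polynomial.eval_prod,
        Finset.prod_eq_zero (Finset.mem_erase.mpr ⟨Ne.symm hγ, Finset.mem_univ _⟩) (by simp [hx0]),
        mul_zero]
    · intro h; exact absurd (Finset.mem_univ _) h
  have hder : (derivative (phiL p ζ)).eval x0 = D := by
    rw [phiL, ← Finset.mul_prod_erase Finset.univ _ (Finset.mem_univ none), derivative_mul]
    simp [hx0, hD, Polynomial.eval_prod]
  set A := (lagPolyJ p).map (intEval (jqModC K))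
  set B := derivative ((modPoly p).map (intEval (jqModC K)))
  have hA : emb K p (A.eval (jd K p)) = rootU p ζ none * D := by
    rw [← Polynomial.eval₂_hom, ← Polynomial.eval_map, hmap, lagPolyJ_map p ζ hζ', hy']
    exact hlag
  have hB : emb K p (B.eval (jd K p)) = D := by
    rw [← Polynomial.eval₂_hom, ← Polynomial.eval_map, ← Polynomial.derivative_map, hmap,
      modPoly_map p ζ hζ', hy']
    exact hder
  have hu : uSer K p = A.eval (jd K p) / B.eval (jd K p) := by
    apply emb_injective K p
    rw [map_div₀, hA, hB, mul_div_assoc, div_self hD0, mul_one, emb_uSer K p ζ]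
  have hjmem : jqModC K ∈ jField K := IntermediateField.mem_adjoin_simple_self K _
  have humem : uSer K p ∈ jField K := by
    rw [hu]
    refine div_mem (eval_map_intEval_mem K _ hjmem hy _) ?_
    show (derivative ((modPoly p).map (intEval (jqModC K)))).eval (jd K p) ∈ _
    rw [Polynomial.derivative_map]
    exact eval_map_intEval_mem K _ hjmem hy _
  have hroot : ((unitPoly p).map (intEval (jqModC K))).eval (uSer K p) = 0 := by
    apply emb_injective K p
    rw [map_zero, ← Polynomial.eval₂_hom, ← Polynomial.eval_map, hmap, unitPoly_map p ζ hζ',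
      emb_uSer K p ζ, psiL, Polynomial.eval_prod]
    exact Finset.prod_eq_zero (Finset.mem_univ none) (by simp)
  obtain ⟨P, hP⟩ := exists_poly_of_integral K humem
    ((unitPoly_monic p).map (Polynomial.mapRingHom (Int.castRingHom K))) (by
      rw [Polynomial.eval₂_map]
      have : (Polynomial.eval₂RingHom HahnSeries.C (jqModC K)).comp
          (Polynomial.mapRingHom (Int.castRingHom K)) = intEval (jqModC K) :=
        Polynomial.ringHom_ext' (Subsingleton.elim _ _) (by simp)
      rw [this, ← Polynomial.eval_map]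
      exact hroot)
  have hlead := uSer_coeff_nonpos K p (n := -(P.natDegree : ℤ)) (by omega)
  rw [hP, coeff_poly_eval_lead, Polynomial.leadingCoeff_eq_zero] at hlead
  exact uSer_ne_zero K p hpK (by rw [hP, hlead]; simp)

end Fermat.Agent.Igusa
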