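import Fermat.Agent.Igusa.LaurentTools
import Mathlib.NumberTheory.ModularForms.QExpansion
import Mathlib.RingTheory.PowerSeries.Expand

/-!
# Functions with their `q`-expansions

The algebra of pairs (holomorphic function on `ℍ`, its `q`-expansion of width `h`).
-/

set_option autoImplicit false

noncomputable section

open UpperHalfPlane Function
open scoped Real Manifold

local notation "𝕢" => Periodic.qParam

namespace Fermat.Agent.Igusa

theorem mdifferentiable_comp_affine {f : ℍ → ℂ} (hf : MDiff f) (a : ℝ) (b : ℂ) (g : ℍ → ℍ)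
    (hg : ∀ τ : ℍ, ((g τ : ℍ) : ℂ) = (a : ℂ) * τ + b) : MDiff (f ∘ g) := by
  rw [UpperHalfPlane.mdifferentiable_iff] at hf ⊢
  have hmap : Set.MapsTo (fun z : ℂ => (a : ℂ) * z + b) upperHalfPlaneSet upperHalfPlaneSet := by
    intro z hz
    have := (g ⟨z, hz⟩).im_pos
    rw [← UpperHalfPlane.coe_im, hg] at this
    exact this
  refine (hf.comp (by fun_prop) hmap).congr fun z hz => ?_
  have hz' : 0 < ((a : ℂ) * z + b).im := hmap hz
  simp only [Function.comp_apply, ofComplex_apply_of_im_pos hz, ofComplex_apply_of_im_pos hz']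
  congr 1
  ext
  exact hg _

/-- Pairs `(f, P)` with `f` holomorphic on `ℍ` and `f τ = ∑ P_n exp (2 π i n τ / h)`. -/
def qGraph (h : ℝ) : Subalgebra ℂ ((ℍ → ℂ) × PowerSeries ℂ) where
  carrier := {x | MDiff x.1 ∧
    ∀ τ : ℍ, HasSum (fun n => PowerSeries.coeff n x.2 * 𝕢 h τ ^ n) (x.1 τ)}
  zero_mem' := ⟨mdifferentiable_const, fun τ => by simp [hasSum_zero]⟩
  add_mem' := by
    rintro x y ⟨hx, hx'⟩ ⟨hy, hy'⟩
    exact ⟨hx.add hy, fun τ => by simpa [add_mul] using (hx' τ).add (hy' τ)⟩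
  algebraMap_mem' c := ⟨mdifferentiable_const, fun τ => by
    have : (fun n => PowerSeries.coeff n (PowerSeries.C c) * 𝕢 h τ ^ n) =
        fun n : ℕ => if n = 0 then c else 0 := by
      funext n
      rcases eq_or_ne n 0 with rfl | hn <;> simp [PowerSeries.coeff_C, *]
    show HasSum (fun n => PowerSeries.coeff n (PowerSeries.C c) * 𝕢 h τ ^ n) c
    rw [this]
    exact hasSum_ite_eq 0 c⟩
  one_mem' := ⟨mdifferentiable_const, fun τ => by
    have : (fun n => PowerSeries.coeff n (1 : PowerSeries ℂ) * 𝕢 h τ ^ n) =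
        fun n : ℕ => if n = 0 then 1 else 0 := by
      funext n
      rcases eq_or_ne n 0 with rfl | hn <;> simp [*]
    show HasSum (fun n => PowerSeries.coeff n (1 : PowerSeries ℂ) * 𝕢 h τ ^ n) 1
    rw [this]
    exact hasSum_ite_eq 0 1⟩
  mul_mem' := by
    rintro x y ⟨hx, hx'⟩ ⟨hy, hy'⟩
    refine ⟨hx.mul hy, fun τ => ?_⟩
    have hxn := (hx' τ).summable.norm
    have hyn := (hy' τ).summable.norm
    have hs := (summable_norm_sum_mul_antidiagonal_of_summable_norm hxn hyn).of_norm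
    have ht := tsum_mul_tsum_eq_tsum_sum_antidiagonal_of_summable_norm hxn hyn
    rw [(hx' τ).tsum_eq, (hy' τ).tsum_eq] at ht
    have hco : (fun n => PowerSeries.coeff n (x * y).2 * 𝕢 h τ ^ n) =
        fun n => ∑ kl ∈ Finset.HasAntidiagonal.antidiagonal n,
          PowerSeries.coeff kl.1 x.2 * 𝕢 h τ ^ kl.1 *
            (PowerSeries.coeff kl.2 y.2 * 𝕢 h τ ^ kl.2) := by
      funext n
      rw [Prod.snd_mul, PowerSeries.coeff_mul, Finset.sum_mul]
      refine Finset.sum_congr rfl fun kl hkl => ?_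
      rw [← Finset.HasAntidiagonal.mem_antidiagonal.mp hkl, pow_add]
      ring
    rw [hco]
    have := hs.hasSum
    rwa [← ht] at this

variable {h : ℝ}

theorem qGraph_bounded (hh : 0 < h) {f : ℍ → ℂ} {P : PowerSeries ℂ} (hf : (f, P) ∈ qGraph h) :
    IsBoundedAtImInfty f :=
  isBoundedAtImInfty_of_hasSum_qExpansion (c := fun n => PowerSeries.coeff n P) hh
    (by simpa [smul_eq_mul] using hf.2)

/-- The expansion is determined by the function. -/
theorem qGraph_unique (hh : 0 < h) {f : ℍ → ℂ} {P Q : PowerSeries ℂ} (hP : (f, P) ∈ qGraph h)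
    (hQ : (f, Q) ∈ qGraph h) : P = Q := by
  have h0 : ((0 : ℍ → ℂ), P - Q) ∈ qGraph h := by simpa using sub_mem hP hQ
  ext n
  have han : AnalyticAt ℂ (cuspFunction h (0 : ℍ → ℂ)) 0 :=
    analyticAt_cuspFunction_zero hh (fun z => rfl) mdifferentiable_const
      (qGraph_bounded hh h0)
  have h1 := (hasFPowerSeriesOnBall_cuspFunction (f := (0 : ℍ → ℂ)) hh han
    (c := fun n => PowerSeries.coeff n (P - Q))
    (fun τ => by simpa [smul_eq_mul] using h0.2 τ)).hasFPowerSeriesAt
  have h2 := (hasFPowerSeriesOnBall_cuspFunction (f := (0 : ℍ → ℂ)) hh han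
    (c := fun _ => (0 : ℂ))
    (fun τ => by simp [hasSum_zero])).hasFPowerSeriesAt
  have := congr_arg (FormalMultilinearSeries.coeff · n) (h1.eq_formalMultilinearSeries h2)
  simpa [FormalMultilinearSeries.coeff_ofScalars, sub_eq_zero] using this

theorem qGraph_qParam (hh : h ≠ 0) : ((fun τ : ℍ => 𝕢 h τ), PowerSeries.X) ∈ qGraph h := by
  refine ⟨?_, fun τ => ?_⟩
  · rw [UpperHalfPlane.mdifferentiable_iff]
    have : Differentiable ℂ (fun z : ℂ => 𝕢 h z) := by
      unfold Function.Periodic.qParam; fun_prop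
    refine this.differentiableOn.congr fun z hz => ?_
    simp [ofComplex_apply_of_im_pos hz]
  · convert hasSum_ite_eq 1 (𝕢 h τ) using 1
    funext n
    rcases eq_or_ne n 1 with rfl | hn <;> simp [PowerSeries.coeff_X, *]

/-- A modular form, with its `q`-expansion. -/
theorem qGraph_modularForm {Γ : Subgroup (GL (Fin 2) ℝ)} {k : ℤ} [Fact (IsCusp .infty Γ)]
    (hh : 0 < h) (hΓ : h ∈ Γ.strictPeriods) (f : ModularForm Γ k) :
    ((f : ℍ → ℂ), qExpansion h f) ∈ qGraph h :=
  ⟨f.holo', fun τ => ModularForm.hasSum_qExpansion f hh hΓ τ⟩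

/-- A power series converging on the unit disc gives an element of `qGraph`. -/
theorem qGraph_of_differentiableOn {G : ℂ → ℂ} (hh : 0 < h)
    (hG : DifferentiableOn ℂ G (Metric.ball 0 1)) (P : PowerSeries ℂ)
    (hP : ∀ n : ℕ, PowerSeries.coeff n P = ((n.factorial : ℂ))⁻¹ * iteratedDeriv n G 0) :
    ((fun τ : ℍ => G (𝕢 h τ)), P) ∈ qGraph h := by
  have hball : ∀ τ : ℍ, 𝕢 h τ ∈ Metric.ball (0 : ℂ) 1 := fun τ => by
    simpa using Periodic.norm_qParam_lt_one hh τ.im_pos
  refine ⟨?_, fun τ => ?_⟩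
  · rw [UpperHalfPlane.mdifferentiable_iff]
    have hq : Differentiable ℂ (fun z : ℂ => 𝕢 h z) := by
      unfold Function.Periodic.qParam; fun_prop
    refine (hG.comp hq.differentiableOn ?_).congr fun z hz => ?_
    · intro z hz; exact hball ⟨z, hz⟩
    · simp [ofComplex_apply_of_im_pos hz]
  · have hterm : (fun n => PowerSeries.coeff n P * 𝕢 h τ ^ n) = fun n : ℕ =>
        (n.factorial : ℂ)⁻¹ • (𝕢 h τ - 0) ^ n • iteratedDeriv n G 0 := by
      funext n
      rw [hP n]
      simp only [sub_zero, smul_eq_mul]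
      ring
    show HasSum (fun n => PowerSeries.coeff n P * 𝕢 h τ ^ n) (G (𝕢 h τ))
    rw [hterm]
    exact Complex.hasSum_taylorSeries_on_ball hG (hball τ)

section Change

variable (p : ℕ) [hp : NeZero p]

/-- The point `p * τ`. -/
def mulPt (τ : ℍ) : ℍ :=
  ⟨(p : ℂ) * τ, by
    rw [Complex.mul_im, Complex.natCast_re, Complex.natCast_im, zero_mul, add_zero]
    exact mul_pos (by exact_mod_cast Nat.pos_of_ne_zero hp.out) τ.im_pos⟩

@[simp] theorem coe_mulPt (τ : ℍ) : ((mulPt p τ : ℍ) : ℂ) = (p : ℂ) * τ := rfl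

/-- The point `(τ + b) / p`. -/
def divPt (b : ℤ) (τ : ℍ) : ℍ :=
  ⟨((τ : ℂ) + (b : ℂ)) / (p : ℂ), by
    rw [Complex.div_natCast_im, Complex.add_im, Complex.intCast_im, add_zero]
    exact div_pos τ.im_pos (by exact_mod_cast Nat.pos_of_ne_zero hp.out)⟩

@[simp] theorem coe_divPt (b : ℤ) (τ : ℍ) :
    ((divPt p b τ : ℍ) : ℂ) = ((τ : ℂ) + (b : ℂ)) / (p : ℂ) := rfl

/-- From width `1` to width `p`. -/
theorem qGraph_widen {f : ℍ → ℂ} {P : PowerSeries ℂ} (hf : (f, P) ∈ qGraph 1) :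
    (f, PowerSeries.expand p hp.out P) ∈ qGraph (p : ℝ) := by
  refine ⟨hf.1, fun τ => ?_⟩
  have hinj : Function.Injective (fun n : ℕ => p * n) :=
    mul_right_injective₀ hp.out
  refine (hinj.hasSum_iff ?_).mp ?_
  · intro n hn
    rw [PowerSeries.coeff_expand_of_not_dvd p hp.out, zero_mul]
    rintro ⟨a, rfl⟩
    exact hn ⟨a, rfl⟩
  · convert hf.2 τ using 1
    funext n
    simp only [Function.comp_apply, PowerSeries.coeff_expand_mul]
    congr 1
    rw [pow_mul]
    congr 1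
    simp only [Periodic.qParam, ← Complex.exp_nat_mul]
    congr 1
    have : (p : ℂ) ≠ 0 := by exact_mod_cast hp.out
    push_cast
    field_simp

/-- `f (p τ)` in width `p`. -/
theorem qGraph_mulPt {f : ℍ → ℂ} {P : PowerSeries ℂ} (hf : (f, P) ∈ qGraph 1) :
    (f ∘ mulPt p, PowerSeries.expand (p * p) (mul_ne_zero hp.out hp.out) P) ∈
      qGraph (p : ℝ) := by
  have hpp : p * p ≠ 0 := mul_ne_zero hp.out hp.out
  refine ⟨mdifferentiable_comp_affine hf.1 (p : ℝ) 0 _ (fun τ => by simp), fun τ => ?_⟩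
  have hinj : Function.Injective (fun n : ℕ => p * p * n) := mul_right_injective₀ hpp
  refine (hinj.hasSum_iff ?_).mp ?_
  · intro n hn
    rw [PowerSeries.coeff_expand_of_not_dvd (p * p) hpp, zero_mul]
    rintro ⟨a, rfl⟩
    exact hn ⟨a, rfl⟩
  · show HasSum _ (f (mulPt p τ))
    convert hf.2 (mulPt p τ) using 1
    funext n
    simp only [Function.comp_apply, PowerSeries.coeff_expand_mul]
    congr 1
    rw [pow_mul]
    congr 1
    simp only [Periodic.qParam, ← Complex.exp_nat_mul, coe_mulPt]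
    congr 1
    have : (p : ℂ) ≠ 0 := by exact_mod_cast hp.out
    push_cast
    field_simp

/-- `f ((τ + b) / p)` in width `p`. -/
theorem qGraph_divPt (b : ℤ) {f : ℍ → ℂ} {P : PowerSeries ℂ} (hf : (f, P) ∈ qGraph 1) :
    (f ∘ divPt p b, PowerSeries.rescale (Complex.exp (2 * π * Complex.I * b / p)) P) ∈
      qGraph (p : ℝ) := by
  have : (p : ℂ) ≠ 0 := by exact_mod_cast hp.out
  refine ⟨mdifferentiable_comp_affine hf.1 (p : ℝ)⁻¹ ((b : ℂ) / p) _ (fun τ => by
    simp; ring), fun τ => ?_⟩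
  show HasSum _ (f (divPt p b τ))
  convert hf.2 (divPt p b τ) using 1
  funext n
  rw [PowerSeries.coeff_rescale, mul_assoc, mul_left_comm, ← mul_pow]
  congr 2
  simp only [Periodic.qParam, coe_divPt, ← Complex.exp_add]
  congr 1
  push_cast
  field_simp
  ring

end Change

end Fermat.Agent.Igusa
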