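import Fermat.Agent.Igusa.Family

/-!
# Roots of the modular polynomial as series

The roots of the modular polynomial of prime level as series in `t = q ^ (1/p)`, over any ring
with a `p`-th root of unity, and the identities over `ℂ`.
-/

set_option autoImplicit false

noncomputable section

open ModularCurve Polynomial

namespace Fermat.Agent.Igusa

section Order

variable {K : Type*} [Field K]

theorem coeff_order_ne {x : LaurentSeries K} (hx : x ≠ 0) : x.coeff x.order ≠ 0 :=
  mt HahnSeries.coeff_order_eq_zero.mp hx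

theorem order_subT (c : Kˣ) (m : ℕ) [NeZero m] {x : LaurentSeries K} (hx : x ≠ 0) :
    (subT c m x).order = (m : ℤ) * x.order := by
  have hm : (0 : ℤ) < m := by exact_mod_cast Nat.pos_of_ne_zero (NeZero.ne m)
  have hne : (subT c m x).coeff ((m : ℤ) * x.order) ≠ 0 := by
    rw [subT_apply, qExpand_coeff_mul, scale_coeff]
    exact mul_ne_zero (Units.ne_zero _) (coeff_order_ne hx)
  have h0 : subT c m x ≠ 0 := fun h => hne (by rw [h]; rfl)
  refine le_antisymm (HahnSeries.order_le_of_coeff_ne_zero hne) ?_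
  by_contra hlt
  rw [not_le] at hlt
  have hc := coeff_order_ne h0
  by_cases hd : (m : ℤ) ∣ (subT c m x).order
  · obtain ⟨a, ha⟩ := hd
    rw [ha] at hlt hc
    rw [subT_apply, qExpand_coeff_mul, scale_coeff,
      HahnSeries.coeff_eq_zero_of_lt_order (lt_of_mul_lt_mul_left hlt hm.le), mul_zero] at hc
    exact hc rfl
  · exact hc (by rw [subT_apply]; exact qExpand_coeff_of_not_dvd m _ (by rwa [subT_apply] at hd))

theorem order_finset_prod {ι : Type*} (s : Finset ι) (f : ι → LaurentSeries K)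
    (h : ∀ i ∈ s, f i ≠ 0) : (∏ i ∈ s, f i).order = ∑ i ∈ s, (f i).order := by
  classical
  induction s using Finset.induction with
  | empty => simp
  | insert a s ha ih =>
    rw [Finset.prod_insert ha, Finset.sum_insert ha,
      HahnSeries.order_mul (h a (by simp))
        (Finset.prod_ne_zero_iff.mpr fun i hi => h i (by simp [hi])),
      ih fun i hi => h i (by simp [hi])]

theorem order_poly_eval {Q : Polynomial K} (hQ : Q ≠ 0) :
    (Polynomial.eval₂ HahnSeries.C (jqModC K) Q).order = -(Q.natDegree : ℤ) := by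
  have h1 : (Polynomial.eval₂ HahnSeries.C (jqModC K) Q).coeff (-(Q.natDegree : ℤ)) ≠ 0 := by
    rw [coeff_poly_eval_lead]
    exact leadingCoeff_ne_zero.mpr hQ
  refine le_antisymm (HahnSeries.order_le_of_coeff_ne_zero h1) ?_
  by_contra hlt
  rw [not_le] at hlt
  exact coeff_order_ne (fun h => hQ (poly_eval_jqModC_eq_zero h))
    (coeff_poly_eval_eq_zero_of_lt Q hlt)

end Order

section Defs

variable (R : Type*) [CommRing R]

/-- The inverse of `deltaL`. -/
def deltaLInv : LaurentSeries R :=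
  HahnSeries.single (-1 : ℤ) 1 *
    HahnSeries.ofPowerSeries ℤ R (dedekindEtaUnitInv.map (Int.castRingHom R))

theorem deltaL_mul_inv : deltaL R * deltaLInv R = 1 := by
  rw [deltaL, deltaLInv, deltaSeries, map_mul, HahnSeries.ofPowerSeries_X, mul_mul_mul_comm,
    HahnSeries.single_mul_single, ← map_mul, ← map_mul, dedekindEtaUnit_mul_inv]
  simp

theorem coeffMap_deltaL {S : Type*} [CommRing S] (f : R →+* S) :
    coeffMap f (deltaL R) = deltaL S := by
  rw [deltaL, deltaL, deltaSeries, deltaSeries, coeffMap_ofPowerSeries, map_mul, PowerSeries.map_X,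
    ← RingHom.comp_apply (PowerSeries.map f) (PowerSeries.map (Int.castRingHom R)),
    ← PowerSeries.map_comp, RingHom.ext_int (f.comp (Int.castRingHom R)) (Int.castRingHom S)]

theorem coeffMap_deltaLInv {S : Type*} [CommRing S] (f : R →+* S) :
    coeffMap f (deltaLInv R) = deltaLInv S := by
  rw [deltaLInv, deltaLInv, map_mul, coeffMap_single, map_one, coeffMap_ofPowerSeries,
    ← RingHom.comp_apply (PowerSeries.map f) (PowerSeries.map (Int.castRingHom R)),
    ← PowerSeries.map_comp, RingHom.ext_int (f.comp (Int.castRingHom R)) (Int.castRingHom S)]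

variable {R} (p : ℕ) [hp : Fact p.Prime] (ζ : Rˣ)

/-- The `p + 1` substitutions. -/
def sub : Option (ZMod p) → (LaurentSeries R →+* LaurentSeries R)
  | none => subT 1 (p * p)
  | some b => subT (ζ ^ b.val) 1

/-- The factor `p ^ 12` or `1`. -/
def wt (R : Type*) [CommRing R] : Option (ZMod p) → R
  | none => (p : R) ^ 12
  | some _ => 1

/-- The roots `J` of the modular polynomial. -/
def rootJ (γ : Option (ZMod p)) : LaurentSeries R := sub p ζ γ (jqModC R)

theorem rootJ_none : rootJ p ζ none = Jat (1 : Rˣ) (p * p) := rfl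

theorem rootJ_some (b : ZMod p) : rootJ p ζ (some b) = Jat (ζ ^ b.val) 1 := rfl

/-- The conjugates of `p ^ 12 Δ(q ^ p) / Δ(q)`. -/
def rootU (γ : Option (ZMod p)) : LaurentSeries R :=
  HahnSeries.C (wt p R γ) * sub p ζ γ (deltaL R) * qExpand R p (deltaLInv R)

/-- The modular polynomial with its roots. -/
def phiL : Polynomial (LaurentSeries R) := ∏ γ, (X - Polynomial.C (rootJ p ζ γ))

/-- The polynomial of the modular units. -/
def psiL : Polynomial (LaurentSeries R) := ∏ γ, (X - Polynomial.C (rootU p ζ γ))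

/-- The interpolation polynomial. -/
def lagL : Polynomial (LaurentSeries R) :=
  ∑ γ, Polynomial.C (rootU p ζ γ) * ∏ δ ∈ Finset.univ.erase γ, (X - Polynomial.C (rootJ p ζ δ))

variable {S : Type*} [CommRing S] (f : R →+* S)

theorem coeffMap_sub (γ : Option (ZMod p)) (x : LaurentSeries R) :
    coeffMap f (sub p ζ γ x) = sub p (Units.map (f : R →* S) ζ) γ (coeffMap f x) := by
  rcases γ with _ | b
  · show coeffMap f (subT 1 (p * p) x) = subT 1 (p * p) (coeffMap f x)
    rw [coeffMap_subT, map_one]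
  · show coeffMap f (subT (ζ ^ b.val) 1 x) = subT ((Units.map (f : R →* S) ζ) ^ b.val) 1 (coeffMap f x)
    rw [coeffMap_subT, map_pow]

theorem coeffMap_wt (γ : Option (ZMod p)) : f (wt p R γ) = wt p S γ := by
  rcases γ with _ | b <;> simp [wt]

theorem coeffMap_rootJ (γ : Option (ZMod p)) :
    coeffMap f (rootJ p ζ γ) = rootJ p (Units.map (f : R →* S) ζ) γ := by
  rw [rootJ, coeffMap_sub, coeffMap_jqModC, rootJ]

theorem coeffMap_rootU (γ : Option (ZMod p)) :
    coeffMap f (rootU p ζ γ) = rootU p (Units.map (f : R →* S) ζ) γ := by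
  rw [rootU, map_mul, map_mul, coeffMap_sub, coeffMap_deltaL, coeffMap_qExpand,
    coeffMap_deltaLInv, HahnSeries.C_apply, coeffMap_single, coeffMap_wt, ← HahnSeries.C_apply, rootU]

theorem map_phiL : (phiL p ζ).map (coeffMap f) = phiL p (Units.map (f : R →* S) ζ) := by
  simp [phiL, Polynomial.map_prod, coeffMap_rootJ]

theorem map_psiL : (psiL p ζ).map (coeffMap f) = psiL p (Units.map (f : R →* S) ζ) := by
  simp [psiL, Polynomial.map_prod, coeffMap_rootU]

theorem map_lagL : (lagL p ζ).map (coeffMap f) = lagL p (Units.map (f : R →* S) ζ) := by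
  simp [lagL, Polynomial.map_sum, Polynomial.map_prod, coeffMap_rootJ, coeffMap_rootU]

end Defs

section Complex

variable (p : ℕ) [hp : Fact p.Prime]

theorem ofPowerSeries_rescale (c : ℂˣ) (P : PowerSeries ℂ) :
    HahnSeries.ofPowerSeries ℤ ℂ (PowerSeries.rescale (c : ℂ) P) =
      subT c 1 (HahnSeries.ofPowerSeries ℤ ℂ P) := by
  rw [subT_apply, qExpand_one_apply]
  ext n
  rw [scale_coeff]
  rcases le_or_gt 0 n with hn | hn
  · lift n to ℕ using hn
    rw [HahnSeries.ofPowerSeries_apply_coeff, HahnSeries.ofPowerSeries_apply_coeff,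
      PowerSeries.coeff_rescale, zpow_natCast, Units.val_pow_eq_pow_val]
  · rw [ofPowerSeries_coeff_of_neg _ hn, ofPowerSeries_coeff_of_neg _ hn, mul_zero]

theorem laurentOf_fam (F : Level12) (γ : Option (ZMod p)) :
    laurentOf (fam p F γ) = HahnSeries.C (wt p ℂ γ) *
      sub p (zetaC p) γ (HahnSeries.ofPowerSeries ℤ ℂ F.pair.2) := by
  rcases γ with _ | b
  · show HahnSeries.ofPowerSeries ℤ ℂ (((p : ℂ) ^ 12) •
      PowerSeries.expand (p * p) (mul_ne_zero hp.out.ne_zero hp.out.ne_zero) F.pair.2) = _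
    rw [PowerSeries.smul_eq_C_mul, map_mul, HahnSeries.ofPowerSeries_C, ofPowerSeries_expand,
      ← subT_one]
    rfl
  · show HahnSeries.ofPowerSeries ℤ ℂ
      (PowerSeries.rescale ((zetaC p ^ b.val : ℂˣ) : ℂ) F.pair.2) = _
    rw [ofPowerSeries_rescale]
    simp [wt, sub]

theorem laurentOf_famBase : laurentOf (famBase p) = qExpand ℂ p (deltaL ℂ) :=
  ofPowerSeries_expand p _

theorem qExpand_deltaL_ne_zero : qExpand ℂ p (deltaL ℂ) ≠ 0 := by
  intro h
  have := congrArg (fun x => x * qExpand ℂ p (deltaLInv ℂ)) h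
  simp [← map_mul, deltaL_mul_inv] at this

theorem laurentOf_fam_disc (γ : Option (ZMod p)) :
    laurentOf (fam p disc12 γ) = qExpand ℂ p (deltaL ℂ) * rootU p (zetaC p) γ := by
  have h : qExpand ℂ p (deltaL ℂ) * qExpand ℂ p (deltaLInv ℂ) = 1 := by
    rw [← map_mul, deltaL_mul_inv, map_one]
  rw [laurentOf_fam, rootU]
  show _ * sub p (zetaC p) γ (deltaL ℂ) = _
  linear_combination (-(HahnSeries.C (wt p ℂ γ) * sub p (zetaC p) γ (deltaL ℂ))) * h

theorem laurentOf_fam_e4Cube (γ : Option (ZMod p)) :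
    laurentOf (fam p e4Cube γ) = laurentOf (fam p disc12 γ) * rootJ p (zetaC p) γ := by
  rw [laurentOf_fam, laurentOf_fam, rootJ, mul_assoc, ← map_mul]
  show _ = HahnSeries.C (wt p ℂ γ) * sub p (zetaC p) γ (deltaL ℂ * jqModC ℂ)
  rw [deltaL_mul_jqModC]
  rfl

theorem order_deltaL : (deltaL ℂ).order = 1 := by
  have h1 : (deltaL ℂ).coeff 1 ≠ 0 := by
    rw [deltaL, show (1 : ℤ) = ((1 : ℕ) : ℤ) from rfl, HahnSeries.ofPowerSeries_apply_coeff,
      deltaSeries, PowerSeries.coeff_succ_X_mul, PowerSeries.coeff_map,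
      PowerSeries.coeff_zero_eq_constantCoeff_apply, constantCoeff_dedekindEtaUnit]
    simp
  refine le_antisymm (HahnSeries.order_le_of_coeff_ne_zero h1) ?_
  by_contra hlt
  rw [not_le] at hlt
  refine coeff_order_ne (x := deltaL ℂ) (fun h => h1 (by rw [h]; rfl)) ?_
  rcases lt_or_ge (deltaL ℂ).order 0 with h | h
  · rw [deltaL] at h ⊢
    exact ofPowerSeries_coeff_of_neg _ h
  · rw [show (deltaL ℂ).order = ((0 : ℕ) : ℤ) by omega, deltaL,
      HahnSeries.ofPowerSeries_apply_coeff, deltaSeries]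
    simp

theorem order_deltaLInv : (deltaLInv ℂ).order = -1 := by
  have h := deltaL_mul_inv ℂ
  have hne : deltaLInv ℂ ≠ 0 := by intro h0; simp [h0] at h
  have hne' : deltaL ℂ ≠ 0 := by intro h0; simp [h0] at h
  have := congrArg HahnSeries.order h
  rw [HahnSeries.order_mul hne' hne, order_deltaL, HahnSeries.order_one] at this
  omega

theorem wt_ne_zero (γ : Option (ZMod p)) : wt p ℂ γ ≠ 0 := by
  rcases γ with _ | b <;> simp [wt, hp.out.ne_zero]

theorem rootU_ne_zero (γ : Option (ZMod p)) : rootU p (zetaC p) γ ≠ 0 := by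
  have hd : deltaL ℂ ≠ 0 := fun h => by simpa [h] using deltaL_mul_inv ℂ
  have hi : deltaLInv ℂ ≠ 0 := fun h => by simpa [h] using deltaL_mul_inv ℂ
  refine mul_ne_zero (mul_ne_zero ?_ ?_) ?_
  · exact HahnSeries.C_ne_zero (wt_ne_zero p γ)
  · exact (_root_.map_ne_zero _).mpr hd
  · exact (_root_.map_ne_zero _).mpr hi

theorem order_rootU (γ : Option (ZMod p)) :
    (rootU p (zetaC p) γ).order =
      (match γ with | none => ((p * p : ℕ) : ℤ) | some _ => 1) - (p : ℤ) := by
  have hd : deltaL ℂ ≠ 0 := fun h => by simpa [h] using deltaL_mul_inv ℂ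
  have hi : deltaLInv ℂ ≠ 0 := fun h => by simpa [h] using deltaL_mul_inv ℂ
  rw [rootU, HahnSeries.order_mul (mul_ne_zero (HahnSeries.C_ne_zero (wt_ne_zero p γ))
      ((_root_.map_ne_zero _).mpr hd)) ((_root_.map_ne_zero _).mpr hi),
    HahnSeries.order_mul (HahnSeries.C_ne_zero (wt_ne_zero p γ)) ((_root_.map_ne_zero _).mpr hd),
    HahnSeries.order_C, ← subT_one, order_subT _ _ hi, order_deltaLInv]
  rcases γ with _ | b
  · simp only [sub]
    rw [order_subT _ _ hd, order_deltaL]
    ring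
  · simp only [sub]
    rw [order_subT _ _ hd, order_deltaL]
    push_cast
    ring

theorem order_prod_rootU : (∏ γ, rootU p (zetaC p) γ).order = 0 := by
  rw [order_finset_prod _ _ fun γ _ => rootU_ne_zero p γ, Fintype.sum_option]
  simp [order_rootU]
  try ring

/-- The range of `Q ↦ Q(J(t ^ p))`. -/
def evQ (R : Type*) [CommRing R] : Polynomial R →+* LaurentSeries R :=
  (qExpand R p).comp (Polynomial.eval₂RingHom HahnSeries.C (jqModC R))

theorem evQ_apply {R : Type*} [CommRing R] (Q : Polynomial R) :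
    evQ p R Q = qExpand R p (Polynomial.eval₂ HahnSeries.C (jqModC R) Q) := rfl

theorem mem_evQ_of_delta_mul {m : ℕ} {x : LaurentSeries ℂ} {a : ℂ} (ha : a ≠ 0)
    {Q : Polynomial ℂ} (h : qExpand ℂ p (deltaL ℂ) ^ m * HahnSeries.C a * x =
      qExpand ℂ p (deltaL ℂ ^ m * Polynomial.eval₂ HahnSeries.C (jqModC ℂ) Q)) :
    x ∈ Set.range (evQ p ℂ) := by
  refine ⟨Polynomial.C a⁻¹ * Q, ?_⟩
  rw [map_mul, map_pow, mul_assoc] at h
  have h2 := mul_left_cancel₀ (pow_ne_zero m (qExpand_deltaL_ne_zero p)) h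
  rw [map_mul, evQ_apply, Polynomial.eval₂_C, qExpand_C, evQ_apply, ← h2, ← mul_assoc,
    ← map_mul, inv_mul_cancel₀ ha, map_one, one_mul]

theorem psiL_coeff_mem (n : ℕ) : (psiL p (zetaC p)).coeff n ∈ Set.range (evQ p ℂ) := by
  obtain ⟨Q, hQ⟩ := normPoly_levelOne p disc12 n
  refine mem_evQ_of_delta_mul p (m := p + 1) one_ne_zero (Q := Q) ?_
  rw [← hQ]
  have : (normPoly p disc12).map laurentOf =
      Polynomial.C (qExpand ℂ p (deltaL ℂ) ^ (p + 1)) * psiL p (zetaC p) := by
    simp only [normPoly, psiL, Polynomial.map_prod, Polynomial.map_sub, Polynomial.map_mul,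
      Polynomial.map_C, Polynomial.map_X, laurentOf_famBase, laurentOf_fam_disc]
    rw [map_pow, ← card_index p, ← Finset.prod_const, ← Finset.prod_mul_distrib]
    refine Finset.prod_congr rfl fun γ _ => ?_
    rw [map_mul]; ring
  rw [this, Polynomial.coeff_C_mul, map_one, mul_one]

theorem prod_rootU_eq_C : ∃ a : ℂ, a ≠ 0 ∧ ∏ γ, rootU p (zetaC p) γ = HahnSeries.C a := by
  obtain ⟨Q, hQ⟩ := psiL_coeff_mem p 0
  have hprod : (psiL p (zetaC p)).coeff 0 =
      (-1) ^ (p + 1) * ∏ γ, rootU p (zetaC p) γ := by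
    rw [Polynomial.coeff_zero_eq_eval_zero, psiL, Polynomial.eval_prod, ← card_index p,
      ← Finset.prod_const, ← Finset.prod_mul_distrib]
    simp
  rw [hprod] at hQ
  set u := ∏ γ, rootU p (zetaC p) γ with hu
  have hu0 : u ≠ 0 := Finset.prod_ne_zero_iff.mpr fun γ _ => rootU_ne_zero p γ
  have hQ' : evQ p ℂ (Polynomial.C ((-1 : ℂ) ^ (p + 1)) * Q) = u := by
    rw [map_mul, hQ, evQ_apply, Polynomial.eval₂_C, qExpand_C, map_pow, map_neg, map_one,
      ← mul_assoc, ← mul_pow, neg_one_mul, neg_neg, one_pow, one_mul]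
  set Q' := Polynomial.C ((-1 : ℂ) ^ (p + 1)) * Q
  have hQ0 : Q' ≠ 0 := fun h => hu0 (by rw [← hQ', h, map_zero])
  have hord := order_prod_rootU p
  rw [← hu, ← hQ', evQ_apply, ← subT_one,
    order_subT _ _ (fun h => hQ0 (poly_eval_jqModC_eq_zero h)), order_poly_eval hQ0] at hord
  have hdeg : Q'.natDegree = 0 := by
    rcases mul_eq_zero.mp hord with h | h
    · exact absurd (by exact_mod_cast h) hp.out.ne_zero
    · omega
  rw [Polynomial.eq_C_of_natDegree_eq_zero hdeg, evQ_apply, Polynomial.eval₂_C, qExpand_C] at hQ'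
  refine ⟨Q'.coeff 0, fun h => hu0 ?_, hQ'.symm⟩
  rw [← hQ', h, map_zero]

theorem prod_fam_disc (a : ℂ) (ha : ∏ γ, rootU p (zetaC p) γ = HahnSeries.C a) :
    ∏ γ, laurentOf (fam p disc12 γ) = qExpand ℂ p (deltaL ℂ) ^ (p + 1) * HahnSeries.C a := by
  rw [← ha, ← card_index p, ← Finset.prod_const, ← Finset.prod_mul_distrib]
  exact Finset.prod_congr rfl fun γ _ => laurentOf_fam_disc p γ

theorem phiL_coeff_mem (n : ℕ) : (phiL p (zetaC p)).coeff n ∈ Set.range (evQ p ℂ) := by
  obtain ⟨a, ha0, ha⟩ := prod_rootU_eq_C p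
  obtain ⟨Q, hQ⟩ := numPoly_levelOne p e4Cube disc12 n
  refine mem_evQ_of_delta_mul p (m := p + 1) ha0 (Q := Q) ?_
  rw [← hQ, ← prod_fam_disc p a ha]
  have : (numPoly p e4Cube disc12).map laurentOf =
      Polynomial.C (∏ γ, laurentOf (fam p disc12 γ)) * phiL p (zetaC p) := by
    simp only [numPoly, phiL, Polynomial.map_prod, Polynomial.map_sub, Polynomial.map_mul,
      Polynomial.map_C, Polynomial.map_X]
    rw [map_prod, ← Finset.prod_mul_distrib]
    refine Finset.prod_congr rfl fun γ _ => ?_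
    rw [laurentOf_fam_e4Cube, map_mul]; ring
  rw [this, Polynomial.coeff_C_mul]

theorem lagL_coeff_mem (n : ℕ) : (lagL p (zetaC p)).coeff n ∈ Set.range (evQ p ℂ) := by
  classical
  obtain ⟨a, ha0, ha⟩ := prod_rootU_eq_C p
  obtain ⟨Q, hQ⟩ := lagPoly_levelOne p e4Cube disc12 n
  refine mem_evQ_of_delta_mul p (m := p + 2) ha0 (Q := Q) ?_
  rw [← hQ]
  have : (lagPoly p e4Cube disc12).map laurentOf =
      Polynomial.C (qExpand ℂ p (deltaL ℂ) ^ (p + 2) * HahnSeries.C a) * lagL p (zetaC p) := by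
    rw [pow_succ', mul_assoc, ← prod_fam_disc p a ha]
    simp only [lagPoly, lagL, Polynomial.map_sum, Polynomial.map_prod, Polynomial.map_sub,
      Polynomial.map_mul, Polynomial.map_C, Polynomial.map_X, map_pow, Polynomial.map_pow,
      Finset.mul_sum]
    refine Finset.sum_congr rfl fun γ _ => ?_
    rw [Finset.prod_congr rfl (g := fun δ => Polynomial.C (laurentOf (fam p disc12 δ)) *
        (X - Polynomial.C (rootJ p (zetaC p) δ)))
      (fun δ _ => by rw [laurentOf_fam_e4Cube, map_mul]; ring),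
      Finset.prod_mul_distrib, ← Finset.mul_prod_erase Finset.univ _ (Finset.mem_univ γ),
      map_mul, map_mul, map_prod, laurentOf_fam_disc, map_mul]
    ring
  rw [this, Polynomial.coeff_C_mul]

end Complex

end Fermat.Agent.Igusa
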